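import Fermat.Agent.OpenImageAll.Exceptional
import Fermat.Agent.Supersingular.Dihedral

/-!
# The Frobenius field of an exceptional curve is constant

If `a_l = 0` at the inert good primes of a quadratic field `K`, the Frobenius elements with nonzero
trace lie in `G_K`, whose image on every Tate module is commutative: the discriminants
`a_l² - 4 l` differ by squares in every `ℚ_p`, hence in `ℚ`. Their common squarefree part has
vanishing traces at its own inert primes, so it is the `d` of `K`.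
-/

set_option autoImplicit false
set_option linter.unusedSectionVars false
set_option linter.style.haveILetI false

noncomputable section

open Matrix WeierstrassCurve FA.EC FA.Frob FA.RT FA.RT.Tate

local notation "Qb" => AlgebraicClosure ℚ
local notation "GQ" => AlgebraicClosure ℚ ≃ₐ[ℚ] AlgebraicClosure ℚ
local notation "M2" => Matrix (Fin 2) (Fin 2)

namespace FA.Exceptional

open Polynomial in
/-- An integer which is a square modulo all but finitely many primes is a square. -/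
theorem isSquare_of_mod_primes {n : ℤ} (S : Finset ℕ)
    (h : ∀ q : ℕ, q.Prime → q ∉ S → IsSquare (n : ZMod q)) : IsSquare n := by
  by_contra hn
  have hm : (X ^ 2 - C n).Monic := monic_X_pow_sub_C n two_ne_zero
  have hdeg : (X ^ 2 - C n).natDegree = 2 := natDegree_X_pow_sub_C
  have hirr : Irreducible (X ^ 2 - C n) := by
    rw [hm.irreducible_iff_roots_eq_zero_of_degree_le_three (by omega) (by omega)]
    refine Multiset.eq_zero_of_forall_notMem fun x hx => hn ⟨x, ?_⟩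
    have h0 := (mem_roots hm.ne_zero).mp hx
    simp at h0
    linear_combination -h0
  obtain ⟨q, ⟨hq, hroot⟩, hqS⟩ :=
    (FA.Summary.infinitely_many_primes_without_root _ hm hirr (by omega)).exists_notMem_finset S
  obtain ⟨x, hx⟩ := h q hq hqS
  exact hroot x (by simp [hx, pow_two])

/-- A negative integer is a square times a negative squarefree one. -/
theorem exists_squarefree_neg {D : ℤ} (hD : D < 0) :
    ∃ d b : ℤ, Squarefree d ∧ d < 0 ∧ b ≠ 0 ∧ D = d * b ^ 2 := by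
  obtain ⟨a, b, hab, ha⟩ := Nat.sq_mul_squarefree D.natAbs
  have h : D = -(a : ℤ) * (b : ℤ) ^ 2 := by
    rw [neg_mul, eq_comm, neg_eq_iff_eq_neg, ← Int.ofNat_natAbs_of_nonpos hD.le, ← hab]
    push_cast
    ring
  refine ⟨-(a : ℤ), (b : ℤ), ?_, by have := ha.ne_zero; omega, fun hb => ?_, h⟩
  · rwa [← Int.squarefree_natAbs, Int.natAbs_neg, Int.natAbs_natCast]
  · rw [hb] at h
    simp at h
    omega

/-- If `d b²` times `D` is a square then `D` is `d` times a square. -/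
theorem eq_mul_sq_of_isSquare {d b D : ℤ} (hd : Squarefree d) (hb : b ≠ 0)
    (h : IsSquare (d * b ^ 2 * D)) : ∃ w : ℤ, D = d * w ^ 2 := by
  obtain ⟨y, hy⟩ := h
  obtain ⟨z, rfl⟩ : b ∣ y :=
    (Int.pow_dvd_pow_iff (n := 2) two_ne_zero).mp ⟨d * D, by linear_combination -hy⟩
  have hz : d * D = z ^ 2 := mul_left_cancel₀ (pow_ne_zero 2 hb) (by linear_combination hy)
  obtain ⟨w, rfl⟩ := (hd.dvd_pow_iff_dvd two_ne_zero).mp ⟨D, hz.symm⟩
  exact ⟨w, mul_left_cancel₀ hd.ne_zero (by linear_combination hz)⟩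

/-- The discriminant of `t X + r` is `t²` times that of `X`. -/
theorem disc_smul_add {k : Type*} [Field k] (X : M2 k) (t r : k) :
    (t • X + r • 1).trace ^ 2 - 4 * (t • X + r • 1).det =
      t ^ 2 * (X.trace ^ 2 - 4 * X.det) := by
  simp only [trace_fin_two, det_fin_two, Matrix.add_apply, Matrix.smul_apply, smul_eq_mul,
    Matrix.one_apply_eq, Matrix.one_apply_ne (show (0 : Fin 2) ≠ 1 by decide),
    Matrix.one_apply_ne (show (1 : Fin 2) ≠ 0 by decide), mul_one, mul_zero, add_zero]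
  ring

variable {W : WeierstrassCurve ℤ} [(ratCurve W).IsElliptic]

/-- The discriminant of Frobenius is negative. -/
theorem disc_neg {l : ℕ} (hl : l.Prime) (hgood : W.IsGoodPrimeFor l) :
    W.apOfModel l ^ 2 - 4 * (l : ℤ) < 0 := by
  set a := W.apOfModel l
  have h1 : a ^ 2 ≤ 4 * (l : ℤ) := by
    have := FA.Summary.hasse_LFunction (ratCurve W) W 1 (one_smul _ _) hl hgood
    rwa [FA.Root.LFunction_apply_prime (ratCurve W) W ⟨1, one_smul _ _⟩ hl hgood] at this
  refine lt_of_le_of_ne (by linarith) fun h5 => ?_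
  obtain ⟨b, hb⟩ : (2 : ℤ) ∣ a := Int.prime_two.dvd_of_dvd_pow (n := 2) ⟨2 * l, by linarith⟩
  refine (Nat.prime_iff_prime_int.mp hl).not_isSquare ⟨b, ?_⟩
  rw [hb] at h5
  linarith

/-- **The discriminants of the Frobenius elements in `G_K` differ by squares.** -/
theorem isSquare_disc_mul_of_mem {d : ℤ} (hd : d ≠ 0) {s : Qb} {H : Subgroup GQ}
    (hs : s ^ 2 = (d : Qb)) (hH : H.index = 2) (hopen : IsOpen (H : Set GQ))
    (hfix : ∀ σ, σ ∈ H ↔ σ s = s)
    (h0 : ∀ l : ℕ, l.Prime → W.IsGoodPrimeFor l → ¬ IsSquare (d : ZMod l) → W.apOfModel l = 0)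
    {l l' : ℕ} (hl : l.Prime) (hl' : l'.Prime) (hg : W.IsGoodPrimeFor l)
    (hg' : W.IsGoodPrimeFor l')
    (hm : ∀ A : ValuationSubring Qb, A.LiesOverPrime l → ∀ F : GQ, A.IsFrobeniusAt F l → F ∈ H)
    (hm' : ∀ A : ValuationSubring Qb, A.LiesOverPrime l' →
      ∀ F : GQ, A.IsFrobeniusAt F l' → F ∈ H) :
    IsSquare ((W.apOfModel l ^ 2 - 4 * l) * (W.apOfModel l' ^ 2 - 4 * l')) := by
  refine isSquare_of_mod_primes {l, l'} fun p hp hpS => ?_
  simp only [Finset.mem_insert, Finset.mem_singleton, not_or] at hpS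
  haveI := Fact.mk hp
  obtain ⟨B⟩ := exists_tateBasis (p := p) W
  obtain ⟨A, hA⟩ := FA.Deform.exists_liesOverPrime hl
  obtain ⟨F, hF⟩ := FA.Deform.exists_isFrobeniusAt hl hA
  obtain ⟨A', hA'⟩ := FA.Deform.exists_liesOverPrime hl'
  obtain ⟨F', hF'⟩ := FA.Deform.exists_isFrobeniusAt hl' hA'
  obtain ⟨htr, hdet⟩ := B.rep_frobenius hl hA (Ne.symm hpS.1) hg hF
  obtain ⟨htr', hdet'⟩ := B.rep_frobenius hl' hA' (Ne.symm hpS.2) hg' hF'
  have hcomm := rep_mul_comm hd hs hH hopen hfix h0 B (hm' A' hA' F' hF') (hm A hA F hF)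
  let ι : ℤ_[p] →+* ℚ_[p] := PadicInt.Coe.ringHom
  let M := ι.mapMatrix (B.rep F)
  let N := ι.mapMatrix (B.rep F')
  have eM : M.trace ^ 2 - 4 * M.det = ((W.apOfModel l ^ 2 - 4 * l : ℤ) : ℚ_[p]) := by
    simp only [M]
    rw [RingHom.mapMatrix_apply, ← AddMonoidHom.map_trace, ← RingHom.mapMatrix_apply,
      ← RingHom.map_det, htr, hdet]
    simp
  have eN : N.trace ^ 2 - 4 * N.det = ((W.apOfModel l' ^ 2 - 4 * l' : ℤ) : ℚ_[p]) := by
    simp only [N]
    rw [RingHom.mapMatrix_apply, ← AddMonoidHom.map_trace, ← RingHom.mapMatrix_apply,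
      ← RingHom.map_det, htr', hdet']
    simp
  obtain ⟨t, r, hN⟩ := exists_eq_add_of_commute (X := M) (M := N) (fun c hc => by
      refine (disc_neg hl hg).ne (Int.cast_injective (α := ℚ_[p]) ?_)
      rw [← eM, hc, trace_smul, trace_one, det_smul, det_one, Fintype.card_fin, smul_eq_mul,
        Int.cast_zero]
      push_cast
      ring)
    ((map_mul ι.mapMatrix _ _).symm.trans ((congrArg ι.mapMatrix hcomm).trans (map_mul _ _ _)))
  rw [hN, disc_smul_add, eM] at eN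
  refine isSquare_zmod_of_padic _ ⟨t * ((W.apOfModel l ^ 2 - 4 * l : ℤ) : ℚ_[p]), ?_⟩
  rw [Int.cast_mul, ← eN]
  ring

/-- A Frobenius element with nonzero trace fixes `√d`. -/
theorem mem_of_trace_ne {d : ℤ} (hd : d ≠ 0) {s : Qb} {H : Subgroup GQ} (hs : s ^ 2 = (d : Qb))
    (hH : H.index = 2) (hopen : IsOpen (H : Set GQ)) (hfix : ∀ σ, σ ∈ H ↔ σ s = s)
    (h0 : ∀ l : ℕ, l.Prime → W.IsGoodPrimeFor l → ¬ IsSquare (d : ZMod l) → W.apOfModel l = 0)
    {l : ℕ} (hl : l.Prime) (hg : W.IsGoodPrimeFor l) (ha : W.apOfModel l ≠ 0)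
    (A : ValuationSubring Qb) (hA : A.LiesOverPrime l) (F : GQ) (hF : A.IsFrobeniusAt F l) :
    F ∈ H := by
  obtain ⟨p, hpl, hp⟩ := Nat.exists_infinite_primes (l + 1)
  haveI := Fact.mk hp
  obtain ⟨B⟩ := exists_tateBasis (p := p) W
  by_contra hFH
  exact ha (Int.cast_eq_zero.mp ((B.rep_frobenius hl hA (by omega) hg hF).1.symm.trans
    (trace_eq_zero hd hs hH hopen hfix h0 B hFH)))

/-- The discriminants at the primes with nonzero trace differ by squares. -/
theorem isSquare_disc_mul {d : ℤ} (hd : d ≠ 0) {s : Qb} {H : Subgroup GQ} (hs : s ^ 2 = (d : Qb))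
    (hH : H.index = 2) (hopen : IsOpen (H : Set GQ)) (hfix : ∀ σ, σ ∈ H ↔ σ s = s)
    (h0 : ∀ l : ℕ, l.Prime → W.IsGoodPrimeFor l → ¬ IsSquare (d : ZMod l) → W.apOfModel l = 0)
    {l l' : ℕ} (hl : l.Prime) (hl' : l'.Prime) (hg : W.IsGoodPrimeFor l)
    (hg' : W.IsGoodPrimeFor l') (ha : W.apOfModel l ≠ 0) (ha' : W.apOfModel l' ≠ 0) :
    IsSquare ((W.apOfModel l ^ 2 - 4 * l) * (W.apOfModel l' ^ 2 - 4 * l')) :=
  isSquare_disc_mul_of_mem hd hs hH hopen hfix h0 hl hl' hg hg'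
    (mem_of_trace_ne hd hs hH hopen hfix h0 hl hg ha)
    (mem_of_trace_ne hd hs hH hopen hfix h0 hl' hg' ha')

/-- One discriminant class gives vanishing at its inert primes. -/
theorem vanishing_of_field {d a : ℤ} {l : ℕ} (hl : l.Prime) (hns : ¬ IsSquare (d : ZMod l))
    (h : a ≠ 0 → ∃ b : ℤ, a ^ 2 - 4 * l = d * b ^ 2) : a = 0 := by
  by_contra ha
  haveI := Fact.mk hl
  obtain ⟨b, hb⟩ := h ha
  have hlb : (l : ℤ) ∣ b := by
    rw [← ZMod.intCast_zmod_eq_zero_iff_dvd]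
    by_contra hb0
    refine hns ⟨(a : ZMod l) / b, ?_⟩
    have := congrArg (Int.cast (R := ZMod l)) hb
    push_cast at this
    rw [ZMod.natCast_self, mul_zero, sub_zero] at this
    field_simp
    linear_combination -this
  obtain ⟨y, rfl⟩ := hlb
  obtain ⟨x, rfl⟩ : (l : ℤ) ∣ a := (Nat.prime_iff_prime_int.mp hl).dvd_of_dvd_pow (n := 2)
    ⟨4 + d * l * y ^ 2, by linear_combination hb⟩
  have h4 : (l : ℤ) ∣ 4 := ⟨x ^ 2 - d * y ^ 2, mul_left_cancel₀
    (Int.natCast_ne_zero.mpr hl.ne_zero) (by linear_combination -hb)⟩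
  obtain rfl := (Nat.prime_dvd_prime_iff_eq hl Nat.prime_two).mp
    (hl.dvd_of_dvd_pow (n := 2) (Int.natCast_dvd_natCast.mp h4 : l ∣ 2 ^ 2))
  exact hns ⟨d, by generalize (d : ZMod 2) = z; revert z; decide⟩

/-- Any class of one discriminant gives the class of all. -/
theorem exists_field_of_isSquare
    (h : ∀ l l' : ℕ, l.Prime → l'.Prime → W.IsGoodPrimeFor l → W.IsGoodPrimeFor l' →
      W.apOfModel l ≠ 0 → W.apOfModel l' ≠ 0 →
      IsSquare ((W.apOfModel l ^ 2 - 4 * l) * (W.apOfModel l' ^ 2 - 4 * l'))) :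
    ∃ d : ℤ, Squarefree d ∧ d < 0 ∧ ∀ l : ℕ, l.Prime → W.IsGoodPrimeFor l →
      W.apOfModel l ≠ 0 → ∃ b : ℤ, W.apOfModel l ^ 2 - 4 * l = d * b ^ 2 := by
  obtain ⟨l₀, hl₀, -, hg₀, ha₀⟩ := exists_good_trace_ne (W := W) ∅
  obtain ⟨d, b, hd, hneg, hb, he⟩ := exists_squarefree_neg (disc_neg hl₀ hg₀)
  exact ⟨d, hd, hneg, fun l hl hg ha =>
    eq_mul_sq_of_isSquare hd hb (he ▸ h l₀ l hl₀ hl hg₀ hg ha₀ ha)⟩

/-- **The Frobenius field is `ℚ(√d)`.** -/
theorem exists_disc_eq {d : ℤ} (hd : Squarefree d) (hd1 : d ≠ 1)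
    (h0 : ∀ l : ℕ, l.Prime → W.IsGoodPrimeFor l → ¬ IsSquare (d : ZMod l) → W.apOfModel l = 0)
    {l : ℕ} (hl : l.Prime) (hg : W.IsGoodPrimeFor l) (ha : W.apOfModel l ≠ 0) :
    ∃ b : ℤ, W.apOfModel l ^ 2 - 4 * l = d * b ^ 2 := by
  obtain ⟨s, H, hs, hH, hopen, hfix⟩ := FA.OpenImageAll.exists_index_two_of_sqrt hd hd1
  obtain ⟨d', hd', hneg, hall⟩ := exists_field_of_isSquare fun l l' hl hl' hg hg' ha ha' =>
    isSquare_disc_mul hd.ne_zero hs hH hopen hfix h0 hl hl' hg hg' ha ha'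
  obtain rfl : d = d' := FA.Supersingular.inertVanish_unique (W := W) hd hd1 h0 hd' (by omega)
    fun q hq hqg hns => vanishing_of_field hq hns (hall q hq hqg)
  exact hall l hl hg ha

end FA.Exceptional

end
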