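import Fermat.Agent.Root.SummaryChebotarevTraces
import Fermat.Agent.SerreLarge.Field

/-!
# Frobenius elements seen by a large prime

When the image modulo all large primes `q` is everything, Chebotarev's theorem gives, outside any
finite set, good primes `l` with `a_l ≠ 0` whose Frobenius elements lie outside a given open
subgroup of index two, and good primes at which no fixed power of Frobenius is scalar, modulo `q`
and hence on every Tate module.
-/

set_option autoImplicit false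
set_option linter.style.haveILetI false

noncomputable section

open Matrix WeierstrassCurve FA.EC FA.Frob FA.RT FA.RT.Tate

local notation "Qb" => AlgebraicClosure ℚ
local notation "GQ" => AlgebraicClosure ℚ ≃ₐ[ℚ] AlgebraicClosure ℚ
local notation "M2" k => Matrix (Fin 2) (Fin 2) k

namespace FA.OpenImageAll

open FA.LocalDef (res res_charP res_pow res_eq res_add res_zero mem_of_map_le)

variable {W : WeierstrassCurve ℤ} [(ratCurve W).IsElliptic]

variable (W) in
/-- Galois gives every invertible matrix modulo every large prime. -/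
def SurjectiveLarge : Prop :=
  ∃ M : ℕ, ∀ q : ℕ, ∀ [Fact q.Prime], M < q → ∀ X : M2 (ZMod q), X.det ≠ 0 →
    ∃ σ : GQ, curveRep q W σ = X

/-- Chebotarev for a homomorphism which need not be surjective. -/
theorem exists_frobenius_mem_of_mem {G : Type} [Group G] [Finite G] (f : GQ →* G)
    (hker : IsOpen (f.ker : Set GQ)) {X : Set G} (hX : ∀ g ∈ X, ∀ x, x * g * x⁻¹ ∈ X) {σ : GQ}
    (hσ : f σ ∈ X) (S : Finset ℕ) :
    ∃ p : ℕ, p.Prime ∧ p ∉ S ∧ ∀ A : ValuationSubring Qb, A.LiesOverPrime p →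
      ∀ τ : GQ, A.IsFrobeniusAt τ p → f τ ∈ X := by
  have := Fintype.ofFinite f.range
  obtain ⟨p, hp, hpS, h⟩ := FA.Chebotarev.exists_frobenius_mem f.rangeRestrict
    f.rangeRestrict_surjective (by rwa [MonoidHom.ker_rangeRestrict])
    (X := {g : f.range | g.1 ∈ X}) (fun g hg x => hX g.1 hg x.1) ⟨⟨f σ, σ, rfl⟩, hσ⟩ S
  exact ⟨p, hp, hpS, fun A hA τ hτ => h A hA τ hτ⟩

/-- A power of a matrix is an integral combination of it and one, with coefficients depending only
on the trace and the determinant. -/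
theorem exists_pow_eq_combination (a l : ℤ) (n : ℕ) : ∃ u w : ℤ, ∀ (R : Type) [CommRing R]
    (M : M2 R), M.trace = a → M.det = l → M ^ n = (u : R) • M + (w : R) • 1 := by
  induction n with
  | zero => exact ⟨0, 1, fun R _ M _ _ => by simp⟩
  | succ n ih =>
    obtain ⟨u, w, h⟩ := ih
    refine ⟨u * a + w, -(u * l), fun R _ M ht hd => ?_⟩
    rw [pow_succ, h R M ht hd, add_mul, smul_mul_assoc, smul_mul_assoc, one_mul,
      FA.LocalDef.mul_self_two, ht, hd]
    push_cast
    rw [smul_sub, smul_smul, smul_smul, add_smul, neg_smul]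
    abel

theorem isOpen_ker_toHomUnits (q : ℕ) [Fact q.Prime] :
    IsOpen ((curveRep q W).toHomUnits.ker : Set GQ) :=
  Subgroup.isOpen_mono (fun _ hσ => MonoidHom.mem_ker.mpr (Units.ext (MonoidHom.mem_ker.mp hσ)))
    (isOpen_ker_curveRep W)

/-- **A good prime with no scalar power of Frobenius** modulo a large prime: no fixed power is
scalar on all of a Tate module. -/
theorem false_of_pow_scalar (hsurj : SurjectiveLarge W) {p : ℕ} [hp : Fact p.Prime]
    (B : TateBasis p W) {n : ℕ} (hn : 0 < n)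
    (h : ∀ g, ∃ c : ℤ_[p], B.rep g ^ n = c • 1) : False := by
  classical
  obtain ⟨M, hM⟩ := hsurj
  obtain ⟨q, hq, hqp⟩ := Nat.exists_infinite_primes (M + n + 1)
  haveI := Fact.mk hqp
  have hΔ : W.Δ ≠ 0 := fun h => (ratCurve W).isUnit_Δ.ne_zero (by simp [ratCurve, h])
  -- a unipotent element
  have hU : ∀ m : ℕ, (!![1, 1; 0, 1] : M2 (ZMod q)) ^ m = !![1, (m : ZMod q); 0, 1] := fun m => by
    induction m with
    | zero => simp [Matrix.one_fin_two]
    | succ m ih => rw [pow_succ, ih]; simp [add_comm]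
  obtain ⟨σ, hσ⟩ := hM q (by omega) !![1, 1; 0, 1] (by simp [det_fin_two_of])
  let X : Set (M2 (ZMod q))ˣ := {g | ∀ c : ZMod q, (g : M2 (ZMod q)) ^ n ≠ c • 1}
  have hX : ∀ g ∈ X, ∀ x, x * g * x⁻¹ ∈ X := fun g hg x c hc => hg c (by
    rw [← Units.val_pow_eq_pow_val, conj_pow] at hc
    have h1 := congrArg (fun Z => (↑x⁻¹ : M2 (ZMod q)) * Z * x) hc
    simp only [Units.val_mul, mul_assoc, Units.inv_mul, mul_one, Units.inv_mul_cancel_left,
      Algebra.smul_mul_assoc, Algebra.mul_smul_comm] at h1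
    rwa [Units.val_pow_eq_pow_val] at h1)
  obtain ⟨l, hl, hlS, hF⟩ := exists_frobenius_mem_of_mem (curveRep q W).toHomUnits
    (isOpen_ker_toHomUnits q) hX (σ := σ) (fun c hc => by
      rw [MonoidHom.coe_toHomUnits, hσ, hU] at hc
      have h1 := congrFun (congrFun hc 0) 1
      simp only [Matrix.cons_val_one, Matrix.cons_val_fin_one, Matrix.cons_val_zero, of_apply,
        Matrix.smul_apply, Matrix.one_apply_ne (show (0 : Fin 2) ≠ 1 by decide), smul_zero] at h1
      have := Nat.le_of_dvd hn ((ZMod.natCast_eq_zero_iff n q).mp h1)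
      omega) ({p, q} ∪ W.Δ.natAbs.primeFactors)
  simp only [Finset.mem_union, Finset.mem_insert, Finset.mem_singleton, not_or] at hlS
  obtain ⟨⟨hlp, hlq⟩, hlΔ⟩ := hlS
  have hgood : W.IsGoodPrimeFor l := fun hd => hlΔ (Nat.mem_primeFactors.mpr
    ⟨hl, Int.natCast_dvd.mp hd, Int.natAbs_ne_zero.mpr hΔ⟩)
  obtain ⟨A, hA⟩ := FA.Deform.exists_liesOverPrime hl
  obtain ⟨F, hFr⟩ := FA.Deform.exists_isFrobeniusAt hl hA
  obtain ⟨u, w, huw⟩ := exists_pow_eq_combination (W.apOfModel l) l n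
  obtain ⟨ht, hd⟩ := B.rep_frobenius hl hA hlp hgood hFr
  obtain ⟨ht', hd'⟩ := FA.Ribet.curveRep_frobenius (p := q) hl hlq hgood hA hFr
  obtain ⟨c, hc⟩ := h F
  rw [huw _ _ (by exact_mod_cast ht) (by exact_mod_cast hd)] at hc
  have e01 := congrFun (congrFun hc 0) 1
  have e10 := congrFun (congrFun hc 1) 0
  have e00 := congrFun (congrFun hc 0) 0
  have e11 := congrFun (congrFun hc 1) 1
  simp only [Matrix.add_apply, Matrix.smul_apply, smul_eq_mul, Matrix.one_apply_eq,
    Matrix.one_apply_ne (show (0 : Fin 2) ≠ 1 by decide),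
    Matrix.one_apply_ne (show (1 : Fin 2) ≠ 0 by decide), mul_zero, add_zero, mul_one]
    at e01 e10 e00 e11
  have hu : u = 0 := by
    by_contra hu
    have hu' : (u : ℤ_[p]) ≠ 0 := Int.cast_ne_zero.mpr hu
    have z01 := (mul_eq_zero.mp e01).resolve_left hu'
    have z10 := (mul_eq_zero.mp e10).resolve_left hu'
    have zd : B.rep F 0 0 = B.rep F 1 1 := mul_left_cancel₀ hu'
      (by linear_combination e00 - e11)
    rw [trace_fin_two] at ht
    rw [det_fin_two, z01, z10, zero_mul, sub_zero] at hd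
    have h4 : ((W.apOfModel l ^ 2 : ℤ) : ℤ_[p]) = ((4 * l : ℤ) : ℤ_[p]) := by
      push_cast
      rw [← ht, ← hd, zd]
      ring
    have h5 : W.apOfModel l ^ 2 = 4 * (l : ℤ) := Int.cast_injective h4
    obtain ⟨b, hb⟩ : (2 : ℤ) ∣ W.apOfModel l :=
      Int.prime_two.dvd_of_dvd_pow (n := 2) ⟨2 * l, by rw [h5]; ring⟩
    refine (Nat.prime_iff_prime_int.mp hl).not_isSquare ⟨b, ?_⟩
    rw [hb] at h5
    linarith
  refine hF A hA F hFr (w : ZMod q) ?_
  rw [MonoidHom.coe_toHomUnits, huw _ _ (by exact_mod_cast ht') (by exact_mod_cast hd'), hu,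
    Int.cast_zero, zero_smul, zero_add]

/-- **A good prime with nonzero trace outside a subgroup of index two.** -/
theorem exists_frobenius_trace_ne (hsurj : SurjectiveLarge W) {H : Subgroup GQ}
    (hH : H.index = 2) (hopen : IsOpen (H : Set GQ)) (S : Finset ℕ) :
    ∃ l : ℕ, l.Prime ∧ l ∉ S ∧ W.IsGoodPrimeFor l ∧ W.apOfModel l ≠ 0 ∧
      ∀ A : ValuationSubring Qb, A.LiesOverPrime l → ∀ τ : GQ, A.IsFrobeniusAt τ l → τ ∉ H := by
  classical
  obtain ⟨M, hM⟩ := hsurj
  obtain ⟨q, hq, hqp⟩ := Nat.exists_infinite_primes (M + 3)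
  haveI := Fact.mk hqp
  haveI : H.Normal := Subgroup.normal_of_index_eq_two hH
  haveI : H.FiniteIndex := ⟨by omega⟩
  have hΔ : W.Δ ≠ 0 := fun h => (ratCurve W).isUnit_Δ.ne_zero (by simp [ratCurve, h])
  set r := curveRep q W
  have h2 : (2 : ZMod q) ≠ 0 := fun h => by
    have := Nat.le_of_dvd two_pos ((ZMod.natCast_eq_zero_iff 2 q).mp (by exact_mod_cast h))
    omega
  -- an element
  obtain ⟨σ, hσH, hσt⟩ : ∃ σ, σ ∉ H ∧ (r σ).trace ≠ 0 := by
    by_contra hc
    push Not at hc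
    obtain ⟨σ, hσ⟩ := SetLike.exists_not_mem_of_ne_top H (fun h => by simp [h] at hH) rfl
    have key : ∀ T ∈ H, (r σ * r T).trace = 0 := fun T hT => by
      rw [← map_mul]
      exact hc _ fun h => hσ ((H.mul_mem_cancel_right hT).mp h)
    have hsq : ∀ X : M2 (ZMod q), X.det ≠ 0 → ∃ T ∈ H, r T = X * X := fun X hX => by
      obtain ⟨τ, hτ⟩ := hM q (by omega) X hX
      exact ⟨τ * τ, Subgroup.mul_self_mem_of_index_two hH τ, by rw [map_mul, hτ]⟩
    obtain ⟨T, hT, eT⟩ := hsq !![1, 2⁻¹; 0, 1] (by simp [det_fin_two_of])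
    obtain ⟨T', hT', eT'⟩ := hsq !![1, 0; 2⁻¹, 1] (by simp [det_fin_two_of])
    have hhalf : (2 : ZMod q)⁻¹ + 2⁻¹ = 1 := by rw [← two_mul, mul_inv_cancel₀ h2]
    simp only [Matrix.mul_fin_two, mul_one, one_mul, mul_zero, zero_mul, add_zero, zero_add,
      hhalf] at eT eT'
    have h1 := key 1 H.one_mem
    have h3 := key T hT
    have h4 := key T' hT'
    have h5 := key (T * T') (H.mul_mem hT hT')
    rw [map_one, mul_one] at h1
    rw [eT] at h3
    rw [eT'] at h4
    rw [map_mul, eT, eT'] at h5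
    simp only [trace_fin_two, Matrix.mul_apply, Fin.sum_univ_two, of_apply, cons_val_zero,
      cons_val_one, cons_val_fin_one] at h1 h3 h4 h5
    have hu : IsUnit (r σ).det := ((Group.isUnit σ).map r).map Matrix.detMonoidHom
    refine hu.ne_zero ?_
    have a00 : r σ 0 0 = 0 := by linear_combination h5 - h3 - h4 + h1
    have a10 : r σ 1 0 = 0 := by linear_combination h3 - h1
    rw [det_fin_two, a00, a10]
    ring
  let f := r.toHomUnits.prod (QuotientGroup.mk' H)
  have hker : IsOpen (f.ker : Set GQ) := by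
    have : f.ker = r.toHomUnits.ker ⊓ H := by
      rw [MonoidHom.ker_prod, QuotientGroup.ker_mk']
    rw [this, Subgroup.coe_inf]
    exact (isOpen_ker_toHomUnits q).inter hopen
  let X : Set ((M2 (ZMod q))ˣ × GQ ⧸ H) := {g | (g.1 : M2 (ZMod q)).trace ≠ 0 ∧ g.2 ≠ 1}
  have hX : ∀ g ∈ X, ∀ x, x * g * x⁻¹ ∈ X := fun g hg x => by
    refine ⟨?_, fun h => hg.2 (conj_eq_one_iff.mp h)⟩
    rw [Prod.fst_mul, Prod.fst_mul, Prod.fst_inv, Units.val_mul, Units.val_mul,
      Matrix.trace_units_conj]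
    exact hg.1
  obtain ⟨l, hl, hlS, hF⟩ := exists_frobenius_mem_of_mem f hker hX (σ := σ)
    ⟨hσt, fun h => hσH ((QuotientGroup.eq_one_iff σ).mp h)⟩
    (S ∪ {q} ∪ W.Δ.natAbs.primeFactors)
  simp only [Finset.mem_union, Finset.mem_singleton, not_or] at hlS
  obtain ⟨⟨hlS', hlq⟩, hlΔ⟩ := hlS
  have hgood : W.IsGoodPrimeFor l := fun hd => hlΔ (Nat.mem_primeFactors.mpr
    ⟨hl, Int.natCast_dvd.mp hd, Int.natAbs_ne_zero.mpr hΔ⟩)
  refine ⟨l, hl, hlS', hgood, fun h0 => ?_, fun A hA τ hτ hmem =>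
    (hF A hA τ hτ).2 ((QuotientGroup.eq_one_iff τ).mpr hmem)⟩
  obtain ⟨A, hA⟩ := FA.Deform.exists_liesOverPrime hl
  obtain ⟨F, hFr⟩ := FA.Deform.exists_isFrobeniusAt hl hA
  refine (hF A hA F hFr).1 ?_
  show (r F).trace = 0
  rw [trace_curveRep W hl hgood (Ne.symm hlq) hA hFr, h0, Int.cast_zero]

/-- The fixing subgroup of a square root of a squarefree `d ≠ 1` has index two and is open. -/
theorem exists_index_two_of_sqrt {d : ℤ} (hd : Squarefree d) (hd1 : d ≠ 1) :
    ∃ (s : Qb) (H : Subgroup GQ), s ^ 2 = (d : Qb) ∧ H.index = 2 ∧ IsOpen (H : Set GQ) ∧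
      ∀ σ, σ ∈ H ↔ σ s = s := by
  haveI : IsGalois ℚ Qb := FA.EC.isGalois_algebraicClosure
  obtain ⟨s, hs⟩ := IsAlgClosed.exists_pow_nat_eq (d : Qb) two_pos
  haveI : FiniteDimensional ℚ (IntermediateField.adjoin ℚ {s}) :=
    IntermediateField.adjoin.finiteDimensional (Algebra.IsIntegral.isIntegral s)
  set H := (IntermediateField.adjoin ℚ {s}).fixingSubgroup
  have hH : ∀ σ, σ ∈ H ↔ σ s = s := fun σ => by
    refine ⟨fun h => (IntermediateField.mem_fixingSubgroup_iff _ σ).mp h s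
      (IntermediateField.mem_adjoin_simple_self ℚ s), fun h => ?_⟩
    rw [IntermediateField.mem_fixingSubgroup_iff]
    intro y hy
    induction hy using IntermediateField.adjoin_induction with
    | mem z hz => rw [Set.mem_singleton_iff] at hz; rw [hz, h]
    | algebraMap r => exact σ.commutes r
    | add a b _ _ ha hb => rw [map_add, ha, hb]
    | inv a _ ha => rw [map_inv₀, ha]
    | mul a b _ _ ha hb => rw [map_mul, ha, hb]
  have hpm : ∀ σ : GQ, σ s = s ∨ σ s = -s := fun σ =>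
    sq_eq_sq_iff_eq_or_eq_neg.mp (by rw [← map_pow, hs, map_intCast])
  have hs0 : s ≠ 0 := fun h => hd.ne_zero (by
    rw [h, zero_pow two_ne_zero, eq_comm, Int.cast_eq_zero] at hs
    exact hs)
  obtain ⟨σ, hσ⟩ : ∃ σ : GQ, σ s = -s := by
    by_contra hc
    push Not at hc
    obtain ⟨r, hr⟩ := FA.Local.exists_ratCast_of_fixed s fun σ => (hpm σ).resolve_right (hc σ)
    have hsq : IsSquare (d : ℚ) := ⟨r, by
      have h1 : ((d : ℚ) : Qb) = ((r * r : ℚ) : Qb) := by
        push_cast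
        rw [← hs, ← hr, sq]
      exact_mod_cast h1⟩
    obtain ⟨t, ht⟩ := Rat.isSquare_intCast_iff.mp hsq
    have hu := hd t ⟨1, by rw [mul_one]; exact ht⟩
    rcases Int.isUnit_iff.mp hu with rfl | rfl <;> exact hd1 (by rw [ht]; norm_num)
  refine ⟨s, H, hs, Subgroup.index_eq_two_iff.mpr ⟨σ, fun b => ?_⟩,
    IntermediateField.fixingSubgroup_isOpen _, hH⟩
  rw [hH, hH, show (b * σ) s = b (σ s) from rfl, hσ, map_neg]
  rcases hpm b with h | h
  · exact Or.inr ⟨h, fun e => FA.Two.neg_ne_self hs0 (by rw [← h]; exact e.trans h.symm)⟩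
  · exact Or.inl ⟨by rw [h, neg_neg], fun e => FA.Two.neg_ne_self hs0 (h.symm.trans e)⟩

/-- A Frobenius element moving `√d` shows that `d` is not a square modulo the prime. -/
theorem not_isSquare_of_frobenius_apply_ne {l : ℕ} (hl : l.Prime) (hl2 : l ≠ 2) {d : ℤ}
    (hd : ¬ (l : ℤ) ∣ d) {A : ValuationSubring Qb} (hA : A.LiesOverPrime l) {σ : GQ}
    (hσ : A.IsFrobeniusAt σ l) {s : Qb} (hs : s ^ 2 = (d : Qb)) (hne : σ s ≠ s) :
    ¬ IsSquare (d : ZMod l) := fun hsq => by
  haveI := Fact.mk hl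
  haveI := res_charP hl hA
  have hd0 : (d : ZMod l) ≠ 0 := fun h => hd ((ZMod.intCast_zmod_eq_zero_iff_dvd d l).mp h)
  have hint : A.valuation (d : Qb) ≤ 1 :=
    (A.valuation_le_one_iff _).mpr (intCast_mem A d)
  have hv : A.valuation s ≤ 1 := by
    rw [← hs, map_pow] at hint
    exact (pow_le_one_iff_of_nonneg zero_le two_ne_zero).mp hint
  have hrs : res A s ^ 2 = (d : FA.LocalDef.Res A) := by
    rw [← res_pow hv, hs, res_eq ((A.valuation_le_one_iff _).mpr (intCast_mem A d)),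
      ← map_intCast (IsLocalRing.residue A)]
    rfl
  have hfix := (FA.CM.EndoSquare.frobenius_sqrt hl2 hd0 hrs).1 hsq
  have hneg : σ s = -s := (sq_eq_sq_iff_eq_or_eq_neg.mp
    (by rw [← map_pow, hs, map_intCast])).resolve_left hne
  have hv' : A.valuation (σ s) ≤ 1 := by rwa [hneg, Valuation.map_neg]
  have h : res A (σ s) = res A s ^ l := by
    have := hσ.smul_residue_eq (IsLocalRing.residue A ⟨s, mem_of_map_le hv⟩)
    rw [← IsLocalRing.ResidueField.residue_smul] at this
    rw [res_eq (x := s) hv, res_eq (x := σ s) hv']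
    exact this
  rw [← frobenius_def, hfix] at h
  have hadd : res A (σ s) + res A s = 0 := by
    rw [← res_add hv' hv, hneg, neg_add_cancel, res_zero]
  have h0 : res A s = 0 := by
    have h2 : (2 : FA.LocalDef.Res A) ≠ 0 := fun e =>
      hl2 ((Nat.prime_dvd_prime_iff_eq hl Nat.prime_two).mp
      ((CharP.cast_eq_zero_iff (FA.LocalDef.Res A) l 2).mp (by exact_mod_cast e)))
    refine (mul_eq_zero.mp ?_).resolve_left h2
    linear_combination hadd - h
  rw [h0, zero_pow two_ne_zero, eq_comm, CharP.intCast_eq_zero_iff (FA.LocalDef.Res A) l] at hrs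
  exact hd hrs

end FA.OpenImageAll

end
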