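import Fermat.Agent.Ribet.SerreSurjective
import Fermat.Agent.SerreLarge.Klein
import Mathlib.RingTheory.IntegralDomain
import Mathlib.NumberTheory.LegendreSymbol.Basic

/-!
# An image with every characteristic polynomial is everything

A homomorphism to `2 × 2` matrices modulo `p ≥ 5` taking every trace with every nonzero determinant
fixes no line and, being neither split nor non-split dihedral, contains a transvection: so it is
onto `GL₂(𝔽_p)`.
-/

set_option autoImplicit false

noncomputable section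

open Matrix

namespace FA.CharPolys

variable {p : ℕ} [hp : Fact p.Prime] {G : Type*} [Group G]

local notation "M2" => Matrix (Fin 2) (Fin 2)

/-- A trace and a determinant with discriminant a nonsquare. -/
theorem exists_nonsquare_disc (hp2 : p ≠ 2) :
    ∃ d : ZMod p, d ≠ 0 ∧ ¬ IsSquare ((1 : ZMod p) ^ 2 - 4 * d) := by
  obtain ⟨n, hn⟩ := FiniteField.exists_nonsquare (F := ZMod p) (by rwa [ZMod.ringChar_zmod_n])
  have h2 : (2 : ZMod p) ≠ 0 := fun e => hp2 ((Nat.prime_dvd_prime_iff_eq hp.out Nat.prime_two).mp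
    ((ZMod.natCast_eq_zero_iff 2 p).mp (by exact_mod_cast e)))
  have h4 : (4 : ZMod p) ≠ 0 := by
    rw [show (4 : ZMod p) = 2 * 2 by norm_num]
    exact mul_ne_zero h2 h2
  refine ⟨(1 - n) / 4, div_ne_zero (sub_ne_zero.mpr fun e => hn (e ▸ ⟨1, by ring⟩)) h4, ?_⟩
  rw [mul_div_cancel₀ _ h4, show (1 : ZMod p) ^ 2 - (1 - n) = n by ring]
  exact hn

/-- A matrix whose discriminant is no square fixes no line. -/
theorem moves_line {M : M2 (ZMod p)} (h : ¬ IsSquare (M.trace ^ 2 - 4 * M.det))
    {l : Fin 2 → ZMod p} (hl : l ≠ 0) (a : ZMod p) : M *ᵥ l ≠ a • l := by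
  intro hM
  have hd : (M - a • 1).det = 0 := by
    refine Matrix.exists_mulVec_eq_zero_iff.mp ⟨l, hl, ?_⟩
    rw [sub_mulVec, smul_mulVec, one_mulVec, hM, sub_self]
  simp [det_fin_two] at hd
  exact h ⟨2 * a - M.trace, by rw [trace_fin_two, det_fin_two]; linear_combination -4 * hd⟩

/-- **A transvection**, `p ≥ 7`: a split element of projective order at least six and an element
without eigenvalue, of trace one. -/
theorem exists_transvection_of_seven (h7 : 7 ≤ p) (r : G →* M2 (ZMod p))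
    (hall : ∀ t d : ZMod p, d ≠ 0 → ∃ g, (r g).trace = t ∧ (r g).det = d) :
    ∃ σ, r σ ≠ 1 ∧ (r σ - 1) * (r σ - 1) = 0 := by
  have hp2 : p ≠ 2 := by omega
  obtain ⟨d, hd0, hns⟩ := exists_nonsquare_disc (p := p) hp2
  obtain ⟨x, hxt, hxd⟩ := hall 1 d hd0
  have hx : ¬ IsSquare ((r x).trace ^ 2 - 4 * (r x).det) := by rwa [hxt, hxd]
  by_contra hno
  obtain ⟨u, hu⟩ := IsCyclic.exists_generator (α := (ZMod p)ˣ)
  have hord : orderOf u = p - 1 := by
    rw [orderOf_eq_card_of_forall_mem_zpowers hu, Nat.card_eq_fintype_card, ZMod.card_units]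
  set g : ZMod p := (↑u : ZMod p) with hg
  have hg0 : g ≠ 0 := u.ne_zero
  have hgn : ∀ n : ℕ, 0 < n → n < 6 → g ^ n ≠ 1 := fun n hn0 hn6 e => by
    have := Nat.le_of_dvd hn0 (orderOf_dvd_of_pow_eq_one (x := u) (n := n)
      (Units.ext (by rw [Units.val_pow_eq_pow_val]; exact e)))
    omega
  have hg1 : g ≠ 1 := fun e => hgn 1 one_pos (by norm_num) (by rw [pow_one, e])
  obtain ⟨h, hht, hhd⟩ := hall (1 + g) g hg0
  set H := r h with hH
  have hHH : H * H = (1 + g) • H - g • 1 := by rw [FA.LocalDef.mul_self_two H, hht, hhd]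
  have hH1 : H - 1 ≠ 0 := fun e => hg1 (by rw [← hhd, sub_eq_zero.mp e, det_one])
  have hHg : H - g • 1 ≠ 0 := fun e => hg1 (by
    rw [sub_eq_zero.mp e, trace_smul, trace_one] at hht
    simp only [Fintype.card_fin, smul_eq_mul] at hht
    push_cast at hht
    linear_combination hht)
  have e1 : ∀ n : ℕ, H ^ n * (H - 1) = g ^ n • (H - 1) := fun n => by
    induction n with
    | zero => rw [pow_zero, one_mul, pow_zero, one_smul]
    | succ n ih =>
      have e : H * (H - 1) = g • (H - 1) := by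
        rw [mul_sub, hHH, mul_one, add_smul, one_smul, smul_sub]
        abel
      rw [pow_succ, mul_assoc, e, mul_smul_comm, ih, smul_smul, pow_succ']
  have e2 : ∀ n : ℕ, H ^ n * (H - g • 1) = H - g • 1 := fun n => by
    induction n with
    | zero => rw [pow_zero, one_mul]
    | succ n ih =>
      have e : H * (H - g • 1) = H - g • 1 := by
        rw [mul_sub, hHH, mul_smul_comm, mul_one, add_smul, one_smul]
        abel
      rw [pow_succ, mul_assoc, e, ih]
  have hscal : ∀ n : ℕ, 0 < n → n < 6 → ∀ c : ZMod p, H ^ n ≠ c • 1 := fun n hn0 hn6 c hc => by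
    have a1 := e1 n
    have a2 := e2 n
    rw [hc, smul_mul_assoc, one_mul] at a1 a2
    have c1 : c = 1 := smul_left_injective (ZMod p) hHg (a2.trans (one_smul _ _).symm)
    exact hgn n hn0 hn6 ((smul_left_injective (ZMod p) hH1 a1).symm.trans c1)
  have hcomm : ¬ Commute (r x) H := fun hc => hx <| by
    have hsc : ∀ c : ZMod p, H ≠ c • 1 := fun c => by
      have := hscal 1 one_pos (by norm_num) c
      rwa [pow_one] at this
    obtain ⟨a, b, hab⟩ :=
      FA.SerreLarge.exists_eq_add_smul (FA.SerreLarge.not_isScalarMat_of hsc) hc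
    refine ⟨b * (g - 1), ?_⟩
    have : (r x).trace ^ 2 - 4 * (r x).det = b ^ 2 * (H.trace ^ 2 - 4 * H.det) := by
      rw [hab]
      simp [trace_fin_two, det_fin_two]
      ring
    rw [this, hht, hhd]
    ring
  have := (FA.SerreLarge.trace_eq_zero_of_not_commute r
    (fun y hy => by_contra fun hy1 => hno ⟨y, hy1, hy⟩) hscal hcomm).1
  rw [hxt] at this
  exact one_ne_zero this

local instance : Fact (Nat.Prime 5) := ⟨by norm_num⟩

/-- **A transvection**, `p = 5`: trace `1` and determinant `2` give projective order six, trace `3`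
and determinant `2` two eigenvalues. -/
theorem exists_transvection_of_five (r : G →* M2 (ZMod 5))
    (hall : ∀ t d : ZMod 5, d ≠ 0 → ∃ g, (r g).trace = t ∧ (r g).det = d) :
    ∃ σ, r σ ≠ 1 ∧ (r σ - 1) * (r σ - 1) = 0 := by
  by_contra hno
  obtain ⟨h, hht, hhd⟩ := hall 1 2 (by decide)
  obtain ⟨x, hxt, hxd⟩ := hall 3 2 (by decide)
  set H := r h with hH
  have hHH : H * H = H - (2 : ZMod 5) • 1 := by
    rw [FA.LocalDef.mul_self_two H, hht, hhd, one_smul]
  have hns : ∀ s : ZMod 5, H.trace ^ 2 - 4 * H.det ≠ s ^ 2 := by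
    rw [hht, hhd]
    decide
  have hsc : ∀ c : ZMod 5, H ≠ c • 1 := fun c e => hns 0 (by
    rw [e]
    simp [trace_fin_two, det_fin_two]
    ring)
  have hlin : ∀ a b c : ZMod 5, a ≠ 0 → a • H + b • (1 : M2 (ZMod 5)) ≠ c • 1 := fun a b c ha e =>
    hsc ((c - b) / a) (by
      rw [div_eq_inv_mul, ← smul_smul, sub_smul, ← e, add_sub_cancel_right, smul_smul,
        inv_mul_cancel₀ ha, one_smul])
  have hmul : ∀ (a b : ZMod 5), (a • H + b • 1) * H = (a + b) • H + (-2 * a) • 1 := fun a b => by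
    rw [add_mul, smul_mul_assoc, smul_mul_assoc, one_mul, hHH, smul_sub, smul_smul, add_smul,
      neg_mul, neg_smul, mul_comm 2 a]
    abel
  have p1 : H ^ 1 = (1 : ZMod 5) • H + (0 : ZMod 5) • 1 := by
    rw [pow_one, one_smul, zero_smul, add_zero]
  have p2 : H ^ 2 = (1 : ZMod 5) • H + (3 : ZMod 5) • 1 := by
    rw [pow_succ, p1, hmul]; congr 2 <;> decide
  have p3 : H ^ 3 = (4 : ZMod 5) • H + (3 : ZMod 5) • 1 := by
    rw [pow_succ, p2, hmul]; congr 2 <;> decide
  have p4 : H ^ 4 = (2 : ZMod 5) • H + (2 : ZMod 5) • 1 := by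
    rw [pow_succ, p3, hmul]; congr 2 <;> decide
  have p5 : H ^ 5 = (4 : ZMod 5) • H + (1 : ZMod 5) • 1 := by
    rw [pow_succ, p4, hmul]; congr 2 <;> decide
  have hscal : ∀ n : ℕ, 0 < n → n < 6 → ∀ c : ZMod 5, H ^ n ≠ c • 1 := fun n hn0 hn6 c => by
    interval_cases n
    · rw [p1]; exact hlin _ _ c one_ne_zero
    · rw [p2]; exact hlin _ _ c one_ne_zero
    · rw [p3]; exact hlin _ _ c (by decide)
    · rw [p4]; exact hlin _ _ c (by decide)
    · rw [p5]; exact hlin _ _ c (by decide)
  have hcomm : ¬ Commute (r x) H := fun hc => by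
    obtain ⟨a, b, hab⟩ :=
      FA.SerreLarge.exists_eq_add_smul (FA.SerreLarge.not_isScalarMat_of hsc) hc
    have he : (r x).trace ^ 2 - 4 * (r x).det = b ^ 2 * (H.trace ^ 2 - 4 * H.det) := by
      rw [hab]
      simp [trace_fin_two, det_fin_two]
      ring
    rw [hxt, hxd, hht, hhd] at he
    revert he
    generalize b = y
    revert y
    decide
  have := (FA.SerreLarge.trace_eq_zero_of_not_commute r
    (fun y hy => by_contra fun hy1 => hno ⟨y, hy1, hy⟩) hscal hcomm).1
  rw [hxt] at this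
  exact absurd this (by decide)

/-- **Every characteristic polynomial gives every matrix**, `p ≥ 5`. -/
theorem exists_eq_of_charPolys (h5 : 5 ≤ p) (r : G →* M2 (ZMod p))
    (hall : ∀ t d : ZMod p, d ≠ 0 → ∃ g, (r g).trace = t ∧ (r g).det = d)
    {M : M2 (ZMod p)} (hM : M.det ≠ 0) : ∃ g, r g = M := by
  obtain ⟨d, hd0, hns⟩ := exists_nonsquare_disc (p := p) (by omega)
  obtain ⟨x, hxt, hxd⟩ := hall 1 d hd0
  have hx : ¬ IsSquare ((r x).trace ^ 2 - 4 * (r x).det) := by rwa [hxt, hxd]
  obtain ⟨σ, hne, hsq⟩ : ∃ σ, r σ ≠ 1 ∧ (r σ - 1) * (r σ - 1) = 0 := by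
    rcases le_or_gt 7 p with h7 | h7
    · exact exists_transvection_of_seven h7 r hall
    · obtain rfl : p = 5 := by
        rcases (show p = 5 ∨ p = 6 by omega) with h | h
        · exact h
        · subst h; exact absurd hp.out (by decide)
      exact exists_transvection_of_five r hall
  exact FA.Ribet.exists_eq_of_transvection r (fun l hl => ⟨x, fun a => moves_line hx hl a⟩)
    (fun a ha => (hall 0 a ha).imp fun _ h => h.2) hne hsq hM

end FA.CharPolys

end
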