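import Fermat.Agent.Root.SummaryFrobeniusFields
import Fermat.Agent.Root.SummaryTateIsogenyAll
import Fermat.Agent.OpenImageAll.Traces

/-!
# The exceptional curves: abelian Tate modules over an imaginary quadratic field

If `a_l = 0` at the good primes inert in a quadratic field `K`, the traces on every Tate module
vanish off `G_K`. The image spans all matrices, so the representation and its twist by the
character of `K` are conjugate by a matrix that is no scalar and commutes with the image of `G_K`: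
that image is commutative. If complex conjugation were in `G_K`, the discriminants `a_l² - 4 l` of
the Frobenius elements in `G_K` would be squares in every `ℚ_p`: so `K` is imaginary.
-/

set_option autoImplicit false
set_option linter.unusedSectionVars false
set_option linter.style.haveILetI false

noncomputable section

open Matrix WeierstrassCurve FA.EC FA.Frob FA.RT FA.RT.Tate

local notation "Qb" => AlgebraicClosure ℚ
local notation "GQ" => AlgebraicClosure ℚ ≃ₐ[ℚ] AlgebraicClosure ℚ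
local notation "M2" => Matrix (Fin 2) (Fin 2)

namespace FA.Exceptional

section Algebra

variable {k : Type*} [Field k]

/-- The commutant of a matrix that is no scalar. -/
theorem exists_eq_add_of_commute {X M : M2 k} (hX : ∀ a : k, X ≠ a • 1) (h : M * X = X * M) :
    ∃ t r : k, M = t • X + r • 1 := by
  have e00 := congrFun (congrFun h 0) 0
  have e01 := congrFun (congrFun h 0) 1
  have e10 := congrFun (congrFun h 1) 0
  simp only [Matrix.mul_apply, Fin.sum_univ_two] at e00 e01 e10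
  by_cases h01 : X 0 1 = 0
  · by_cases h10 : X 1 0 = 0
    · have hne : X 0 0 - X 1 1 ≠ 0 := fun e => hX (X 0 0) (by
        ext i j
        fin_cases i <;> fin_cases j <;> simp [h01, h10, sub_eq_zero.mp e])
      have m01 : M 0 1 = 0 := mul_left_cancel₀ hne (by
        rw [h01] at e01
        linear_combination -e01)
      have m10 : M 1 0 = 0 := mul_left_cancel₀ hne (by
        rw [h10] at e10
        linear_combination e10)
      refine ⟨(M 0 0 - M 1 1) / (X 0 0 - X 1 1),
        M 0 0 - (M 0 0 - M 1 1) / (X 0 0 - X 1 1) * X 0 0, ?_⟩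
      ext i j
      fin_cases i <;> fin_cases j <;> simp [h01, h10, m01, m10]
      field_simp
      ring
    · refine ⟨M 1 0 / X 1 0, M 0 0 - M 1 0 / X 1 0 * X 0 0, ?_⟩
      ext i j
      fin_cases i <;> fin_cases j <;> simp <;> field_simp <;>
        first
        | ring1
        | linear_combination e00
        | linear_combination -e00
        | linear_combination e10
  · refine ⟨M 0 1 / X 0 1, M 0 0 - M 0 1 / X 0 1 * X 0 0, ?_⟩
    ext i j
    fin_cases i <;> fin_cases j <;> simp <;> field_simp <;>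
      first
      | ring1
      | linear_combination e00
      | linear_combination -e00
      | linear_combination e01
      | linear_combination -e01

/-- Matrices commuting with one that is no scalar commute with each other. -/
theorem mul_comm_of_commute {X M N : M2 k} (hX : ∀ a : k, X ≠ a • 1) (hM : M * X = X * M)
    (hN : N * X = X * N) : M * N = N * M := by
  obtain ⟨t, r, rfl⟩ := exists_eq_add_of_commute hX hM
  rw [add_mul, mul_add, smul_mul_assoc, mul_smul_comm, smul_mul_assoc, mul_smul_comm, one_mul,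
    mul_one, hN]

/-- A matrix commuting with an involution of determinant `-1` has square discriminant. -/
theorem isSquare_disc_of_commute (h2 : (2 : k) ≠ 0) {C M : M2 k} (hC : C * C = 1)
    (hdet : C.det = -1) (h : M * C = C * M) : IsSquare (M.trace ^ 2 - 4 * M.det) := by
  have htr : C.trace = 0 := by
    have h1 := FA.LocalDef.mul_self_two C
    rw [hC, hdet, neg_smul, one_smul, sub_neg_eq_add, eq_comm, add_eq_right, smul_eq_zero] at h1
    exact h1.resolve_right fun h0 => by simp [h0] at hdet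
  obtain ⟨t, r, rfl⟩ := exists_eq_add_of_commute (fun a e => h2 (by
    have e0 : a = 0 := by
      rw [e, trace_smul, trace_one, Fintype.card_fin, smul_eq_mul] at htr
      simpa [h2] using htr
    rw [e0, zero_smul] at e
    exact absurd hdet (by simp [e]))) h
  refine ⟨2 * t, ?_⟩
  rw [trace_fin_two] at htr
  rw [det_fin_two] at hdet
  simp only [trace_fin_two, det_fin_two, Matrix.add_apply, Matrix.smul_apply, smul_eq_mul,
    Matrix.one_apply_eq, Matrix.one_apply_ne (show (0 : Fin 2) ≠ 1 by decide),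
    Matrix.one_apply_ne (show (1 : Fin 2) ≠ 0 by decide), mul_one, mul_zero, add_zero]
  linear_combination (t ^ 2 * (C 0 0 + C 1 1)) * htr - 4 * t ^ 2 * hdet

end Algebra

variable {p : ℕ} [hp : Fact p.Prime] {W : WeierstrassCurve ℤ} [(ratCurve W).IsElliptic]

theorem Δ_ne_zero : W.Δ ≠ 0 := fun h =>
  (ratCurve W).isUnit_Δ.ne_zero (by simp [ratCurve, h])

/-- **The traces vanish off the subgroup fixing `√d`.** -/
theorem trace_eq_zero {d : ℤ} (hd : d ≠ 0) {s : Qb} {H : Subgroup GQ} (hs : s ^ 2 = (d : Qb))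
    (hH : H.index = 2) (hopen : IsOpen (H : Set GQ)) (hfix : ∀ σ, σ ∈ H ↔ σ s = s)
    (h0 : ∀ l : ℕ, l.Prime → W.IsGoodPrimeFor l → ¬ IsSquare (d : ZMod l) → W.apOfModel l = 0)
    (B : TateBasis p W) {σ : GQ} (hσ : σ ∉ H) : (B.rep σ).trace = 0 := by
  classical
  refine PadicInt.ext_of_toZModPow.mp fun n => ?_
  rw [map_zero]
  by_contra hne
  haveI : H.Normal := Subgroup.normal_of_index_eq_two hH
  haveI : H.FiniteIndex := ⟨by omega⟩
  haveI : NeZero (p ^ n) := ⟨pow_ne_zero _ hp.out.ne_zero⟩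
  let r := (FA.TorsionIso.repMod B n).toHomUnits
  let f := r.prod (QuotientGroup.mk' H)
  have hker : IsOpen (f.ker : Set GQ) := by
    have : f.ker = r.ker ⊓ H := by rw [MonoidHom.ker_prod, QuotientGroup.ker_mk']
    rw [this, Subgroup.coe_inf]
    refine (Subgroup.isOpen_mono (fun τ hτ => ?_) (FA.TorsionIso.isOpen_ker_repMod B n)).inter hopen
    exact MonoidHom.mem_ker.mpr (Units.ext (MonoidHom.mem_ker.mp hτ))
  let X : Set ((M2 (ZMod (p ^ n)))ˣ × GQ ⧸ H) :=
    {g | (g.1 : M2 (ZMod (p ^ n))).trace ≠ 0 ∧ g.2 ≠ 1}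
  have hX : ∀ g ∈ X, ∀ x, x * g * x⁻¹ ∈ X := fun g hg x => by
    refine ⟨?_, fun h => hg.2 (conj_eq_one_iff.mp h)⟩
    rw [Prod.fst_mul, Prod.fst_mul, Prod.fst_inv, Units.val_mul, Units.val_mul,
      Matrix.trace_units_conj]
    exact hg.1
  obtain ⟨q, hq, hqS, hF⟩ := FA.OpenImageAll.exists_frobenius_mem_of_mem f hker hX (σ := σ)
    ⟨by
      show ((B.rep σ).map (PadicInt.toZModPow n)).trace ≠ 0
      rwa [← AddMonoidHom.map_trace],
      fun h => hσ ((QuotientGroup.eq_one_iff σ).mp h)⟩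
    ({2, p} ∪ d.natAbs.primeFactors ∪ W.Δ.natAbs.primeFactors)
  simp only [Finset.mem_union, Finset.mem_insert, Finset.mem_singleton, not_or] at hqS
  obtain ⟨⟨⟨hq2, hqp⟩, hqd⟩, hqΔ⟩ := hqS
  have hgood : W.IsGoodPrimeFor q := fun h => hqΔ (Nat.mem_primeFactors.mpr
    ⟨hq, Int.natCast_dvd.mp h, Int.natAbs_ne_zero.mpr Δ_ne_zero⟩)
  obtain ⟨A, hA⟩ := FA.Deform.exists_liesOverPrime hq
  obtain ⟨τ, hτ⟩ := FA.Deform.exists_isFrobeniusAt hq hA
  obtain ⟨h1, h2⟩ := hF A hA τ hτ
  refine h1 ?_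
  show ((B.rep τ).map (PadicInt.toZModPow n)).trace = 0
  rw [← AddMonoidHom.map_trace, (B.rep_frobenius hq hA hqp hgood hτ).1, map_intCast,
    h0 q hq hgood (FA.OpenImageAll.not_isSquare_of_frobenius_apply_ne hq hq2
      (fun hdvd => hqd (Nat.mem_primeFactors.mpr ⟨hq, Int.natCast_dvd.mp hdvd,
        Int.natAbs_ne_zero.mpr hd⟩)) hA hτ hs
      fun e => h2 ((QuotientGroup.eq_one_iff τ).mpr ((hfix τ).mpr e))), Int.cast_zero]

/-- A matrix that is no scalar intertwines the representation and its twist by the character of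
`K`. -/
theorem exists_intertwiner {d : ℤ} (hd : d ≠ 0) {s : Qb} {H : Subgroup GQ} (hs : s ^ 2 = (d : Qb))
    (hH : H.index = 2) (hopen : IsOpen (H : Set GQ)) (hfix : ∀ σ, σ ∈ H ↔ σ s = s)
    (h0 : ∀ l : ℕ, l.Prime → W.IsGoodPrimeFor l → ¬ IsSquare (d : ZMod l) → W.apOfModel l = 0)
    (B : TateBasis p W) :
    ∃ P : M2 ℚ_[p], P.det ≠ 0 ∧ (∀ a : ℚ_[p], P ≠ a • 1) ∧
      (∀ g ∈ H, (B.rep g).map PadicInt.Coe.ringHom * P = P * (B.rep g).map PadicInt.Coe.ringHom) ∧
      ∀ g ∉ H, (B.rep g).map PadicInt.Coe.ringHom * P = -(P * (B.rep g).map PadicInt.Coe.ringHom) := by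
  classical
  let ι : ℤ_[p] →+* ℚ_[p] := PadicInt.Coe.ringHom
  let r : GQ →* M2 ℚ_[p] := ι.mapMatrix.toMonoidHom.comp B.rep
  let f : GQ → M2 ℚ_[p] := fun g => if g ∈ H then r g else -r g
  let r' : GQ →* M2 ℚ_[p] :=
    { toFun := f
      map_one' := by simp [f, H.one_mem]
      map_mul' := fun a b => by
        have h := Subgroup.mul_mem_iff_of_index_two hH (a := a) (b := b)
        by_cases ha : a ∈ H <;> by_cases hb : b ∈ H <;>
          simp only [f, ha, hb, h, if_true, if_false, map_mul, iff_self, iff_false, not_true,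
            false_iff, neg_mul, mul_neg, neg_neg] }
  have htr : ∀ g, (r g).trace = (r' g).trace := fun g => by
    show _ = (f g).trace
    by_cases hg : g ∈ H
    · simp only [f, hg, if_true]
    · have h := trace_eq_zero hd hs hH hopen hfix h0 B hg
      have h' : (r g).trace = 0 := by
        show ((B.rep g).map ι).trace = 0
        rw [← AddMonoidHom.map_trace, h, map_zero]
      simp only [f, hg, if_false, trace_neg, h', neg_zero]
  obtain ⟨P, hP, hcomm⟩ := FA.Density.exists_conj_of_trace_eq r r'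
    (FA.TateIsogenyAll.span_rep_eq_top B) htr
  obtain ⟨g, hg⟩ := SetLike.exists_not_mem_of_ne_top H (fun h => by simp [h] at hH) rfl
  have hns : ∀ a : ℚ_[p], P ≠ a • 1 := fun a e => by
    have ha : a ≠ 0 := fun h => hP.ne_zero (by rw [e, h, zero_smul, det_zero])
    have h1 := hcomm g
    simp only [show r' g = f g from rfl, f, hg, if_false, e, mul_smul_comm, mul_one, smul_mul_assoc,
      one_mul, smul_neg] at h1
    have h2 : r g = 0 := by
      have : (2 * a) • r g = 0 := by rw [two_mul, add_smul]; nth_rw 1 [← h1]; exact neg_add_cancel _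
      exact (smul_eq_zero.mp this).resolve_left (mul_ne_zero two_ne_zero ha)
    have hu : IsUnit (r g).det := ((Group.isUnit g).map r).map Matrix.detMonoidHom
    exact hu.ne_zero (by rw [h2, det_zero])
  have hc : ∀ x ∈ H, r x * P = P * r x := fun x hx => by
    have h1 := hcomm x
    simpa only [show r' x = f x from rfl, f, hx, if_true] using h1
  refine ⟨P, hP.ne_zero, hns, hc, fun x hx => ?_⟩
  have h1 := hcomm x
  simp only [show r' x = f x from rfl, f, hx, if_false, neg_mul] at h1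
  exact neg_eq_iff_eq_neg.mp h1

/-- **The image of `G_K` on every Tate module is commutative.** -/
theorem rep_mul_comm {d : ℤ} (hd : d ≠ 0) {s : Qb} {H : Subgroup GQ} (hs : s ^ 2 = (d : Qb))
    (hH : H.index = 2) (hopen : IsOpen (H : Set GQ)) (hfix : ∀ σ, σ ∈ H ↔ σ s = s)
    (h0 : ∀ l : ℕ, l.Prime → W.IsGoodPrimeFor l → ¬ IsSquare (d : ZMod l) → W.apOfModel l = 0)
    (B : TateBasis p W) {σ τ : GQ} (hσ : σ ∈ H) (hτ : τ ∈ H) :
    B.rep σ * B.rep τ = B.rep τ * B.rep σ := by
  obtain ⟨P, -, hns, hc, -⟩ := exists_intertwiner hd hs hH hopen hfix h0 B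
  refine Matrix.map_injective (f := PadicInt.Coe.ringHom) Subtype.val_injective ?_
  show (B.rep σ * B.rep τ).map PadicInt.Coe.ringHom = (B.rep τ * B.rep σ).map PadicInt.Coe.ringHom
  rw [Matrix.map_mul, Matrix.map_mul]
  exact mul_comm_of_commute hns (hc σ hσ) (hc τ hτ)

/-- **Galois of `K` acts commutatively on all torsion.** -/
theorem smul_comm_of_fixed {d : ℤ} (hd : d ≠ 0) {s : Qb} {H : Subgroup GQ} (hs : s ^ 2 = (d : Qb))
    (hH : H.index = 2) (hopen : IsOpen (H : Set GQ)) (hfix : ∀ σ, σ ∈ H ↔ σ s = s)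
    (h0 : ∀ l : ℕ, l.Prime → W.IsGoodPrimeFor l → ¬ IsSquare (d : ZMod l) → W.apOfModel l = 0)
    {σ τ : GQ} (hσ : σ ∈ H) (hτ : τ ∈ H) {x : Pts W} (hx : IsOfFinAddOrder x) :
    σ • τ • x = τ • σ • x := by
  rw [← sub_eq_zero]
  set y := σ • τ • x - τ • σ • x
  obtain ⟨N, hN, hNx⟩ := isOfFinAddOrder_iff_nsmul_eq_zero.mp hx
  have hsm : ∀ (e : ℕ) (g : GQ) (z : Pts W), e • (g • z) = g • (e • z) := fun e g z =>
    (FA.RT.Tate.gal_smul_nsmul g e z).symm
  have hy : N • y = 0 := by simp only [y, nsmul_sub, hsm, hNx, smul_zero, sub_zero]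
  refine AddMonoid.addOrderOf_eq_one_iff.mp ?_
  by_contra hy1
  obtain ⟨l, hl, hly⟩ := Nat.exists_prime_and_dvd hy1
  have := Fact.mk hl
  obtain ⟨B⟩ := exists_tateBasis (p := l) W
  obtain ⟨e, he⟩ : ∃ e, e ∣ N ∧ ¬ l ∣ e ∧ ∃ v, N = l ^ v * e := by
    obtain ⟨v, e, he, rfl⟩ := Nat.exists_eq_pow_mul_and_not_dvd hN.ne' l hl.ne_one
    exact ⟨e, Dvd.intro_left _ rfl, he, v, rfl⟩
  obtain ⟨-, hle, v, hv⟩ := he
  -- the part of `l`-power order of `x` has commuting images
  have hey : e • y = 0 := by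
    obtain ⟨w, hw⟩ := B.surj v (e • x) (by rw [← mul_nsmul', ← hv, hNx])
    simp only [y, nsmul_sub, hsm, ← hw, B.rep_spec, mulVec_mulVec,
      rep_mul_comm hd hs hH hopen hfix h0 B hσ hτ, sub_self]
  exact hle (hly.trans (addOrderOf_dvd_of_nsmul_eq_zero hey))

/-- A good prime, outside a given finite set, with nonzero trace. -/
theorem exists_good_trace_ne (S : Finset ℕ) :
    ∃ l : ℕ, l.Prime ∧ l ∉ S ∧ W.IsGoodPrimeFor l ∧ W.apOfModel l ≠ 0 := by
  haveI : Fact (Nat.Prime 3) := ⟨Nat.prime_three⟩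
  obtain ⟨l, hl, hlS, hF⟩ := FA.OpenImageAll.exists_frobenius_mem_of_mem
    (curveRep 3 W).toHomUnits (FA.OpenImageAll.isOpen_ker_toHomUnits 3)
    (X := {g | (g : M2 (ZMod 3)).trace ≠ 0}) (fun g hg x => by
      show Matrix.trace _ ≠ 0
      rw [Units.val_mul, Units.val_mul, Matrix.trace_units_conj]
      exact hg) (σ := 1) (by
      show Matrix.trace ((curveRep 3 W).toHomUnits 1 : M2 (ZMod 3)) ≠ 0
      rw [map_one, Units.val_one, Matrix.trace_one, Fintype.card_fin]
      exact fun h => absurd ((ZMod.natCast_eq_zero_iff 2 3).mp h) (by omega))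
    (S ∪ {3} ∪ W.Δ.natAbs.primeFactors)
  simp only [Finset.mem_union, Finset.mem_singleton, not_or] at hlS
  have hgood : W.IsGoodPrimeFor l := fun h => hlS.2 (Nat.mem_primeFactors.mpr
    ⟨hl, Int.natCast_dvd.mp h, Int.natAbs_ne_zero.mpr Δ_ne_zero⟩)
  obtain ⟨A, hA⟩ := FA.Deform.exists_liesOverPrime hl
  obtain ⟨F, hFr⟩ := FA.Deform.exists_isFrobeniusAt hl hA
  refine ⟨l, hl, hlS.1.1, hgood, fun h => hF A hA F hFr ?_⟩
  show (curveRep 3 W F).trace = 0
  rw [(FA.Ribet.curveRep_frobenius (p := 3) hl hlS.1.2 hgood hA hFr).1, h, Int.cast_zero]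

/-- Complex conjugation fixes the square roots of positive integers. -/
theorem complexConjugation_fixes {d : ℤ} (hd : 0 ≤ d) {s : Qb} (hs : s ^ 2 = (d : Qb)) :
    complexConjugation s = s := by
  refine RingHom.injective (complexEmbedding : Qb →ₐ[ℚ] ℂ).toRingHom ?_
  show complexEmbedding (complexConjugation s) = complexEmbedding s
  rw [complexEmbedding_complexConjugation]
  set e := complexEmbedding s
  have he : e ^ 2 = ((Real.sqrt (d : ℝ) : ℝ) : ℂ) ^ 2 := by
    rw [← Complex.ofReal_pow, Real.sq_sqrt (by exact_mod_cast hd), ← map_pow, hs, map_intCast]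
    simp
  rcases sq_eq_sq_iff_eq_or_eq_neg.mp he with h | h <;> rw [h] <;> simp

/-- An integer that is a square in `ℚ_p` is one modulo `p`. -/
theorem isSquare_zmod_of_padic (D : ℤ) (h : IsSquare (D : ℚ_[p])) : IsSquare (D : ZMod p) := by
  obtain ⟨y, hy⟩ := h
  have h1 : ‖y‖ * ‖y‖ ≤ 1 := by
    rw [← norm_mul, ← hy]
    exact Padic.norm_int_le_one D
  have hy1 : ‖y‖ ≤ 1 := by nlinarith [norm_nonneg y]
  obtain ⟨z, hz⟩ : ∃ z : ℤ_[p], (z : ℚ_[p]) = y := ⟨⟨y, hy1⟩, rfl⟩
  have hzD : (D : ℤ_[p]) = z * z := Subtype.ext (by push_cast; rw [hz]; exact hy)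
  exact ⟨PadicInt.toZMod z, by rw [← map_mul, ← hzD, map_intCast]⟩

/-- **The field is imaginary.** -/
theorem neg_of_vanishing {d : ℤ} (hd : d ≠ 0) {s : Qb} {H : Subgroup GQ} (hs : s ^ 2 = (d : Qb))
    (hH : H.index = 2) (hopen : IsOpen (H : Set GQ)) (hfix : ∀ σ, σ ∈ H ↔ σ s = s)
    (h0 : ∀ l : ℕ, l.Prime → W.IsGoodPrimeFor l → ¬ IsSquare (d : ZMod l) → W.apOfModel l = 0) :
    d < 0 := by
  by_contra hneg
  push Not at hneg
  have hc : complexConjugation ∈ H := (hfix _).mpr (complexConjugation_fixes hneg hs)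
  obtain ⟨l, hl, hlS, hgood, ha⟩ := exists_good_trace_ne (W := W) ({2} ∪ d.natAbs.primeFactors)
  simp only [Finset.mem_union, Finset.mem_singleton, not_or] at hlS
  obtain ⟨A, hA⟩ := FA.Deform.exists_liesOverPrime hl
  obtain ⟨F, hF⟩ := FA.Deform.exists_isFrobeniusAt hl hA
  have hFH : F ∈ H := (hfix F).mpr (by
    by_contra hne
    exact ha (h0 l hl hgood (FA.OpenImageAll.not_isSquare_of_frobenius_apply_ne hl hlS.1
      (fun hdvd => hlS.2 (Nat.mem_primeFactors.mpr ⟨hl, Int.natCast_dvd.mp hdvd,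
        Int.natAbs_ne_zero.mpr hd⟩)) hA hF hs hne)))
  set a := W.apOfModel l
  have hD : a ^ 2 - 4 * (l : ℤ) < 0 := by
    have h1 : a ^ 2 ≤ 4 * (l : ℤ) := by
      have := FA.Summary.hasse_LFunction (ratCurve W) W 1 (one_smul _ _) hl hgood
      rwa [FA.Root.LFunction_apply_prime (ratCurve W) W ⟨1, one_smul _ _⟩ hl hgood] at this
    refine lt_of_le_of_ne (by linarith) fun h5 => ?_
    obtain ⟨b, hb⟩ : (2 : ℤ) ∣ a := Int.prime_two.dvd_of_dvd_pow (n := 2) ⟨2 * l, by linarith⟩
    refine (Nat.prime_iff_prime_int.mp hl).not_isSquare ⟨b, ?_⟩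
    rw [hb] at h5
    linarith
  obtain ⟨q, hq, h11, hns⟩ := FA.FrobeniusFields.exists_not_isSquare hD
  haveI := Fact.mk hq
  have hql : q ≠ l := by
    rintro rfl
    exact hns ⟨(a : ZMod q), by push_cast; rw [ZMod.natCast_self]; ring⟩
  obtain ⟨B⟩ := exists_tateBasis (p := q) W
  let ι : ℤ_[q] →+* ℚ_[q] := PadicInt.Coe.ringHom
  obtain ⟨y, hy⟩ := isSquare_disc_of_commute (two_ne_zero (α := ℚ_[q]))
    (C := ι.mapMatrix (B.rep complexConjugation)) (M := ι.mapMatrix (B.rep F))
    (by rw [← map_mul, ← map_mul B.rep, complexConjugation_mul_self, map_one, map_one])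
    (by rw [← RingHom.map_det, B.det_rep, FA.TorsionField.cycP_complexConjugation, map_neg,
      map_one])
    (by rw [← map_mul ι.mapMatrix, ← map_mul ι.mapMatrix,
      rep_mul_comm hd hs hH hopen hfix h0 B hFH hc])
  obtain ⟨htr, hdet⟩ := B.rep_frobenius hl hA (Ne.symm hql) hgood hF
  rw [RingHom.mapMatrix_apply, ← AddMonoidHom.map_trace, ← RingHom.mapMatrix_apply,
    ← RingHom.map_det, htr, hdet, map_intCast, map_natCast] at hy
  exact hns (isSquare_zmod_of_padic (a ^ 2 - 4 * (l : ℤ)) ⟨y, by rw [← hy]; push_cast; rfl⟩)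

end FA.Exceptional

end
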