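import Fermat.Agent.CurveRed.Residue
import Fermat.Agent.EC.TorsionCard
import Fermat.Agent.Local.Torsion
import Fermat.Agent.Two.QuadField

/-!
# The `p`-power torsion of an equation with good reduction at a place above `p`

If the reduction of the `p`-th division polynomial has a root, the reduced equation has points of
every order `p ^ n` which lift to torsion points. If it is constant, all `p`-power torsion lies in
the kernel of reduction and the values of the abscissae of a chain of division points are eventually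
roots of order `p ^ 2` of one another, so the degree of the `n`-th abscissa outgrows every constant
times `p ^ n`.
-/

set_option autoImplicit false
set_option linter.unusedSectionVars false
set_option linter.style.haveILetI false

noncomputable section

open WeierstrassCurve Polynomial FA.Local FA.EC

local notation "Qb" => AlgebraicClosure ℚ

namespace FA.OpenImageAll

variable {p : ℕ} {A : ValuationSubring Qb}

/-- A monic polynomial with a large coefficient has a large root. -/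
theorem exists_large_root {G : Qb[X]} (hG : G.Monic) {k : ℕ}
    (hk : 1 < A.valuation (G.coeff k)) : ∃ r, G.eval r = 0 ∧ 1 < A.valuation r := by
  by_contra hc
  push Not at hc
  have hmem : G ∈ (mapRingHom A.valuation.integer.subtype).range := by
    rw [(IsAlgClosed.splits G).eq_prod_roots_of_monic hG]
    refine multiset_prod_mem _ fun f hf => ?_
    obtain ⟨r, hr, rfl⟩ := Multiset.mem_map.mp hf
    exact ⟨X - C ⟨r, hc r (mem_roots hG.ne_zero |>.mp hr)⟩, by simp⟩
  obtain ⟨Q, rfl⟩ := hmem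
  rw [coe_mapRingHom, coeff_map] at hk
  exact absurd (Q.coeff k).2 (not_le.mpr hk)

/-- The value of an algebraic number is, up to an exponent at most its degree, a power of the value
of `p`. -/
theorem exists_pow_valuation_eq (hp : p.Prime) (hA : A.LiesOverPrime p) {x : Qb} (hx : x ≠ 0) :
    ∃ (m : ℕ) (a : ℤ), 0 < m ∧ m ≤ (minpoly ℚ x).natDegree ∧
      A.valuation x ^ m = A.valuation (p : Qb) ^ a := by
  classical
  set P := minpoly ℚ x
  have hint : IsIntegral ℚ x := Algebra.IsIntegral.isIntegral x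
  have hP0 : P ≠ 0 := minpoly.ne_zero hint
  let t : ℕ → Qb := fun i => algebraMap ℚ Qb (P.coeff i) * x ^ i
  have hsum : ∑ i ∈ P.support, t i = 0 := by
    have h := minpoly.aeval ℚ x
    rwa [aeval_def, eval₂_eq_sum, sum_def] at h
  obtain ⟨i, hi, hmax⟩ := P.support.exists_max_image (fun i => A.valuation (t i))
    (support_nonempty.mpr hP0)
  have hne : ∀ j ∈ P.support, t j ≠ 0 := fun j hj => mul_ne_zero
    ((_root_.map_ne_zero _).mpr (mem_support_iff.mp hj)) (pow_ne_zero _ hx)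
  obtain ⟨j, hj, hji, heq⟩ : ∃ j ∈ P.support, j ≠ i ∧ A.valuation (t j) = A.valuation (t i) := by
    by_contra hcon
    push Not at hcon
    have h := A.valuation.map_sum_eq_of_lt hi fun j hj => by
      rw [Finset.mem_sdiff, Finset.mem_singleton] at hj
      exact lt_of_le_of_ne (hmax j hj.1) (hcon j hj.1 hj.2)
    rw [hsum, map_zero] at h
    exact A.valuation.ne_zero_iff.mpr (hne i hi) h.symm
  wlog hij : i < j generalizing i j
  · exact this j hj (fun l hl => (hmax l hl).trans_eq heq.symm) i hi hji.symm heq.symm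
      (by omega)
  refine ⟨j - i, padicValRat p (P.coeff i) - padicValRat p (P.coeff j), by omega,
    (Nat.sub_le _ _).trans (le_natDegree_of_mem_supp _ hj), ?_⟩
  have hval : ∀ l ∈ P.support, A.valuation (algebraMap ℚ Qb (P.coeff l)) =
      A.valuation (p : Qb) ^ padicValRat p (P.coeff l) := fun l hl => by
    rw [eq_ratCast]
    exact FA.Two.val_ratCast hp hA (mem_support_iff.mp hl)
  have hπ : A.valuation (p : Qb) ≠ 0 :=
    A.valuation.ne_zero_iff.mpr (Nat.cast_ne_zero.mpr hp.ne_zero)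
  simp only [t, map_mul, map_pow, hval i hi, hval j hj] at heq
  rw [zpow_sub₀ hπ, eq_div_iff (zpow_ne_zero _ hπ)]
  have hxi : A.valuation x ^ i ≠ 0 := pow_ne_zero _ (A.valuation.ne_zero_iff.mpr hx)
  refine mul_right_cancel₀ hxi ?_
  rw [← heq, mul_right_comm, ← pow_add, Nat.sub_add_cancel hij.le, mul_comm]

variable {V : WeierstrassCurve Qb} [V.IsElliptic]

/-- The equation over the valuation ring. -/
def integralModel (hI : IntCoeff A.valuation V.toAffine) : WeierstrassCurve A :=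
  ⟨⟨V.a₁, (A.valuation_le_one_iff _).mp hI.h₁⟩, ⟨V.a₂, (A.valuation_le_one_iff _).mp hI.h₂⟩,
    ⟨V.a₃, (A.valuation_le_one_iff _).mp hI.h₃⟩, ⟨V.a₄, (A.valuation_le_one_iff _).mp hI.h₄⟩,
    ⟨V.a₆, (A.valuation_le_one_iff _).mp hI.h₆⟩⟩

theorem map_integralModel (hI : IntCoeff A.valuation V.toAffine) :
    (integralModel hI).map A.subtype = V := rfl

/-- The reduced equation. -/
def reduced (hI : IntCoeff A.valuation V.toAffine) :
    WeierstrassCurve (IsLocalRing.ResidueField A) :=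
  (integralModel hI).map (IsLocalRing.residue A)

theorem reduced_isElliptic {hI : IntCoeff A.valuation V.toAffine} (hΔ : A.valuation V.Δ = 1) :
    (reduced hI).IsElliptic := by
  refine ⟨isUnit_iff_ne_zero.mpr fun h => ?_⟩
  rw [reduced, WeierstrassCurve.map_Δ, FA.CurveRed.residue_eq_zero_iff] at h
  have e := congrArg WeierstrassCurve.Δ (map_integralModel hI)
  rw [WeierstrassCurve.map_Δ] at e
  exact h.ne ((congrArg A.valuation e).trans hΔ)

variable (hp : p.Prime) (hA : A.LiesOverPrime p) (hI : IntCoeff A.valuation V.toAffine)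
  (hΔ : A.valuation V.Δ = 1)

theorem eval_ΨSq_coe (a : A) :
    (V.ΨSq p).eval (a : Qb) = (((integralModel hI).ΨSq p).eval a : A) := by
  conv_lhs => rw [← map_integralModel hI, map_ΨSq]
  rw [eval_map, ← A.subtype_apply, eval₂_at_apply, A.subtype_apply]

theorem eval_Φ_coe (a : A) :
    (V.Φ p).eval (a : Qb) = (((integralModel hI).Φ p).eval a : A) := by
  conv_lhs => rw [← map_integralModel hI, map_Φ]
  rw [eval_map, ← A.subtype_apply, eval₂_at_apply, A.subtype_apply]

include hI in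
theorem coeff_Φ_le (k : ℕ) : A.valuation ((V.Φ p).coeff k) ≤ 1 := by
  rw [← map_integralModel hI, map_Φ, coeff_map]
  exact (A.valuation_le_one_iff _).mpr (Subtype.coe_prop _)

include hI in
theorem coeff_ΨSq_le (k : ℕ) : A.valuation ((V.ΨSq p).coeff k) ≤ 1 := by
  rw [← map_integralModel hI, map_ΨSq, coeff_map]
  exact (A.valuation_le_one_iff _).mpr (Subtype.coe_prop _)

theorem coeff_ΨSq_lt_iff (k : ℕ) :
    A.valuation ((V.ΨSq p).coeff k) < 1 ↔ ((reduced hI).ΨSq p).coeff k = 0 := by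
  conv_lhs => rw [← map_integralModel hI, map_ΨSq, coeff_map]
  rw [reduced, map_ΨSq, coeff_map, FA.CurveRed.residue_eq_zero_iff]
  rfl

include hp hA hΔ in
/-- Multiplication by `p` of the reduced curve is not zero. -/
theorem reduced_ΨSq_ne_zero : (reduced hI).ΨSq p ≠ 0 := by
  classical
  intro h0
  haveI := reduced_isElliptic (hI := hI) hΔ
  haveI := FA.CurveRed.isAlgClosed_residueField A
  obtain ⟨l, hl1, hl⟩ := Nat.exists_infinite_primes (p + 1)
  have hl0 : (l : IsLocalRing.ResidueField A) ≠ 0 :=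
    FA.CurveRed.natCast_residue_ne_zero A hp hA fun h => by
      rw [Nat.prime_dvd_prime_iff_eq hp hl] at h
      omega
  haveI := FA.EC.finite_torsionBy (reduced hI) hl0
  have hcard := FA.EC.natCard_torsionBy (reduced hI) hl0
  have : Nontrivial (Submodule.torsionBy ℤ (reduced hI).toAffine.Point (l : ℤ)) := by
    rw [← Finite.one_lt_card_iff_nontrivial, hcard]
    exact Nat.one_lt_pow two_ne_zero hl.one_lt
  obtain ⟨Q, hQ⟩ := exists_ne (0 : Submodule.torsionBy ℤ (reduced hI).toAffine.Point (l : ℤ))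
  have hlQ : l • Q.1 = 0 := by
    rw [← natCast_zsmul]; exact (Submodule.mem_torsionBy_iff _ _).mp Q.2
  have hQ0 : Q.1 ≠ 0 := fun h => hQ (Subtype.ext h)
  have hord := addOrderOf_eq_prime (hp := ⟨hl⟩) hlQ hQ0
  obtain ⟨x, y, h, e⟩ := exists_some_of_ne_zero hQ0
  have hpQ : p • Q.1 = 0 := by
    rw [e, FA.EC.nsmul_eq_zero_iff h p, h0, eval_zero]
  have := addOrderOf_dvd_of_nsmul_eq_zero hpQ
  rw [hord, Nat.prime_dvd_prime_iff_eq hl hp] at this
  omega

include hp hA hI hΔ in
/-- Points are divisible by `p`, those in the kernel of reduction inside it. -/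
theorem exists_div (P : V.toAffine.Point) :
    ∃ Q : V.toAffine.Point,
      p • Q = P ∧ (E1 A.valuation V.toAffine P → E1 A.valuation V.toAffine Q) := by
  rcases P with _ | ⟨c, y₀, h₀⟩
  · exact ⟨0, by rw [← Affine.Point.zero_def, nsmul_zero], fun _ => e1_zero⟩
  have hN : 2 ≤ p ^ 2 := by
    have := hp.two_le
    nlinarith
  have hdeg : (V.Φ (p : ℤ)).natDegree = p ^ 2 := by rw [natDegree_Φ, Int.natAbs_natCast]
  have hlt : (C c * V.ΨSq (p : ℤ)).degree < (V.Φ (p : ℤ)).degree := by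
    rw [degree_eq_natDegree (V.Φ_ne_zero _), hdeg]
    refine degree_le_natDegree.trans_lt (WithBot.coe_lt_coe.mpr ?_)
    refine (natDegree_C_mul_le _ _).trans_lt ?_
    have h := V.natDegree_ΨSq_le (p : ℤ)
    rw [Int.natAbs_natCast] at h
    show (V.ΨSq (p : ℤ)).natDegree < p ^ 2
    omega
  obtain ⟨G, hG⟩ : ∃ G, V.Φ (p : ℤ) - C c * V.ΨSq (p : ℤ) = G := ⟨_, rfl⟩
  have hmon : G.Monic := hG ▸ Monic.sub_of_left (V.leadingCoeff_Φ _) hlt
  obtain ⟨r, hr, hrE⟩ : ∃ r, G.eval r = 0 ∧ (1 < A.valuation c → 1 < A.valuation r) := by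
    by_cases hc : 1 < A.valuation c
    · obtain ⟨k, hk⟩ : ∃ k, ((reduced hI).ΨSq (p : ℤ)).coeff k ≠ 0 := by
        by_contra hcon
        push Not at hcon
        exact reduced_ΨSq_ne_zero hp hA hI hΔ (Polynomial.ext (by simpa using hcon))
      have h1 : A.valuation ((V.ΨSq (p : ℤ)).coeff k) = 1 :=
        eq_one_of_not_lt (coeff_ΨSq_le hI k) fun h => hk ((coeff_ΨSq_lt_iff hI k).mp h)
      have h2 : A.valuation (G.coeff k) = A.valuation c := by
        rw [← hG, coeff_sub, coeff_C_mul, A.valuation.map_sub_eq_of_lt_right] <;>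
          rw [map_mul, h1, mul_one]
        exact (coeff_Φ_le hI k).trans_lt hc
      obtain ⟨r, hr, hr1⟩ := exists_large_root hmon (k := k) (by rwa [h2])
      exact ⟨r, hr, fun _ => hr1⟩
    · obtain ⟨r, hr⟩ := IsAlgClosed.exists_root G (by
        rw [← hG, degree_sub_eq_left_of_degree_lt hlt, degree_eq_natDegree (V.Φ_ne_zero _), hdeg]
        exact_mod_cast (by omega : p ^ 2 ≠ 0))
      exact ⟨r, hr, fun h => absurd h hc⟩
  rw [← hG, eval_sub, eval_mul, eval_C, sub_eq_zero] at hr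
  have hS : (V.ΨSq (p : ℤ)).eval r ≠ 0 := fun h => numDen_ne_zero V (p : ℤ) r (by
    funext i
    fin_cases i
    · show (V.Φ (p : ℤ)).eval r = 0
      rw [hr, h, mul_zero]
    · exact h)
  obtain ⟨y, hy⟩ := exists_nonsingular V r
  obtain ⟨Y, h', he⟩ := zsmul_eq_some hy (p : ℤ) hS
  rw [natCast_zsmul] at he
  rcases eq_or_eq_neg_of_xc_eq (P := Affine.Point.some c y₀ h₀)
      (Q := p • Affine.Point.some r y hy) (Affine.Point.some_ne_zero _)
      (by rw [he]; exact Affine.Point.some_ne_zero _)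
      (by rw [he, xc_some, xc_some, hr, mul_div_assoc, div_self hS, mul_one]) with h | h
  · exact ⟨_, h.symm, fun hP => e1_some hy |>.mpr (hrE ((e1_some h₀).mp hP))⟩
  · refine ⟨-Affine.Point.some r y hy, (neg_nsmul _ _).trans h.symm, fun hP => e1_neg.mpr ?_⟩
    exact e1_some hy |>.mpr (hrE ((e1_some h₀).mp hP))

include hp hA hI hΔ in
/-- Division by a power of `p`. -/
theorem exists_div_pow (P : V.toAffine.Point) (n : ℕ) :
    ∃ Q : V.toAffine.Point,
      p ^ n • Q = P ∧ (E1 A.valuation V.toAffine P → E1 A.valuation V.toAffine Q) := by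
  induction n with
  | zero => exact ⟨P, by rw [pow_zero, one_nsmul], id⟩
  | succ n ih =>
    obtain ⟨Q, hQ, hQE⟩ := ih
    obtain ⟨R, hR, hRE⟩ := exists_div hp hA hI hΔ Q
    exact ⟨R, by rw [pow_succ, mul_nsmul', hR, hQ], fun h => hRE (hQE h)⟩

include hp hA hΔ in
/-- **Ordinary reduction**: torsion points of every order `p ^ n` survive reduction. -/
theorem exists_torsion_not_e1_of_root (hdeg : ((reduced hI).ΨSq p).natDegree ≠ 0) (n : ℕ) :
    ∃ T : V.toAffine.Point, p ^ (n + 1) • T = 0 ∧ ¬ E1 A.valuation V.toAffine (p ^ n • T) := by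
  classical
  haveI := reduced_isElliptic (hI := hI) hΔ
  haveI := FA.CurveRed.isAlgClosed_residueField A
  obtain ⟨xb, hxb⟩ := IsAlgClosed.exists_root ((reduced hI).ΨSq (p : ℤ))
    fun h => hdeg (natDegree_eq_of_degree_eq_some h)
  obtain ⟨a, rfl⟩ := IsLocalRing.residue_surjective xb
  have hphi : A.valuation ((V.Φ (p : ℤ)).eval (a : Qb)) = 1 := by
    refine eq_one_of_not_lt ?_ fun h => numDen_ne_zero (reduced hI) (p : ℤ)
      (IsLocalRing.residue A a) ?_
    · rw [eval_Φ_coe hI]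
      exact (A.valuation_le_one_iff _).mpr (Subtype.coe_prop _)
    · rw [eval_Φ_coe hI, ← FA.CurveRed.residue_eq_zero_iff] at h
      have h1 : ((reduced hI).Φ (p : ℤ)).eval (IsLocalRing.residue A a) = 0 := by
        rw [reduced, map_Φ, eval_map, eval₂_at_apply, h]
      funext i
      fin_cases i
      · exact h1
      · exact hxb.eq_zero
  have hpsi : A.valuation ((V.ΨSq (p : ℤ)).eval (a : Qb)) < 1 := by
    rw [eval_ΨSq_coe hI, ← FA.CurveRed.residue_eq_zero_iff]
    have h := hxb.eq_zero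
    rwa [reduced, map_ΨSq, eval_map, eval₂_at_apply] at h
  obtain ⟨y, hy⟩ := exists_nonsingular V (a : Qb)
  obtain ⟨P₀, hP₀⟩ : ∃ P : V.toAffine.Point, Affine.Point.some (a : Qb) y hy = P := ⟨_, rfl⟩
  have hP₀E : ¬ E1 A.valuation V.toAffine P₀ := by
    rw [← hP₀, e1_some, not_lt]
    exact (A.valuation_le_one_iff _).mpr a.2
  have hpP : E1 A.valuation V.toAffine (p • P₀) := by
    rcases eq_or_ne ((V.ΨSq (p : ℤ)).eval (a : Qb)) 0 with h0 | h0
    · rw [← hP₀, (FA.EC.nsmul_eq_zero_iff hy p).mpr h0]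
      exact e1_zero
    · obtain ⟨Y, h', he⟩ := zsmul_eq_some hy (p : ℤ) h0
      rw [natCast_zsmul] at he
      rw [← hP₀, he, e1_some, map_div₀, hphi,
        one_lt_div₀ (zero_lt_iff.mpr (A.valuation.ne_zero_iff.mpr h0))]
      exact hpsi
  obtain ⟨R, hR, -⟩ := exists_div_pow hp hA hI hΔ P₀ n
  obtain ⟨S, hS, hSE⟩ := exists_div_pow hp hA hI hΔ (p • P₀) (n + 1)
  refine ⟨R - S, ?_, fun h => hP₀E ?_⟩
  · rw [nsmul_sub, hS, pow_succ', mul_nsmul', hR, sub_self]
  · have hadd := e1_add hI h (e1_nsmul hI (hSE hpP) (p ^ n))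
    rwa [nsmul_sub, sub_add_cancel, hR] at hadd

include hI in
/-- If the reduced polynomial is constant, an integral abscissa stays integral. -/
theorem e1_of_e1_nsmul (hp : p.Prime) (hA : A.LiesOverPrime p) (hΔ : A.valuation V.Δ = 1)
    (hdeg : ((reduced hI).ΨSq p).natDegree = 0) {P : V.toAffine.Point}
    (h : E1 A.valuation V.toAffine (p • P)) : E1 A.valuation V.toAffine P := by
  rcases P with _ | ⟨x, y, hx⟩
  · exact e1_zero
  rw [e1_some]
  by_contra hle
  rw [not_lt] at hle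
  let a : A := ⟨x, (A.valuation_le_one_iff _).mp hle⟩
  have hpsi : A.valuation ((V.ΨSq (p : ℤ)).eval (a : Qb)) = 1 := by
    refine eq_one_of_not_lt ?_ fun hlt => reduced_ΨSq_ne_zero hp hA hI hΔ ?_
    · rw [eval_ΨSq_coe hI]
      exact (A.valuation_le_one_iff _).mpr (Subtype.coe_prop _)
    · rw [eval_ΨSq_coe hI, ← FA.CurveRed.residue_eq_zero_iff] at hlt
      have hev : ((reduced hI).ΨSq (p : ℤ)).eval (IsLocalRing.residue A a) = 0 := by
        rw [reduced, map_ΨSq, eval_map, eval₂_at_apply, hlt]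
      rw [eq_C_of_natDegree_eq_zero hdeg] at hev ⊢
      rw [eval_C] at hev
      rw [hev, map_zero]
  have h0 : (V.ΨSq (p : ℤ)).eval x ≠ 0 := fun h0 => by
    rw [show (a : Qb) = x from rfl, h0, map_zero] at hpsi
    exact zero_ne_one hpsi
  obtain ⟨Y, h', he⟩ := zsmul_eq_some hx (p : ℤ) h0
  rw [natCast_zsmul] at he
  rw [he, e1_some, map_div₀, hpsi, div_one] at h
  have : A.valuation ((V.Φ (p : ℤ)).eval (a : Qb)) ≤ 1 := by
    rw [eval_Φ_coe hI]
    exact (A.valuation_le_one_iff _).mpr (Subtype.coe_prop _)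
  exact absurd h (not_lt.mpr this)

include hp hA hI hΔ in
/-- If the reduced polynomial is constant, all `p`-power torsion is in the kernel of reduction. -/
theorem e1_of_pow_nsmul_eq_zero (hdeg : ((reduced hI).ΨSq p).natDegree = 0)
    {P : V.toAffine.Point} {n : ℕ} (h : p ^ n • P = 0) : E1 A.valuation V.toAffine P := by
  induction n generalizing P with
  | zero => rw [pow_zero, one_nsmul] at h; rw [h]; exact e1_zero
  | succ n ih =>
    rw [pow_succ, mul_nsmul'] at h
    exact e1_of_e1_nsmul hI hp hA hΔ hdeg (ih h)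

include hp hA hI hΔ in
/-- **Supersingular reduction**: along a chain of division points the degree of the abscissa
outgrows every constant times `p ^ n`. -/
theorem exists_natDegree_gt (hdeg : ((reduced hI).ΨSq p).natDegree = 0)
    (T : ℕ → V.toAffine.Point) (h0 : T 0 ≠ 0) (hp0 : p • T 0 = 0)
    (hT : ∀ n, p • T (n + 1) = T n) (D : ℕ) :
    ∃ n, D * p ^ n < (minpoly ℚ (xc (T n))).natDegree := by
  classical
  set N := p ^ 2 with hN
  have hN2 : 2 ≤ N - 1 := by
    have := hp.two_le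
    have : 4 ≤ N := by rw [hN]; nlinarith
    omega
  have hne : ∀ n, T n ≠ 0 := fun n => by
    induction n with
    | zero => exact h0
    | succ n ih => exact fun h => ih (by rw [← hT n, h, nsmul_zero])
  have htor : ∀ n, p ^ (n + 1) • T n = 0 := fun n => by
    induction n with
    | zero => rw [pow_one, hp0]
    | succ n ih => rw [pow_succ, mul_nsmul', hT, ih]
  set v := A.valuation
  set w := fun n => v (xc (T n)) with hw
  have hw1 : ∀ n, 1 < w n := fun n => by
    have h := e1_of_pow_nsmul_eq_zero hp hA hI hΔ hdeg (htor n)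
    obtain ⟨x, y, hx, e⟩ := exists_some_of_ne_zero (hne n)
    simp only [hw, e, xc_some]
    rw [e, e1_some] at h
    exact h
  obtain ⟨kmax, hkmax, hmax⟩ := (Finset.Icc 1 (N - 1)).exists_max_image
    (fun k => v ((V.ΨSq (p : ℤ)).coeff k)) ⟨1, Finset.mem_Icc.mpr ⟨le_rfl, by omega⟩⟩
  set δ := v ((V.ΨSq (p : ℤ)).coeff kmax) with hδ
  have hcoef0 : ∀ k, 1 ≤ k → v ((V.ΨSq (p : ℤ)).coeff k) < 1 := fun k hk => by
    rw [coeff_ΨSq_lt_iff hI, eq_C_of_natDegree_eq_zero hdeg, coeff_C, if_neg (by omega)]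
  have hδ1 : δ < 1 := hcoef0 _ (Finset.mem_Icc.mp hkmax).1
  have hc0 : v ((V.ΨSq (p : ℤ)).coeff 0) = 1 := by
    refine eq_one_of_not_lt (coeff_ΨSq_le hI 0) fun h => reduced_ΨSq_ne_zero hp hA hI hΔ ?_
    rw [eq_C_of_natDegree_eq_zero hdeg, (coeff_ΨSq_lt_iff hI 0).mp h, map_zero]
  -- the values at an abscissa of large value
  have hpsi : ∀ x : Qb, 1 < v x →
      (δ * v x ^ (N - 1) < 1 → v ((V.ΨSq (p : ℤ)).eval x) = 1) ∧
      (1 ≤ δ * v x ^ (N - 1) → v ((V.ΨSq (p : ℤ)).eval x) ≤ δ * v x ^ (N - 1)) := by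
    intro x hx
    have hd : (V.ΨSq (p : ℤ)).natDegree < N := by
      have h := V.natDegree_ΨSq_le (p : ℤ)
      rw [Int.natAbs_natCast, ← hN] at h
      omega
    obtain ⟨R, hR, hRle⟩ : ∃ R, (V.ΨSq (p : ℤ)).eval x = R + (V.ΨSq (p : ℤ)).coeff 0 ∧
        v R ≤ δ * v x ^ (N - 1) := by
      refine ⟨∑ k ∈ Finset.range (N - 1), (V.ΨSq (p : ℤ)).coeff (k + 1) * x ^ (k + 1), ?_,
        v.map_sum_le fun k hk => ?_⟩
      · rw [eval_eq_sum_range' hd x]
        conv_lhs => rw [show N = (N - 1) + 1 by omega]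
        rw [Finset.sum_range_succ', pow_zero, mul_one]
      have hk' : k + 1 ≤ N - 1 := Finset.mem_range.mp hk
      rw [map_mul, map_pow]
      exact mul_le_mul' (hmax _ (Finset.mem_Icc.mpr ⟨by omega, hk'⟩))
        (pow_le_pow_right₀ hx.le hk')
    refine ⟨fun hlt => ?_, fun hge => ?_⟩
    · rw [hR, v.map_add_eq_of_lt_right (by rw [hc0]; exact hRle.trans_lt hlt), hc0]
    · rw [hR]
      exact v.map_add_le hRle (hc0.le.trans hge)
  have hphi : ∀ x : Qb, 1 < v x → v ((V.Φ (p : ℤ)).eval x) = v x ^ N := by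
    intro x hx
    rw [eval_eq_sum_range, natDegree_Φ, Int.natAbs_natCast, ← hN, Finset.sum_range_succ,
      show (V.Φ (p : ℤ)).coeff N = 1 by simpa [hN] using V.coeff_Φ (p : ℤ), one_mul,
      v.map_add_eq_of_lt_right, map_pow]
    rw [map_pow]
    refine v.map_sum_lt (pow_ne_zero _ (zero_lt_one.trans hx).ne') fun k hk => ?_
    rw [map_mul, map_pow]
    exact (mul_le_of_le_one_left' (coeff_Φ_le hI k)).trans_lt
      (pow_lt_pow_right₀ hx (Finset.mem_range.mp hk))
  -- one step of division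
  have hstep : ∀ n, w n * v ((V.ΨSq (p : ℤ)).eval (xc (T (n + 1)))) = w (n + 1) ^ N := fun n => by
    obtain ⟨x, y, hx, e⟩ := exists_some_of_ne_zero (hne (n + 1))
    have h1 : (p : ℤ) • Affine.Point.some x y hx = T n := by rw [natCast_zsmul, ← e, hT]
    have h2 := phi_eq_xc_mul hx (p : ℤ) (by rw [h1]; exact hne n)
    rw [h1] at h2
    have h3 := hw1 (n + 1)
    simp only [hw, e, xc_some] at h3 ⊢
    rw [← hphi x h3, h2, map_mul]
  have hbig : ∀ n, 1 ≤ δ * w (n + 1) ^ (N - 1) → w (n + 1) ≤ δ * w n := fun n h => by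
    have h1 : w (n + 1) ^ N ≤ w n * (δ * w (n + 1) ^ (N - 1)) :=
      hstep n ▸ mul_le_mul' le_rfl ((hpsi _ (hw1 (n + 1))).2 h)
    rw [show w n * (δ * w (n + 1) ^ (N - 1)) = δ * w n * w (n + 1) ^ (N - 1) from
      (mul_left_comm _ _ _).trans (mul_assoc _ _ _).symm,
      show N = 1 + (N - 1) by omega, pow_add, pow_one] at h1
    rw [show 1 + (N - 1) - 1 = N - 1 by omega] at h1
    exact le_of_mul_le_mul_right h1 (pow_pos (zero_lt_one.trans (hw1 _)) _)
  have hπ : v (p : Qb) ≠ 0 := v.ne_zero_iff.mpr (Nat.cast_ne_zero.mpr hp.ne_zero)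
  have hπ1 : v (p : Qb) < 1 := A.mem_nonunits_iff.mp hA
  have hx0 : ∀ n, xc (T n) ≠ 0 := fun n h => by
    have := hw1 n
    simp only [hw, h, map_zero] at this
    exact not_lt.mpr zero_le this
  obtain ⟨n₀, hn₀⟩ : ∃ n, δ * w n ^ (N - 1) < 1 := by
    by_contra hcon
    push Not at hcon
    have hδ0 : (V.ΨSq (p : ℤ)).coeff kmax ≠ 0 := fun h => by
      have := hcon 0
      rw [hδ, h, map_zero, zero_mul] at this
      exact not_lt.mpr this zero_lt_one
    obtain ⟨m₁, a₁, hm₁, -, e₁⟩ := exists_pow_valuation_eq hp hA hδ0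
    obtain ⟨m₂, a₂, hm₂, -, e₂⟩ := exists_pow_valuation_eq hp hA (hx0 0)
    have ha₁ : 0 < a₁ := by
      have h : v (p : Qb) ^ a₁ < 1 := e₁ ▸ pow_lt_one₀ zero_le hδ1 hm₁.ne'
      exact (zpow_lt_one_iff_right_of_lt_one₀ (zero_lt_iff.mpr hπ) hπ1).mp h
    have hdec : ∀ n, w n ≤ δ ^ n * w 0 := fun n => by
      induction n with
      | zero => simp
      | succ n ih =>
        exact (hbig n (hcon _)).trans (by rw [pow_succ', mul_assoc]; exact mul_le_mul' le_rfl ih)
    obtain ⟨n, hn⟩ : ∃ n : ℕ, 0 < a₁ * n * m₂ + a₂ * m₁ := by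
      refine ⟨(a₂ * m₁).natAbs + 1, ?_⟩
      have h2 : (1 : ℤ) ≤ a₁ * m₂ := one_le_mul_of_one_le_of_one_le ha₁ (by exact_mod_cast hm₂)
      push_cast
      nlinarith [abs_nonneg (a₂ * m₁), neg_abs_le (a₂ * m₁)]
    have h1 : 1 < (δ ^ n * w 0) ^ (m₁ * m₂) :=
      one_lt_pow₀ ((hw1 n).trans_le (hdec n)) (Nat.mul_pos hm₁ hm₂).ne'
    rw [mul_pow, ← pow_mul, show n * (m₁ * m₂) = m₁ * (n * m₂) by ring, pow_mul, e₁,
      show m₁ * m₂ = m₂ * m₁ by ring, pow_mul (w 0), e₂, ← zpow_natCast _ (n * m₂),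
      ← zpow_natCast _ m₁, ← zpow_mul, ← zpow_mul, ← zpow_add₀ hπ,
      one_lt_zpow_iff_right_of_lt_one₀ (zero_lt_iff.mpr hπ) hπ1] at h1
    push_cast at h1
    linarith
  have hsmall : ∀ j, δ * w (n₀ + j) ^ (N - 1) < 1 := fun j => by
    induction j with
    | zero => exact hn₀
    | succ j ih =>
      by_contra hcon
      rw [not_lt] at hcon
      have h := (hbig (n₀ + j) hcon).trans (mul_le_of_le_one_left' hδ1.le)
      exact not_lt.mpr hcon ((mul_le_mul' le_rfl (pow_le_pow_left' h _)).trans_lt ih)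
  have hiter : ∀ j, w (n₀ + j) ^ N ^ j = w n₀ := fun j => by
    induction j with
    | zero => simp
    | succ j ih =>
      have h := hstep (n₀ + j)
      rw [(hpsi _ (hw1 (n₀ + j + 1))).1 (hsmall (j + 1)), mul_one] at h
      rw [← Nat.add_assoc, pow_succ', pow_mul, ← h, ih]
  obtain ⟨m₀, a₀, hm₀, -, e₀⟩ := exists_pow_valuation_eq hp hA (hx0 n₀)
  obtain ⟨j, hj⟩ : ∃ j, a₀.natAbs * D * p ^ n₀ < p ^ j := ⟨_, Nat.lt_pow_self hp.one_lt⟩
  refine ⟨n₀ + j, not_le.mp fun hle => ?_⟩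
  obtain ⟨m, a, hm, hmd, e⟩ := exists_pow_valuation_eq hp hA (hx0 (n₀ + j))
  have key : a * (N ^ j * m₀ : ℕ) = a₀ * m := by
    refine FA.Two.zpow_val_injective hp hA ?_
    rw [zpow_mul, ← e, zpow_mul, ← e₀, zpow_natCast, zpow_natCast]
    show (w (n₀ + j) ^ m) ^ (N ^ j * m₀) = (w n₀ ^ m₀) ^ m
    rw [← pow_mul (w (n₀ + j)), ← pow_mul (w n₀),
      show m * (N ^ j * m₀) = N ^ j * (m₀ * m) by ring, pow_mul]
    exact congrArg (· ^ (m₀ * m)) (hiter j)
  have ha : a ≠ 0 := fun h => by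
    rw [h, zpow_zero] at e
    exact (one_lt_pow₀ (hw1 (n₀ + j)) hm.ne').ne' e
  have h1 : N ^ j ≤ a₀.natAbs * m := by
    have h2 := congrArg Int.natAbs key
    rw [Int.natAbs_mul, Int.natAbs_mul, Int.natAbs_natCast, Int.natAbs_natCast] at h2
    rw [← h2]
    calc N ^ j ≤ N ^ j * m₀ := Nat.le_mul_of_pos_right _ hm₀
      _ ≤ a.natAbs * (N ^ j * m₀) := Nat.le_mul_of_pos_left _ (Int.natAbs_pos.mpr ha)
  have h4 : p ^ j * p ^ j ≤ a₀.natAbs * D * p ^ n₀ * p ^ j := by
    calc p ^ j * p ^ j = N ^ j := by rw [hN, ← pow_mul, ← pow_add]; congr 1; ring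
      _ ≤ a₀.natAbs * m := h1
      _ ≤ a₀.natAbs * (D * p ^ (n₀ + j)) := Nat.mul_le_mul_left _ (hmd.trans hle)
      _ = a₀.natAbs * D * p ^ n₀ * p ^ j := by ring
  exact absurd (Nat.le_of_mul_le_mul_right h4 (pow_pos hp.pos _)) (not_le.mpr hj)

end FA.OpenImageAll

end
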