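import Fermat.Agent.IsogenyPrimes.Main
import Fermat.Agent.OpenImageAll.Reduction
import Fermat.Agent.OpenImageJ.Lines
import Fermat.Agent.Root.SummaryPotentialGoodReduction

/-!
# A stable line at a prime of potentially good reduction

If the invariant is integral at `p` and the Tate module at `p` has a stable line, the elements of
inertia above `p` fixing some number field have the eigenvalue one. For ordinary reduction torsion
points of every order `p ^ n` survive reduction; supersingular reduction is impossible, as the line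
allows a point of order `p ^ n` only a bounded multiple of `p ^ n` conjugates.
-/

set_option autoImplicit false
set_option linter.unusedSectionVars false
set_option linter.style.haveILetI false

noncomputable section

open Matrix Polynomial WeierstrassCurve FA.EC FA.Frob FA.RT FA.RT.Tate FA.Local
open scoped WeierstrassCurve.Affine

local notation "Qb" => AlgebraicClosure ℚ
local notation "GQ" => AlgebraicClosure ℚ ≃ₐ[ℚ] AlgebraicClosure ℚ

namespace FA.OpenImageAll

variable {W : WeierstrassCurve ℤ} [(ratCurve W).IsElliptic] {p : ℕ} [hp : Fact p.Prime]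

/-- At most `#S · [K : ℚ]` conjugates, if they depend only on a value in `S` and the restriction to
`K`. -/
theorem natDegree_minpoly_le {S : Type*} [Finite S] (K : IntermediateField ℚ Qb)
    [FiniteDimensional ℚ K] (x : Qb) (f : GQ → S)
    (hf : ∀ σ τ, f σ = f τ → (∀ y ∈ K, σ y = τ y) → σ x = τ x) :
    (minpoly ℚ x).natDegree ≤ Nat.card S * Module.finrank ℚ K := by
  classical
  haveI : IsGalois ℚ Qb := FA.EC.isGalois_algebraicClosure
  have hx : IsIntegral ℚ x := Algebra.IsIntegral.isIntegral x
  let G : GQ → S × (K →ₐ[ℚ] Qb) := fun σ => (f σ, σ.toAlgHom.comp K.val)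
  have hG : ∀ σ τ, G σ = G τ → σ x = τ x := fun σ τ h => hf σ τ (congrArg Prod.fst h)
    fun y hy => AlgHom.congr_fun (congrArg Prod.snd h) ⟨y, hy⟩
  set R := ((minpoly ℚ x).rootSet Qb) with hR
  have hsub : R ⊆ Set.range fun g : S × (K →ₐ[ℚ] Qb) => Function.invFun G g x := by
    intro r hr
    obtain ⟨σ, rfl⟩ := minpoly.exists_algEquiv_of_root' hx.isAlgebraic (mem_rootSet.mp hr).2
    exact ⟨G σ, hG _ _ (Function.invFun_eq ⟨σ, rfl⟩)⟩
  have hcard : R.ncard = (minpoly ℚ x).natDegree := by
    rw [← Nat.card_coe_set_eq, Nat.card_eq_fintype_card]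
    exact Polynomial.card_rootSet_eq_natDegree (minpoly.irreducible hx).separable
      (IsAlgClosed.splits _)
  rw [← hcard]
  refine (Set.ncard_le_ncard hsub (Set.finite_range _)).trans ?_
  rw [← Nat.card_coe_set_eq]
  refine (Finite.card_range_le _).trans_eq ?_
  rw [Nat.card_prod, Nat.card_eq_fintype_card (α := K →ₐ[ℚ] Qb), AlgHom.card]

/-- **At a prime of potentially good reduction** inertia on a stable line has, over some number
field, the eigenvalue one on the line or on the quotient. -/
theorem exists_field_det_sub_one (B : TateBasis p W) (hj : 0 ≤ padicValRat p (ratCurve W).j)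
    {A : ValuationSubring Qb} (hA : A.LiesOverPrime p) {e : Fin 2 → ℤ_[p]} {i : Fin 2}
    (hi : e i = 1) {χ : GQ →* ℤ_[p]} (hχ : ∀ σ, B.rep σ *ᵥ e = χ σ • e) :
    ∃ K : IntermediateField ℚ Qb, FiniteDimensional ℚ K ∧
      ∀ σ ∈ A.inertiaSubgroupIn ℚ, (∀ x ∈ K, σ x = x) → (B.rep σ - 1).det = 0 := by
  classical
  obtain ⟨C, V, hV, hI, hΔ⟩ := FA.PotentialGood.exists_goodModel (ratCurve W) hp.out hA hj
  haveI : ((ratCurve W)⁄Qb).IsElliptic :=
    inferInstanceAs ((ratCurve W).map (algebraMap ℚ Qb)).IsElliptic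
  haveI : V.IsElliptic := ⟨isUnit_iff_ne_zero.mpr fun h0 => by simp [h0] at hΔ⟩
  let eV : V.toAffine.Point ≃+ Pts W := vcEquiv C hV.symm
  set K := IntermediateField.adjoin ℚ {(C.u : Qb), C.r, C.s, C.t} with hK
  haveI hKf : FiniteDimensional ℚ K :=
    IntermediateField.finiteDimensional_adjoin fun x _ => Algebra.IsIntegral.isIntegral x
  refine ⟨K, hKf, fun σ hσ hfix => ?_⟩
  have huK : (C.u : Qb) ∈ K := IntermediateField.subset_adjoin _ _ (by simp)
  have hrK : C.r ∈ K := IntermediateField.subset_adjoin _ _ (by simp)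
  by_cases hdeg : ((reduced hI).ΨSq (p : ℤ)).natDegree = 0
  · -- supersingular reduction contradicts the line
    exfalso
    set T : ℕ → V.toAffine.Point := fun n => eV.symm (B.φ (n + 1) e) with hT
    have hT0 : T 0 ≠ 0 := fun h => by
      have h1 : B.φ (0 + 1) e = 0 := eV.symm.injective (h.trans (map_zero _).symm)
      have h2 := (B.ker 1 e).mp h1 i
      rw [hi, map_one] at h2
      have : Fact (1 < p ^ 1) := ⟨by rw [pow_one]; exact hp.out.one_lt⟩
      exact one_ne_zero h2
    have hTp : p • T 0 = 0 := by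
      have h1 : p • B.φ (0 + 1) e = 0 := by simpa using B.nsmul_phi 1 e
      rw [hT, ← map_nsmul, h1, map_zero]
    have hTs : ∀ n, p • T (n + 1) = T n := fun n => by
      rw [hT, ← map_nsmul]
      exact congrArg eV.symm (B.compat (n + 1) e)
    obtain ⟨n, hn⟩ := exists_natDegree_gt hp.out hA hI hΔ hdeg T hT0 hTp hTs
      (p * Module.finrank ℚ K)
    have hne : T n ≠ 0 := by
      clear hn
      induction n with
      | zero => exact hT0
      | succ n ih => exact fun h => ih (by rw [← hTs n, h, nsmul_zero])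
    obtain ⟨x, y, hxy, hTn⟩ := exists_some_of_ne_zero hne
    have hP : B.φ (n + 1) e = Affine.Point.some (vcX C x) (vcY C x y)
        (Affine.equation_iff_nonsingular.mp ((equation_vc C hV.symm x y).mpr hxy.1)) := by
      rw [← eV.apply_symm_apply (B.φ (n + 1) e)]
      exact congrArg eV hTn
    haveI : NeZero (p ^ (n + 1)) := ⟨pow_ne_zero _ hp.out.ne_zero⟩
    have hle := natDegree_minpoly_le K x (fun τ => PadicInt.toZModPow (n + 1) (χ τ))
      fun τ τ' h hK => ?_
    · rw [Nat.card_zmod] at hle
      rw [hTn, xc_some] at hn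
      refine absurd hn (not_lt.mpr (hle.trans_eq ?_))
      ring
    have h1 : τ • B.φ (n + 1) e = τ' • B.φ (n + 1) e := by
      rw [B.rep_spec, B.rep_spec, hχ, hχ, B.phi_eq_iff]
      intro j
      rw [Pi.smul_apply, Pi.smul_apply, smul_eq_mul, smul_eq_mul, map_mul, map_mul, h]
    rw [hP] at h1
    have h2 : τ (vcX C x) = τ' (vcX C x) := (Affine.Point.some.inj h1).1
    rw [vcX, map_add, map_add, map_mul, map_mul, map_pow, map_pow, hK _ hrK, hK _ huK] at h2
    exact mul_left_cancel₀ (pow_ne_zero 2 fun h0 => C.u.ne_zero (τ'.injective (by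
      rw [h0, map_zero]))) (add_right_cancel h2)
  · -- ordinary reduction
    by_contra hd
    obtain ⟨k, w, hw⟩ := FA.PadicImage.exists_dvd_prime_pow hd
    obtain ⟨T, hT, hTE⟩ := exists_torsion_not_e1_of_root hp.out hA hI hΔ hdeg k
    obtain ⟨u, hu⟩ := B.surj (k + 1) (eV T) (by rw [← map_nsmul, hT, map_zero])
    set z := B.φ (k + 1) (w • ((B.rep σ - 1).adjugate *ᵥ u))
    obtain ⟨Q', hQ', hE⟩ := FA.PotentialGood.exists_map_eq_e1_sub (ratCurve W) hV hI hΔ hσ
      (hfix _ huK) (hfix _ hrK) (hfix _ (IntermediateField.subset_adjoin _ _ (by simp)))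
      (hfix _ (IntermediateField.subset_adjoin _ _ (by simp))) (eV.symm z)
    change eV Q' = σ • eV (eV.symm z) at hQ'
    rw [eV.apply_symm_apply] at hQ'
    refine hTE ?_
    convert hE using 1
    refine eV.injective ?_
    rw [map_sub, hQ', eV.apply_symm_apply, map_nsmul, ← hu, B.rep_spec, ← map_nsmul, ← map_sub,
      show ∀ x, B.rep σ *ᵥ x - x = (B.rep σ - 1) *ᵥ x from fun x => by
        rw [sub_mulVec, one_mulVec],
      mulVec_smul, mulVec_mulVec,
      mul_adjugate, smul_mulVec, one_mulVec, smul_smul, mul_comm w, ← hw, ← Nat.cast_pow,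
      Nat.cast_smul_eq_nsmul]

end FA.OpenImageAll

end
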