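import Mathlib.NumberTheory.SumPrimeReciprocals
import Mathlib.Analysis.SpecialFunctions.Log.Basic
import Mathlib.Data.ZMod.Basic
import Mathlib.Order.Filter.AtTopBot.Tendsto
import Mathlib.Data.Set.Card
import Mathlib.Algebra.Field.ZMod
import Mathlib.Tactic

/-!
# Almost every equation has a multiplicative prime

The sieve: a property of pairs `(A, B)` missing proportions with a divergent sum of the classes
modulo pairwise coprime moduli (for instance `c q` classes modulo primes `q` with divergent sum of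
inverses) has proportion tending to zero in large boxes. So almost no pair is
without a prime `l ≥ 5` dividing `4 A³ + 27 B²` but not `A`.
-/

set_option autoImplicit false

noncomputable section

open Filter Topology

namespace FA.AlmostAll

/-- No prime `l ≥ 5` is multiplicative for `y² = x³ + A x + B`. -/
def NoMult (AB : ℤ × ℤ) : Prop :=
  ∀ l : ℕ, l.Prime → 5 ≤ l → (l : ℤ) ∣ 4 * AB.1 ^ 3 + 27 * AB.2 ^ 2 → (l : ℤ) ∣ AB.1

/-- The box. -/
def box (X Y : ℕ) : Finset (ℤ × ℤ) := Finset.Icc (-(X : ℤ)) X ×ˢ Finset.Icc (-(Y : ℤ)) Y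

/-- There are at least `l - 1` classes with multiplicative reduction modulo `l`. -/
theorem card_classes_ge {l : ℕ} [hl : Fact l.Prime] (h5 : 5 ≤ l) :
    l - 1 ≤ (Finset.univ.filter fun ab : ZMod l × ZMod l =>
      4 * ab.1 ^ 3 + 27 * ab.2 ^ 2 = 0 ∧ ab.1 ≠ 0).card := by
  classical
  have hne : ∀ k : ℕ, 0 < k → k < 5 → (k : ZMod l) ≠ 0 := fun k hk hk5 h => by
    have := Nat.le_of_dvd hk ((ZMod.natCast_eq_zero_iff k l).mp h)
    omega
  have h2 : (2 : ZMod l) ≠ 0 := by exact_mod_cast hne 2 (by norm_num) (by norm_num)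
  have h3 : (3 : ZMod l) ≠ 0 := by exact_mod_cast hne 3 (by norm_num) (by norm_num)
  set T := (Finset.univ.erase (0 : ZMod l)).image fun t => (-3 * t ^ 2, 2 * t ^ 3) with hT
  have hcard : T.card = l - 1 := by
    rw [hT, Finset.card_image_of_injOn, Finset.card_erase_of_mem (Finset.mem_univ _),
      Finset.card_univ, ZMod.card]
    intro s hs t ht he
    simp only [Finset.coe_erase, Set.mem_sdiff, Set.mem_singleton_iff] at hs ht
    simp only [Prod.mk.injEq] at he
    obtain ⟨e1, e2⟩ := he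
    have hsq : s ^ 2 = t ^ 2 := mul_left_cancel₀ (neg_ne_zero.mpr h3) e1
    have hcu : s ^ 3 = t ^ 3 := mul_left_cancel₀ h2 e2
    refine mul_left_cancel₀ (pow_ne_zero 2 hs.2) ?_
    linear_combination hcu - t * hsq
  rw [← hcard]
  refine Finset.card_le_card fun ab hab => ?_
  rw [hT, Finset.mem_image] at hab
  obtain ⟨t, ht, rfl⟩ := hab
  exact Finset.mem_filter.mpr ⟨Finset.mem_univ _, by ring,
    mul_ne_zero (neg_ne_zero.mpr h3) (pow_ne_zero 2 (Finset.ne_of_mem_erase ht))⟩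

/-- Few integers of an interval in given classes modulo pairwise coprime moduli. -/
theorem card_filter_le {S : Finset ℕ} {m : ℕ → ℕ}
    (hS : (S : Set ℕ).Pairwise fun i j => (m i).Coprime (m j)) (hpos : ∀ l ∈ S, 0 < m l) (X : ℕ)
    (A : ℤ) :
    ((Finset.Icc (-(X : ℤ)) X).filter fun A' : ℤ =>
      ∀ l ∈ S, (A' : ZMod (m l)) = (A : ZMod (m l))).card ≤ 2 * X / (∏ l ∈ S, m l) + 1 := by
  classical
  set P := ∏ l ∈ S, m l
  have hP : 0 < P := Finset.prod_pos hpos
  calc _ ≤ (Finset.Icc 0 (2 * X / P)).card :=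
        Finset.card_le_card_of_injOn (fun A' : ℤ => (A' + X).toNat / P) ?_ ?_
    _ = _ := by rw [Nat.card_Icc]; rfl
  · intro a ha
    simp only [Finset.coe_filter, Set.mem_ofPred_eq, Finset.mem_Icc] at ha
    simp only [Finset.coe_Icc, Set.mem_Icc, zero_le, true_and]
    exact Nat.div_le_div_right (by omega)
  · intro a ha a' ha' he
    simp only [Finset.coe_filter, Set.mem_ofPred_eq, Finset.mem_Icc] at ha ha'
    have hdvd : (P : ℤ) ∣ (a + X) - (a' + X) := by
      rw [show (P : ℤ) = ∏ l ∈ S, (m l : ℤ) by push_cast [P]; rfl]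
      refine Finset.prod_dvd_of_coprime (fun i hi j hj hij => ?_) fun l hl => ?_
      · exact Int.isCoprime_iff_nat_coprime.mpr (by simpa using hS hi hj hij)
      · rw [← ZMod.intCast_zmod_eq_zero_iff_dvd]
        push_cast
        rw [ha.2 l hl, ha'.2 l hl]
        ring
    have hmod : (a + X).toNat % P = (a' + X).toNat % P := by
      have h := (Int.modEq_iff_dvd.mpr hdvd).symm
      rw [← Int.natCast_inj, Int.natCast_mod, Int.natCast_mod, Int.toNat_of_nonneg (by omega),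
        Int.toNat_of_nonneg (by omega)]
      exact h
    have e : (a + X).toNat = (a' + X).toNat := by
      rw [← Nat.div_add_mod (a + X).toNat P, ← Nat.div_add_mod (a' + X).toNat P, hmod]
      simp only at he
      rw [he]
    omega

/-- The pairs avoiding given classes lie in few classes. -/
theorem card_avoid_le {S : Finset ℕ} {m : ℕ → ℕ}
    (hS : (S : Set ℕ).Pairwise fun i j => (m i).Coprime (m j)) (hpos : ∀ l ∈ S, 0 < m l)
    (T : ∀ l : ℕ, Finset (ZMod (m l) × ZMod (m l))) (X Y : ℕ) (bad : ℤ × ℤ → Prop)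
    [DecidablePred bad]
    (hbad : ∀ AB, bad AB → ∀ l ∈ S, ((AB.1 : ZMod (m l)), (AB.2 : ZMod (m l))) ∉ T l) :
    ((box X Y).filter bad).card ≤ (∏ l ∈ S, (m l ^ 2 - (T l).card)) *
      ((2 * X / (∏ l ∈ S, m l) + 1) * (2 * Y / (∏ l ∈ S, m l) + 1)) := by
  classical
  have : ∀ i : S, NeZero (m i) := fun i => ⟨(hpos i i.2).ne'⟩
  let π : ℤ × ℤ → ∀ i : S, ZMod (m i) × ZMod (m i) := fun AB i => (AB.1, AB.2)
  let U : Finset (∀ i : S, ZMod (m i) × ZMod (m i)) :=
    Fintype.piFinset fun i => (T (i : ℕ))ᶜ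
  have hU : U.card = ∏ l ∈ S, (m l ^ 2 - (T l).card) := by
    rw [← Finset.prod_attach S, Fintype.card_piFinset]
    refine Finset.prod_congr rfl fun i _ => ?_
    rw [Finset.card_compl, Fintype.card_prod, ZMod.card, sq]
  refine (Finset.card_le_mul_card_image_of_maps_to (f := π) (t := U) (fun AB hAB => ?_)
    ((2 * X / (∏ l ∈ S, m l) + 1) * (2 * Y / (∏ l ∈ S, m l) + 1)) fun g _ => ?_).trans ?_
  · rw [Fintype.mem_piFinset]
    exact fun i => Finset.mem_compl.mpr (hbad AB (Finset.mem_filter.mp hAB).2 i i.2)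
  · rcases Finset.eq_empty_or_nonempty
      (((box X Y).filter bad).filter fun AB => π AB = g) with he | ⟨AB, hAB⟩
    · rw [he]; exact Nat.zero_le _
    obtain ⟨-, hg⟩ := Finset.mem_filter.mp hAB
    refine (Finset.card_le_card fun CD hCD => ?_).trans ((Finset.card_product _ _).le.trans
      (Nat.mul_le_mul (card_filter_le hS hpos X AB.1) (card_filter_le hS hpos Y AB.2)))
    obtain ⟨hCD, hgC⟩ := Finset.mem_filter.mp hCD
    have hb := (Finset.mem_filter.mp hCD).1
    rw [box, Finset.mem_product] at hb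
    have heq := fun l hl => congrFun (hgC.trans hg.symm) ⟨l, hl⟩
    exact Finset.mem_product.mpr
      ⟨Finset.mem_filter.mpr ⟨hb.1, fun l hl => (Prod.mk.inj (heq l hl)).1⟩,
        Finset.mem_filter.mpr ⟨hb.2, fun l hl => (Prod.mk.inj (heq l hl)).2⟩⟩
  · rw [hU, mul_comm]

/-- The proportion of the pairs avoiding given classes, in a box larger than the modulus. -/
theorem card_avoid_ratio {S : Finset ℕ} {m : ℕ → ℕ}
    (hS : (S : Set ℕ).Pairwise fun i j => (m i).Coprime (m j)) (hpos : ∀ l ∈ S, 0 < m l)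
    (T : ∀ l : ℕ, Finset (ZMod (m l) × ZMod (m l))) (bad : ℤ × ℤ → Prop) [DecidablePred bad]
    (hbad : ∀ AB, bad AB → ∀ l ∈ S, ((AB.1 : ZMod (m l)), (AB.2 : ZMod (m l))) ∉ T l) {X Y : ℕ}
    (hX : ∏ l ∈ S, m l ≤ X) (hY : ∏ l ∈ S, m l ≤ Y) :
    (((box X Y).filter bad).card : ℝ) / ((2 * X + 1) * (2 * Y + 1)) ≤
      4 * ∏ l ∈ S, (((m l ^ 2 - (T l).card : ℕ) : ℝ) / (m l : ℝ) ^ 2) := by
  set P := ∏ l ∈ S, m l with hPdef
  have hP : 0 < P := Finset.prod_pos hpos
  have hq : ∀ Z : ℕ, P ≤ Z → ((2 * Z / P + 1 : ℕ) : ℝ) ≤ 2 * (2 * Z + 1) / P := by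
    intro Z hZ
    rw [le_div_iff₀ (by exact_mod_cast hP)]
    have : (2 * Z / P + 1) * P ≤ 2 * (2 * Z + 1) := by
      rw [add_mul, one_mul]
      have := Nat.div_mul_le_self (2 * Z) P
      omega
    exact_mod_cast this
  rw [div_le_iff₀ (by positivity)]
  refine (Nat.cast_le.mpr (card_avoid_le hS hpos T X Y bad hbad)).trans ?_
  rw [← hPdef, Nat.cast_mul, Nat.cast_prod, Nat.cast_mul]
  calc _ ≤ (∏ l ∈ S, ((m l ^ 2 - (T l).card : ℕ) : ℝ)) *
        ((2 * (2 * X + 1) / P) * (2 * (2 * Y + 1) / P)) :=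
        mul_le_mul_of_nonneg_left (mul_le_mul (hq _ hX) (hq _ hY) (Nat.cast_nonneg _)
          (by positivity)) (Finset.prod_nonneg fun l _ => Nat.cast_nonneg _)
    _ = _ := by
        rw [Finset.prod_div_distrib, Finset.prod_pow, hPdef, Nat.cast_prod]
        ring

/-- Finite subsets of a set with a divergent sum have arbitrarily large sums. -/
theorem exists_subset_sum {Q : Set ℕ} {w : ℕ → ℝ} (hw : ∀ n, 0 ≤ w n)
    (hdiv : ¬ Summable (Q.indicator w)) (M : ℝ) :
    ∃ S : Finset ℕ, (∀ l ∈ S, l ∈ Q) ∧ M ≤ ∑ l ∈ S, w l := by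
  classical
  have hf : ∀ n, 0 ≤ Q.indicator w n := fun n => Set.indicator_nonneg (fun i _ => hw i) n
  obtain ⟨n, hn⟩ := (tendsto_atTop.mp
    ((not_summable_iff_tendsto_nat_atTop_of_nonneg hf).mp hdiv) M).exists_forall_of_atTop
  refine ⟨(Finset.range n).filter (· ∈ Q), fun l hl => (Finset.mem_filter.mp hl).2, ?_⟩
  rw [Finset.sum_filter]
  exact (hn n le_rfl).trans_eq (Finset.sum_congr rfl fun i _ => Set.indicator_apply _ _ _)

/-- **The sieve on finitely many moduli**: for pairwise coprime `m q`, `q ∈ Q`, and classes of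
proportions `w q` with a divergent sum, finitely many `q` are such that few pairs avoid all their
classes. -/
theorem exists_avoid_finset {Q : Set ℕ} {m : ℕ → ℕ}
    (hQ : Q.Pairwise fun i j => (m i).Coprime (m j)) (hpos : ∀ q ∈ Q, 0 < m q)
    {w : ℕ → ℝ} (hw : ∀ n, 0 ≤ w n) (hdiv : ¬ Summable (Q.indicator w))
    (T : ∀ l : ℕ, Finset (ZMod (m l) × ZMod (m l)))
    (hT : ∀ q ∈ Q, w q * (m q : ℝ) ^ 2 ≤ (T q).card) {ε : ℝ} (hε : 0 < ε) :
    ∃ S : Finset ℕ, (∀ l ∈ S, l ∈ Q) ∧ ∀ (bad : ℤ × ℤ → Prop) [DecidablePred bad],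
      (∀ AB, bad AB → ∀ q ∈ S, ((AB.1 : ZMod (m q)), (AB.2 : ZMod (m q))) ∉ T q) →
      ∀ X Y : ℕ, ∏ l ∈ S, m l ≤ X → ∏ l ∈ S, m l ≤ Y →
        (((box X Y).filter bad).card : ℝ) / ((2 * X + 1) * (2 * Y + 1)) < ε := by
  obtain ⟨S, hS, hsum⟩ := exists_subset_sum hw hdiv (Real.log (8 / ε))
  refine ⟨S, hS, fun bad _ hbad X Y hX hY => ?_⟩
  refine lt_of_le_of_lt (card_avoid_ratio (hQ.mono hS) (fun l hl => hpos l (hS l hl)) T bad
    hbad hX hY) ?_
  have hprod : ∏ l ∈ S, (((m l ^ 2 - (T l).card : ℕ) : ℝ) / (m l : ℝ) ^ 2) ≤ ε / 8 := by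
    calc ∏ l ∈ S, (((m l ^ 2 - (T l).card : ℕ) : ℝ) / (m l : ℝ) ^ 2)
        ≤ ∏ l ∈ S, Real.exp (-w l) := by
          refine Finset.prod_le_prod (fun l _ => by positivity) fun l hl => ?_
          have : NeZero (m l) := ⟨(hpos l (hS l hl)).ne'⟩
          have hle : (T l).card ≤ m l ^ 2 := (Finset.card_le_univ _).trans
            (by rw [Fintype.card_prod, ZMod.card, sq])
          have h0 : 0 < (m l : ℝ) := Nat.cast_pos.mpr (hpos l (hS l hl))
          refine le_trans ?_ (Real.add_one_le_exp _)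
          rw [Nat.cast_sub hle, Nat.cast_pow, div_le_iff₀ (by positivity)]
          linarith [hT l (hS l hl)]
      _ = Real.exp (-∑ l ∈ S, w l) := by rw [← Real.exp_sum, Finset.sum_neg_distrib]
      _ ≤ _ := by
          rw [← Real.exp_log (show 0 < ε / 8 by positivity), Real.exp_le_exp]
          rw [Real.log_div hε.ne' (by norm_num)]
          rw [Real.log_div (by norm_num) hε.ne'] at hsum
          linarith
  linarith

/-- **The sieve**: if modulo the pairwise coprime `m q`, `q ∈ Q`, the property `bad` misses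
proportions `w q` of the classes with a divergent sum, its proportion in large boxes tends to
zero. -/
theorem tendsto_avoid_coprime {Q : Set ℕ} {m : ℕ → ℕ}
    (hQ : Q.Pairwise fun i j => (m i).Coprime (m j)) (hpos : ∀ q ∈ Q, 0 < m q)
    {w : ℕ → ℝ} (hw : ∀ n, 0 ≤ w n) (hdiv : ¬ Summable (Q.indicator w))
    (T : ∀ l : ℕ, Finset (ZMod (m l) × ZMod (m l)))
    (hT : ∀ q ∈ Q, w q * (m q : ℝ) ^ 2 ≤ (T q).card)
    (bad : ℤ × ℤ → Prop) [DecidablePred bad]
    (hbad : ∀ AB, bad AB → ∀ q ∈ Q, ((AB.1 : ZMod (m q)), (AB.2 : ZMod (m q))) ∉ T q) :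
    Tendsto (fun XY : ℕ × ℕ => (((box XY.1 XY.2).filter bad).card : ℝ) /
      ((2 * XY.1 + 1) * (2 * XY.2 + 1))) atTop (𝓝 0) := by
  rw [Metric.tendsto_atTop]
  intro ε hε
  obtain ⟨S, hS, h⟩ := exists_avoid_finset hQ hpos hw hdiv T hT hε
  refine ⟨(∏ l ∈ S, m l, ∏ l ∈ S, m l), fun XY hXY => ?_⟩
  rw [Real.dist_eq, sub_zero, abs_of_nonneg (by positivity)]
  exact h bad (fun AB hAB l hl => hbad AB hAB l (hS l hl)) XY.1 XY.2 hXY.1 hXY.2

/-- **The sieve at primes**: `c q` classes missed modulo each prime `q` of a set with divergent sum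
of inverses. -/
theorem tendsto_avoid {Q : Set ℕ} (hQ : ∀ q ∈ Q, q.Prime)
    (hdiv : ¬ Summable (Q.indicator fun n : ℕ => (1 : ℝ) / n)) {c : ℝ} (hc : 0 < c)
    (T : ∀ l : ℕ, Finset (ZMod l × ZMod l)) (hT : ∀ q ∈ Q, c * q ≤ (T q).card)
    (bad : ℤ × ℤ → Prop) [DecidablePred bad]
    (hbad : ∀ AB, bad AB → ∀ q ∈ Q, ((AB.1 : ZMod q), (AB.2 : ZMod q)) ∉ T q) :
    Tendsto (fun XY : ℕ × ℕ => (((box XY.1 XY.2).filter bad).card : ℝ) /
      ((2 * XY.1 + 1) * (2 * XY.2 + 1))) atTop (𝓝 0) := by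
  refine tendsto_avoid_coprime (m := fun q => q)
    (fun i hi j hj hij => (Nat.coprime_primes (hQ i hi) (hQ j hj)).mpr hij)
    (fun q hq => (hQ q hq).pos) (w := fun n => c * (1 / (n : ℝ))) (fun n => by positivity)
    (fun h => hdiv ((h.mul_left c⁻¹).congr fun n => ?_)) T (fun q hq => ?_) bad hbad
  · by_cases hn : n ∈ Q
    · rw [Set.indicator_of_mem hn, Set.indicator_of_mem hn, ← mul_assoc, inv_mul_cancel₀ hc.ne',
        one_mul]
    · rw [Set.indicator_of_notMem hn, Set.indicator_of_notMem hn, mul_zero]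
  · have h0 : (q : ℝ) ≠ 0 := Nat.cast_ne_zero.mpr (hQ q hq).ne_zero
    refine le_trans (le_of_eq ?_) (hT q hq)
    field_simp

/-- The primes `≥ 5` have a divergent sum of inverses. -/
theorem not_summable_five_le :
    ¬ Summable ({p : ℕ | p.Prime ∧ 5 ≤ p}.indicator fun n : ℕ => (1 : ℝ) / n) := fun h =>
  not_summable_one_div_on_primes <| (summable_nat_add_iff 5).mp <|
    ((summable_nat_add_iff 5).mpr h).congr fun n => by
      simp [Set.indicator_apply]

/-- The classes with multiplicative reduction. -/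
def multClasses (l : ℕ) : Finset (ZMod l × ZMod l) :=
  if h : l = 0 then ∅ else
    have : NeZero l := ⟨h⟩
    Finset.univ.filter fun ab => 4 * ab.1 ^ 3 + 27 * ab.2 ^ 2 = 0 ∧ ab.1 ≠ 0

/-- **Almost every pair has a multiplicative prime.** -/
theorem tendsto_noMult [DecidablePred NoMult] :
    Tendsto (fun XY : ℕ × ℕ => (((box XY.1 XY.2).filter NoMult).card : ℝ) /
      ((2 * XY.1 + 1) * (2 * XY.2 + 1))) atTop (𝓝 0) := by
  refine tendsto_avoid (fun q hq => hq.1) not_summable_five_le (show (0 : ℝ) < 1 / 2 by norm_num)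
    multClasses (fun q hq => ?_) NoMult fun AB h q hq hmem => ?_
  · have := Fact.mk hq.1
    have h1 := card_classes_ge (l := q) hq.2
    have h2 : (5 : ℝ) ≤ q := by exact_mod_cast hq.2
    have h3 : ((q - 1 : ℕ) : ℝ) = (q : ℝ) - 1 := by rw [Nat.cast_sub hq.1.one_le, Nat.cast_one]
    rw [multClasses, dif_neg hq.1.ne_zero]
    refine le_trans ?_ (Nat.cast_le.mpr h1)
    rw [h3]
    linarith
  · rw [multClasses, dif_neg hq.1.ne_zero, Finset.mem_filter] at hmem
    refine hmem.2.2 ((ZMod.intCast_zmod_eq_zero_iff_dvd _ _).mpr (h q hq.1 hq.2 ?_))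
    rw [← ZMod.intCast_zmod_eq_zero_iff_dvd]
    push_cast
    exact hmem.2.1

/-- A finite union of negligible properties is negligible. -/
theorem tendsto_exists {ι : Type*} [Fintype ι] {bad : ι → ℤ × ℤ → Prop} [∀ i, DecidablePred (bad i)]
    [DecidablePred fun AB => ∃ i, bad i AB]
    (h : ∀ i, Tendsto (fun XY : ℕ × ℕ => (((box XY.1 XY.2).filter (bad i)).card : ℝ) /
      ((2 * XY.1 + 1) * (2 * XY.2 + 1))) atTop (𝓝 0)) :
    Tendsto (fun XY : ℕ × ℕ => (((box XY.1 XY.2).filter fun AB => ∃ i, bad i AB).card : ℝ) /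
      ((2 * XY.1 + 1) * (2 * XY.2 + 1))) atTop (𝓝 0) := by
  classical
  have hsum := tendsto_finsetSum (Finset.univ : Finset ι) fun i _ => h i
  rw [Finset.sum_const_zero] at hsum
  refine squeeze_zero (fun XY => by positivity) (fun XY => ?_) hsum
  rw [← Finset.sum_div]
  refine div_le_div_of_nonneg_right ?_ (by positivity)
  rw [← Nat.cast_sum]
  refine Nat.cast_le.mpr ((Finset.card_le_card fun AB hAB => ?_).trans Finset.card_biUnion_le)
  obtain ⟨hb, i, hi⟩ := Finset.mem_filter.mp hAB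
  exact Finset.mem_biUnion.mpr ⟨i, Finset.mem_univ i, Finset.mem_filter.mpr ⟨hb, hi⟩⟩

end FA.AlmostAll

end
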