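import Fermat.Agent.OpenImageAll.AlmostAll

/-!
# The sieve for pairs of pairs

A property of pairs `((A, B), (C, D))` missing at least `c q³` of the classes modulo the primes `q`
of a set with divergent sum of inverses has proportion tending to zero in large boxes; so has a
property of one of the two components which is negligible for pairs `(A, B)`.
-/

set_option autoImplicit false

noncomputable section

open Filter Topology

namespace FA.AlmostAll

/-- The box of pairs of pairs. -/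
def pairBox (X Y : ℕ) : Finset ((ℤ × ℤ) × (ℤ × ℤ)) := box X Y ×ˢ box X Y

theorem mem_box {X Y : ℕ} {AB : ℤ × ℤ} : AB ∈ box X Y ↔ |AB.1| ≤ X ∧ |AB.2| ≤ Y := by
  rw [box, Finset.mem_product, Finset.mem_Icc, Finset.mem_Icc, abs_le, abs_le]

theorem card_box (X Y : ℕ) : ((box X Y).card : ℝ) = (2 * X + 1) * (2 * Y + 1) := by
  rw [box, Finset.card_product, Int.card_Icc, Int.card_Icc,
    show (X : ℤ) + 1 - -(X : ℤ) = ((2 * X + 1 : ℕ) : ℤ) by push_cast; ring,
    show (Y : ℤ) + 1 - -(Y : ℤ) = ((2 * Y + 1 : ℕ) : ℤ) by push_cast; ring,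
    Int.toNat_natCast, Int.toNat_natCast]
  push_cast
  ring

/-- The pairs of pairs avoiding given classes lie in few classes. -/
theorem card_avoid_pair_le {S : Finset ℕ} (hS : ∀ l ∈ S, l.Prime)
    (T : ∀ l : ℕ, Finset ((ZMod l × ZMod l) × (ZMod l × ZMod l))) (X Y : ℕ)
    (bad : (ℤ × ℤ) × (ℤ × ℤ) → Prop) [DecidablePred bad]
    (hbad : ∀ P, bad P → ∀ l ∈ S,
      (((P.1.1 : ZMod l), (P.1.2 : ZMod l)), ((P.2.1 : ZMod l), (P.2.2 : ZMod l))) ∉ T l) :
    ((pairBox X Y).filter bad).card ≤ (∏ l ∈ S, (l ^ 4 - (T l).card)) *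
      ((2 * X / (∏ l ∈ S, l) + 1) * (2 * Y / (∏ l ∈ S, l) + 1) *
        ((2 * X / (∏ l ∈ S, l) + 1) * (2 * Y / (∏ l ∈ S, l) + 1))) := by
  classical
  have hco : (S : Set ℕ).Pairwise fun i j => i.Coprime j :=
    fun i hi j hj hij => (Nat.coprime_primes (hS i hi) (hS j hj)).mpr hij
  have hpos : ∀ l ∈ S, 0 < l := fun l hl => (hS l hl).pos
  have : ∀ i : S, NeZero (i : ℕ) := fun i => ⟨(hpos i i.2).ne'⟩
  let π : (ℤ × ℤ) × (ℤ × ℤ) →
      ∀ i : S, (ZMod (i : ℕ) × ZMod (i : ℕ)) × (ZMod (i : ℕ) × ZMod (i : ℕ)) :=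
    fun P i => ((P.1.1, P.1.2), (P.2.1, P.2.2))
  let U : Finset (∀ i : S, (ZMod (i : ℕ) × ZMod (i : ℕ)) × (ZMod (i : ℕ) × ZMod (i : ℕ))) :=
    Fintype.piFinset fun i => (T (i : ℕ))ᶜ
  have hU : U.card = ∏ l ∈ S, (l ^ 4 - (T l).card) := by
    rw [← Finset.prod_attach S, Fintype.card_piFinset]
    refine Finset.prod_congr rfl fun i _ => ?_
    rw [Finset.card_compl, Fintype.card_prod, Fintype.card_prod, ZMod.card]
    ring_nf
  set K := (2 * X / (∏ l ∈ S, l) + 1) * (2 * Y / (∏ l ∈ S, l) + 1)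
  refine (Finset.card_le_mul_card_image_of_maps_to (f := π) (t := U) (fun P hP => ?_)
    (K * K) fun g _ => ?_).trans (by rw [hU, mul_comm])
  · rw [Fintype.mem_piFinset]
    exact fun i => Finset.mem_compl.mpr (hbad P (Finset.mem_filter.mp hP).2 i i.2)
  rcases Finset.eq_empty_or_nonempty
    (((pairBox X Y).filter bad).filter fun P => π P = g) with he | ⟨P, hP⟩
  · rw [he]; exact Nat.zero_le _
  obtain ⟨-, hg⟩ := Finset.mem_filter.mp hP
  refine (Finset.card_le_card (t := (((Finset.Icc (-(X : ℤ)) X).filter fun a : ℤ =>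
      ∀ l ∈ S, (a : ZMod l) = (P.1.1 : ZMod l)) ×ˢ ((Finset.Icc (-(Y : ℤ)) Y).filter fun a : ℤ =>
      ∀ l ∈ S, (a : ZMod l) = (P.1.2 : ZMod l))) ×ˢ
    (((Finset.Icc (-(X : ℤ)) X).filter fun a : ℤ =>
      ∀ l ∈ S, (a : ZMod l) = (P.2.1 : ZMod l)) ×ˢ ((Finset.Icc (-(Y : ℤ)) Y).filter fun a : ℤ =>
      ∀ l ∈ S, (a : ZMod l) = (P.2.2 : ZMod l)))) fun R hR => ?_).trans ?_
  · obtain ⟨hR, hgR⟩ := Finset.mem_filter.mp hR
    have hb := (Finset.mem_filter.mp hR).1
    rw [pairBox, Finset.mem_product, box, Finset.mem_product, Finset.mem_product] at hb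
    have heq := fun l hl => congrFun (hgR.trans hg.symm) ⟨l, hl⟩
    simp only [π, Prod.mk.injEq] at heq
    simp only [Finset.mem_product, Finset.mem_filter]
    exact ⟨⟨⟨hb.1.1, fun l hl => (heq l hl).1.1⟩, hb.1.2, fun l hl => (heq l hl).1.2⟩,
      ⟨hb.2.1, fun l hl => (heq l hl).2.1⟩, hb.2.2, fun l hl => (heq l hl).2.2⟩
  · simp only [Finset.card_product]
    exact Nat.mul_le_mul (Nat.mul_le_mul (card_filter_le hco hpos X _) (card_filter_le hco hpos Y _))
      (Nat.mul_le_mul (card_filter_le hco hpos X _) (card_filter_le hco hpos Y _))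

/-- **The sieve for pairs of pairs.** -/
theorem tendsto_avoid_pair {Q : Set ℕ} (hQ : ∀ q ∈ Q, q.Prime)
    (hdiv : ¬ Summable (Q.indicator fun n : ℕ => (1 : ℝ) / n)) {c : ℝ} (hc : 0 < c)
    (T : ∀ l : ℕ, Finset ((ZMod l × ZMod l) × (ZMod l × ZMod l)))
    (hT : ∀ q ∈ Q, c * (q : ℝ) ^ 3 ≤ (T q).card)
    (bad : (ℤ × ℤ) × (ℤ × ℤ) → Prop) [DecidablePred bad]
    (hbad : ∀ P, bad P → ∀ q ∈ Q,
      (((P.1.1 : ZMod q), (P.1.2 : ZMod q)), ((P.2.1 : ZMod q), (P.2.2 : ZMod q))) ∉ T q) :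
    Tendsto (fun XY : ℕ × ℕ => (((pairBox XY.1 XY.2).filter bad).card : ℝ) /
      ((2 * XY.1 + 1) * (2 * XY.2 + 1)) ^ 2) atTop (𝓝 0) := by
  rw [Metric.tendsto_atTop]
  intro ε hε
  obtain ⟨S, hS, hsum⟩ := exists_subset_sum (w := fun n : ℕ => (1 : ℝ) / n)
    (fun n => by positivity) hdiv (Real.log (32 / ε) / c)
  set P := ∏ l ∈ S, l with hP
  have hP0 : (0 : ℝ) < P := by exact_mod_cast Finset.prod_pos fun l hl => (hQ l (hS l hl)).pos
  refine ⟨(P, P), fun XY hXY => ?_⟩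
  rw [Real.dist_eq, sub_zero, abs_of_nonneg (by positivity)]
  have hq : ∀ Z : ℕ, P ≤ Z → ((2 * Z / P + 1 : ℕ) : ℝ) ≤ 2 * (2 * Z + 1) / P := by
    intro Z hZ
    rw [le_div_iff₀ hP0]
    have : (2 * Z / P + 1) * P ≤ 2 * (2 * Z + 1) := by
      rw [add_mul, one_mul]
      have := Nat.div_mul_le_self (2 * Z) P
      omega
    exact_mod_cast this
  have hcount := Nat.cast_le (α := ℝ) |>.mpr (card_avoid_pair_le (fun l hl => hQ l (hS l hl)) T
    XY.1 XY.2 bad fun R h l hl => hbad R h l (hS l hl))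
  rw [Nat.cast_mul, Nat.cast_prod, Nat.cast_mul, Nat.cast_mul, ← hP] at hcount
  have hprod : (∏ l ∈ S, ((l ^ 4 - (T l).card : ℕ) : ℝ)) ≤ (ε / 32) * (P : ℝ) ^ 4 := by
    calc ∏ l ∈ S, ((l ^ 4 - (T l).card : ℕ) : ℝ)
        ≤ ∏ l ∈ S, (Real.exp (-(c * (1 / (l : ℝ)))) * (l : ℝ) ^ 4) := by
          refine Finset.prod_le_prod (fun l _ => by positivity) fun l hl => ?_
          have : NeZero l := ⟨(hQ l (hS l hl)).ne_zero⟩
          have hle : (T l).card ≤ l ^ 4 := (Finset.card_le_univ _).trans_eq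
            (by rw [Fintype.card_prod, Fintype.card_prod, ZMod.card]; ring)
          have hl0 : (0 : ℝ) < l := Nat.cast_pos.mpr (hQ l (hS l hl)).pos
          refine le_trans ?_ (mul_le_mul_of_nonneg_right (Real.add_one_le_exp _) (by positivity))
          rw [Nat.cast_sub hle, Nat.cast_pow,
            show (-(c * (1 / (l : ℝ))) + 1) * (l : ℝ) ^ 4 = (l : ℝ) ^ 4 - c * (l : ℝ) ^ 3 by
              field_simp; ring]
          linarith [hT l (hS l hl)]
      _ = Real.exp (-(c * ∑ l ∈ S, 1 / (l : ℝ))) * (P : ℝ) ^ 4 := by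
          rw [Finset.prod_mul_distrib, ← Real.exp_sum, Finset.sum_neg_distrib, ← Finset.mul_sum,
            Finset.prod_pow, hP, Nat.cast_prod]
      _ ≤ _ := by
          refine mul_le_mul_of_nonneg_right ?_ (by positivity)
          rw [← Real.exp_log (show 0 < ε / 32 by positivity), Real.exp_le_exp]
          rw [div_le_iff₀ hc, Real.log_div (by norm_num) hε.ne'] at hsum
          rw [Real.log_div hε.ne' (by norm_num)]
          linarith [mul_comm c (∑ l ∈ S, (1 : ℝ) / l)]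
  rw [div_lt_iff₀ (by positivity)]
  refine lt_of_le_of_lt (hcount.trans (mul_le_mul hprod (mul_le_mul
    (mul_le_mul (hq _ hXY.1) (hq _ hXY.2) (by positivity) (by positivity))
    (mul_le_mul (hq _ hXY.1) (hq _ hXY.2) (by positivity) (by positivity)) (by positivity)
    (by positivity)) (by positivity) (by positivity))) ?_
  have hD : (0 : ℝ) < ε * ((2 * (XY.1 : ℝ) + 1) * (2 * XY.2 + 1)) ^ 2 := by positivity
  rw [show ε / 32 * (P : ℝ) ^ 4 * (2 * (2 * (XY.1 : ℝ) + 1) / P * (2 * (2 * XY.2 + 1) / P) *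
      (2 * (2 * (XY.1 : ℝ) + 1) / P * (2 * (2 * XY.2 + 1) / P))) =
    ε * ((2 * (XY.1 : ℝ) + 1) * (2 * XY.2 + 1)) ^ 2 / 2 by field_simp; ring]
  linarith

/-- A property of the first component has the same proportion among pairs. -/
theorem ratio_fst (bad : ℤ × ℤ → Prop) [DecidablePred bad] (X Y : ℕ) :
    (((pairBox X Y).filter fun P => bad P.1).card : ℝ) / ((2 * X + 1) * (2 * Y + 1)) ^ 2 =
      (((box X Y).filter bad).card : ℝ) / ((2 * X + 1) * (2 * Y + 1)) := by
  rw [show (pairBox X Y).filter (fun P => bad P.1) = (box X Y).filter bad ×ˢ box X Y from by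
      rw [pairBox]; ext P; simp only [Finset.mem_filter, Finset.mem_product]; tauto,
    Finset.card_product, Nat.cast_mul, card_box, sq, mul_div_mul_right _ _ (by positivity)]

/-- Exchanging the components. -/
theorem card_filter_swap (bad : (ℤ × ℤ) × (ℤ × ℤ) → Prop) [DecidablePred bad] (X Y : ℕ) :
    ((pairBox X Y).filter fun P => bad P.swap).card = ((pairBox X Y).filter bad).card :=
  Finset.card_bij' (fun P _ => P.swap) (fun P _ => P.swap)
    (fun P hP => by
      simp only [pairBox, Finset.mem_filter, Finset.mem_product, Prod.fst_swap, Prod.snd_swap]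
        at hP ⊢
      exact ⟨⟨hP.1.2, hP.1.1⟩, hP.2⟩)
    (fun P hP => by
      simp only [pairBox, Finset.mem_filter, Finset.mem_product, Prod.fst_swap, Prod.snd_swap,
        Prod.swap_swap] at hP ⊢
      exact ⟨⟨hP.1.2, hP.1.1⟩, hP.2⟩)
    (fun P _ => P.swap_swap) (fun P _ => P.swap_swap)

/-- A negligible property of the first component is negligible for pairs. -/
theorem tendsto_fst {bad : ℤ × ℤ → Prop} [DecidablePred bad]
    (h : Tendsto (fun XY : ℕ × ℕ => (((box XY.1 XY.2).filter bad).card : ℝ) /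
      ((2 * XY.1 + 1) * (2 * XY.2 + 1))) atTop (𝓝 0)) :
    Tendsto (fun XY : ℕ × ℕ => (((pairBox XY.1 XY.2).filter fun P => bad P.1).card : ℝ) /
      ((2 * XY.1 + 1) * (2 * XY.2 + 1)) ^ 2) atTop (𝓝 0) :=
  h.congr fun XY => (ratio_fst bad XY.1 XY.2).symm

/-- A negligible property of the second component is negligible for pairs. -/
theorem tendsto_snd {bad : ℤ × ℤ → Prop} [DecidablePred bad]
    (h : Tendsto (fun XY : ℕ × ℕ => (((box XY.1 XY.2).filter bad).card : ℝ) /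
      ((2 * XY.1 + 1) * (2 * XY.2 + 1))) atTop (𝓝 0)) :
    Tendsto (fun XY : ℕ × ℕ => (((pairBox XY.1 XY.2).filter fun P => bad P.2).card : ℝ) /
      ((2 * XY.1 + 1) * (2 * XY.2 + 1)) ^ 2) atTop (𝓝 0) :=
  (tendsto_fst h).congr fun XY => by
    rw [← card_filter_swap (fun P => bad P.1)]
    rfl

end FA.AlmostAll

end
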