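import Fermat.Agent.OpenImageAll.FrobeniusField
import Fermat.Agent.Root.SummarySurjectiveIrreducible
import Fermat.Agent.Root.SummarySurjectivePow

/-!
# Multiplication by `√d` on the Tate modules of an exceptional curve

Let `a_l = 0` at the good primes inert in `K = ℚ(√d)`, so that the discriminants `a_l² - 4 l` at
the other good primes are `d` times squares. The intertwiner of a Tate module with its twist by the
character of `K` squares to a scalar, which the Frobenius discriminants identify with `d` times a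
square: so a matrix `X` with `X² = d` commutes with `G_K` and anticommutes outside it. Modulo `p`
this gives a stable line or a matrix of square `d` with the same property, so the image is never
all of `GL₂(𝔽_p)` for odd `p`, and a line is stable for `p ∣ d`.
-/

set_option autoImplicit false
set_option linter.unusedSectionVars false
set_option linter.style.haveILetI false

noncomputable section

open Matrix WeierstrassCurve FA.EC FA.Frob FA.RT FA.RT.Tate

local notation "Qb" => AlgebraicClosure ℚ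
local notation "GQ" => AlgebraicClosure ℚ ≃ₐ[ℚ] AlgebraicClosure ℚ
local notation "M2" => Matrix (Fin 2) (Fin 2)

namespace FA.CMStructure

variable {p : ℕ} [hp : Fact p.Prime] {W : WeierstrassCurve ℤ} [(ratCurve W).IsElliptic]

/-- A nonzero matrix over `ℤ_p` is a power of `p` times one that is nonzero modulo `p`. -/
theorem exists_primitive {M : M2 ℤ_[p]} (hM : M ≠ 0) :
    ∃ (k : ℕ) (N : M2 ℤ_[p]), M = (p : ℤ_[p]) ^ k • N ∧ N.map PadicInt.toZMod ≠ 0 := by
  obtain ⟨i, j, hij⟩ : ∃ i j, M i j ≠ 0 := by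
    by_contra h
    push Not at h
    exact hM (Matrix.ext h)
  induction hn : (M i j).valuation using Nat.strong_induction_on generalizing M with
  | _ n ih =>
    by_cases hr : M.map PadicInt.toZMod = 0
    · have hdvd : ∀ a b, ∃ y, M a b = (p : ℤ_[p]) * y := fun a b =>
        FA.PadicImage.toZMod_eq_zero_iff.mp (congrFun (congrFun hr a) b)
      choose M' hM' using hdvd
      have he : M = (p : ℤ_[p]) • Matrix.of M' := by
        ext a b
        exact hM' a b
      have hne : M' i j ≠ 0 := fun h => hij (by rw [hM' i j, h, mul_zero])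
      have hlt : (M' i j).valuation < n := by
        rw [← hn, hM' i j, PadicInt.valuation_mul (Nat.cast_ne_zero.mpr hp.out.ne_zero) hne,
          PadicInt.valuation_p]
        omega
      obtain ⟨k, N, hN, hN'⟩ := ih _ hlt (M := Matrix.of M')
        (fun h => hne (congrFun (congrFun h i) j)) hne rfl
      exact ⟨k + 1, N, by rw [he, hN, smul_smul, ← pow_succ'], hN'⟩
    · exact ⟨0, M, by rw [pow_zero, one_smul], hr⟩

/-- The data: `d` squarefree, not `1`, and `a_l = 0` where `d` is no square. -/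
structure IsExceptional (W : WeierstrassCurve ℤ) (d : ℤ) : Prop where
  sqfree : Squarefree d
  ne_one : d ≠ 1
  vanish : ∀ l : ℕ, l.Prime → W.IsGoodPrimeFor l → ¬ IsSquare (d : ZMod l) → W.apOfModel l = 0

variable {d : ℤ}

/-- **Multiplication by `√d` on the rational Tate module.** -/
theorem exists_sqrt_matrix (hE : IsExceptional W d) {s : Qb} {H : Subgroup GQ}
    (hs : s ^ 2 = (d : Qb)) (hH : H.index = 2) (hopen : IsOpen (H : Set GQ))
    (hfix : ∀ σ, σ ∈ H ↔ σ s = s) (B : TateBasis p W) :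
    ∃ X : M2 ℚ_[p], X * X = (d : ℚ_[p]) • 1 ∧ X.trace = 0 ∧
      (∀ g ∈ H, (B.rep g).map PadicInt.Coe.ringHom * X = X * (B.rep g).map PadicInt.Coe.ringHom) ∧
      ∀ g ∉ H,
        (B.rep g).map PadicInt.Coe.ringHom * X = -(X * (B.rep g).map PadicInt.Coe.ringHom) := by
  let ι : ℤ_[p] →+* ℚ_[p] := PadicInt.Coe.ringHom
  obtain ⟨P, hP, hns, hc, ha⟩ :=
    FA.Exceptional.exists_intertwiner hE.sqfree.ne_zero hs hH hopen hfix hE.vanish B
  obtain ⟨g, hg⟩ := SetLike.exists_not_mem_of_ne_top H (fun h => by simp [h] at hH) rfl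
  -- the trace vanishes
  have htr : P.trace = 0 := by
    have hu : IsUnit ((B.rep g).map ι) := (Group.isUnit g).map (ι.mapMatrix.toMonoidHom.comp B.rep)
    obtain ⟨u, hu⟩ := hu
    have h1 : (u : M2 ℚ_[p]) * P * (↑u⁻¹ : M2 ℚ_[p]) = -P := by
      rw [hu, ha g hg, neg_mul, mul_assoc, ← hu, Units.mul_inv, mul_one]
    have h2 := congrArg Matrix.trace h1
    rw [Matrix.trace_units_conj, trace_neg, eq_neg_iff_add_eq_zero, ← two_mul] at h2
    exact (mul_eq_zero.mp h2).resolve_left two_ne_zero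
  set δ := -P.det
  have hPP : P * P = δ • 1 := by
    rw [FA.LocalDef.mul_self_two, htr, zero_smul, zero_sub, neg_smul]
  -- a good prime with nonzero trace
  obtain ⟨l, hl, hlS, hgood, hla⟩ :=
    FA.Exceptional.exists_good_trace_ne (W := W) ({2, p} ∪ d.natAbs.primeFactors)
  simp only [Finset.mem_union, Finset.mem_insert, Finset.mem_singleton, not_or] at hlS
  obtain ⟨b, hb⟩ := FA.Exceptional.exists_disc_eq hE.sqfree hE.ne_one hE.vanish hl hgood hla
  obtain ⟨A, hA⟩ := FA.Deform.exists_liesOverPrime hl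
  obtain ⟨F, hF⟩ := FA.Deform.exists_isFrobeniusAt hl hA
  have hFH : F ∈ H := (hfix F).mpr (by
    by_contra hne
    exact hla (hE.vanish l hl hgood (FA.OpenImageAll.not_isSquare_of_frobenius_apply_ne hl hlS.1.1
      (fun hdvd => hlS.2 (Nat.mem_primeFactors.mpr ⟨hl, Int.natCast_dvd.mp hdvd,
        Int.natAbs_ne_zero.mpr hE.sqfree.ne_zero⟩)) hA hF hs hne)))
  obtain ⟨t, r, htr'⟩ := FA.Exceptional.exists_eq_add_of_commute hns (hc F hFH)
  obtain ⟨e1, e2⟩ := B.rep_frobenius hl hA hlS.1.2 hgood hF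
  have f1 : ((B.rep F).map ι).trace = (W.apOfModel l : ℚ_[p]) := by
    rw [← AddMonoidHom.map_trace, e1, map_intCast]
  have f2 : ((B.rep F).map ι).det = (l : ℚ_[p]) := by
    rw [← RingHom.mapMatrix_apply, ← RingHom.map_det, e2, map_natCast]
  have hdisc : (d : ℚ_[p]) * (b : ℚ_[p]) ^ 2 = 4 * t ^ 2 * δ := by
    have h1 : ((W.apOfModel l ^ 2 - 4 * l : ℤ) : ℚ_[p]) = ((d * b ^ 2 : ℤ) : ℚ_[p]) := by rw [hb]
    push_cast at h1
    have htr2 := htr
    rw [← h1, ← f1, ← f2, htr']
    rw [trace_fin_two] at htr2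
    simp only [δ, trace_fin_two, det_fin_two, Matrix.add_apply, Matrix.smul_apply, smul_eq_mul,
      Matrix.one_apply_eq, Matrix.one_apply_ne (show (0 : Fin 2) ≠ 1 by decide),
      Matrix.one_apply_ne (show (1 : Fin 2) ≠ 0 by decide), mul_one, mul_zero, add_zero]
    linear_combination (t ^ 2 * (P 0 0 + P 1 1)) * htr2
  have hb0 : (b : ℚ_[p]) ≠ 0 := by
    refine Int.cast_ne_zero.mpr fun h0 => ?_
    rw [h0, zero_pow two_ne_zero, mul_zero, sub_eq_zero] at hb
    obtain ⟨c, hc⟩ : (2 : ℤ) ∣ W.apOfModel l :=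
      Int.prime_two.dvd_of_dvd_pow (n := 2) ⟨2 * l, by linarith⟩
    refine (Nat.prime_iff_prime_int.mp hl).not_isSquare ⟨c, ?_⟩
    rw [hc] at hb
    linarith
  refine ⟨(2 * t / (b : ℚ_[p])) • P, ?_, by rw [trace_smul, htr, smul_zero],
    fun x hx => by rw [mul_smul_comm, smul_mul_assoc, hc x hx],
    fun x hx => by rw [mul_smul_comm, smul_mul_assoc, ha x hx, smul_neg]⟩
  rw [smul_mul_assoc, mul_smul_comm, hPP, smul_smul, smul_smul]
  congr 1
  field_simp
  linear_combination -hdisc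

/-- An element of norm `≤ 1` times squarefree data is integral. -/
theorem norm_le_one_of_sq_mul {c : ℚ_[p]} (hd : Squarefree d)
    (h : ‖c ^ 2 * (d : ℚ_[p])‖ ≤ 1) : ‖c‖ ≤ 1 := by
  by_contra hc
  push Not at hc
  have hp1 : (1 : ℝ) < p := by exact_mod_cast hp.out.one_lt
  have hcp : (p : ℝ) ≤ ‖c‖ := by
    have h2 := Padic.norm_le_pow_iff_norm_lt_pow_add_one c 0
    by_contra hlt
    push Not at hlt
    have : ‖c‖ ≤ 1 := by simpa using h2.mpr (by simpa using hlt)
    linarith
  have hdn : (p : ℝ)⁻¹ ≤ ‖(d : ℚ_[p])‖ := by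
    by_contra hlt
    push Not at hlt
    have h2 := (Padic.norm_le_pow_iff_norm_lt_pow_add_one (d : ℚ_[p]) (-2)).mpr (by simpa using hlt)
    rw [show (-2 : ℤ) = -((2 : ℕ) : ℤ) by norm_num, Padic.norm_int_le_pow_iff_dvd] at h2
    exact hp.out.ne_one (by
      have := Int.isUnit_iff.mp (hd p (by rw [← pow_two]; exact_mod_cast h2))
      omega)
  rw [norm_mul, norm_pow] at h
  have h2 : (p : ℝ) ^ 2 * (p : ℝ)⁻¹ ≤ ‖c‖ ^ 2 * ‖(d : ℚ_[p])‖ :=
    mul_le_mul (pow_le_pow_left₀ (by positivity) hcp 2) hdn (by positivity) (by positivity)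
  rw [pow_two, mul_assoc, mul_inv_cancel₀ (by positivity), mul_one] at h2
  linarith

/-- **`√d` modulo `p`**: a nonzero traceless matrix, commuting or anticommuting with the image,
whose square is `d` times a square. -/
theorem exists_sqrt_modp (hE : IsExceptional W d) {s : Qb} {H : Subgroup GQ}
    (hs : s ^ 2 = (d : Qb)) (hH : H.index = 2) (hopen : IsOpen (H : Set GQ))
    (hfix : ∀ σ, σ ∈ H ↔ σ s = s) :
    ∃ (Y : M2 (ZMod p)) (c : ZMod p), Y ≠ 0 ∧ Y.trace = 0 ∧ Y * Y = (c ^ 2 * (d : ZMod p)) • 1 ∧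
      (∀ g ∈ H, curveRep p W g * Y = Y * curveRep p W g) ∧
      ∀ g ∉ H, curveRep p W g * Y = -(Y * curveRep p W g) := by
  let ι : ℤ_[p] →+* ℚ_[p] := PadicInt.Coe.ringHom
  have hι : Function.Injective ι := Subtype.val_injective
  obtain ⟨B⟩ := exists_tateBasis (p := p) W
  obtain ⟨X, hXX, htr, hc, ha⟩ := exists_sqrt_matrix hE hs hH hopen hfix B
  obtain ⟨⟨u, hu⟩, hint⟩ := IsLocalization.exist_integer_multiples_of_finite
    (nonZeroDivisors ℤ_[p]) fun ij : Fin 2 × Fin 2 => X ij.1 ij.2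
  choose c₀ hc₀ using hint
  let M : M2 ℤ_[p] := Matrix.of fun i j => c₀ (i, j)
  have hMX : M.map ι = ι u • X := by
    ext i j
    exact hc₀ (i, j)
  have hu0 : ι u ≠ 0 := fun h => nonZeroDivisors.ne_zero hu (hι (by rw [h, map_zero]))
  have hd0 : (d : ℚ_[p]) ≠ 0 := Int.cast_ne_zero.mpr hE.sqfree.ne_zero
  have hM : M ≠ 0 := fun h => by
    rw [h, Matrix.map_zero _ (map_zero ι), eq_comm, smul_eq_zero] at hMX
    rw [hMX.resolve_left hu0, zero_mul, eq_comm, smul_eq_zero] at hXX
    exact one_ne_zero (hXX.resolve_left hd0)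
  obtain ⟨k, N, hN, hN0⟩ := exists_primitive hM
  set q : ℚ_[p] := ι u / (p : ℚ_[p]) ^ k with hq
  have hNX : N.map ι = q • X := by
    have hpk : (p : ℚ_[p]) ^ k ≠ 0 := pow_ne_zero _ (Nat.cast_ne_zero.mpr hp.out.ne_zero)
    ext i j
    have h1 := congrFun (congrFun hMX i) j
    rw [hN] at h1
    simp [ι] at h1 ⊢
    rw [hq, div_mul_eq_mul_div, eq_div_iff hpk, mul_comm]
    simpa [ι] using h1
  have hNN : (N * N).map ι = (q ^ 2 * (d : ℚ_[p])) • (1 : M2 ℚ_[p]) := by
    rw [Matrix.map_mul, hNX, smul_mul_assoc, mul_smul_comm, hXX, smul_smul, smul_smul]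
    ring_nf
  have hq1 : ‖q‖ ≤ 1 := norm_le_one_of_sq_mul hE.sqfree (by
    have h1 := congrFun (congrFun hNN 0) 0
    rw [Matrix.smul_apply, one_apply_eq, smul_eq_mul, mul_one] at h1
    rw [← h1]
    exact ((N * N) 0 0).2)
  obtain ⟨z, hz⟩ : ∃ z : ℤ_[p], ι z = q := ⟨⟨q, hq1⟩, rfl⟩
  have hNN' : N * N = (z ^ 2 * (d : ℤ_[p])) • (1 : M2 ℤ_[p]) := Matrix.map_injective hι (by
    show (N * N).map ι = ((z ^ 2 * (d : ℤ_[p])) • (1 : M2 ℤ_[p])).map ι
    rw [hNN, Matrix.map_smul' _ _ _ (map_mul ι), Matrix.map_one _ (map_zero ι) (map_one ι),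
      map_mul, map_pow, map_intCast, hz])
  have hcomm : ∀ g, ((g ∈ H → B.rep g * N = N * B.rep g) ∧
      (g ∉ H → B.rep g * N = -(N * B.rep g))) := fun g => by
    constructor <;> intro hg <;> refine Matrix.map_injective hι ?_
    · show (B.rep g * N).map ι = (N * B.rep g).map ι
      rw [Matrix.map_mul, Matrix.map_mul, hNX, mul_smul_comm, smul_mul_assoc, hc g hg]
    · show (B.rep g * N).map ι = (-(N * B.rep g)).map ι
      rw [Matrix.map_mul, Matrix.map_neg _ (map_neg ι), Matrix.map_mul, hNX, mul_smul_comm,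
        smul_mul_assoc, ha g hg, smul_neg]
  let red : M2 ℤ_[p] →+* M2 (ZMod p) := PadicInt.toZMod.mapMatrix
  have hred : ∀ g, red (B.rep g) = curveRep p W g := fun g => FA.PadicImage.rep_map_toZMod B g
  refine ⟨red N, PadicInt.toZMod z, hN0, ?_, ?_, fun g hg => ?_, fun g hg => ?_⟩
  · show (N.map PadicInt.toZMod).trace = 0
    have h1 : (N.map ι).trace = 0 := by rw [hNX, trace_smul, htr, smul_zero]
    rw [← AddMonoidHom.map_trace] at h1
    rw [← AddMonoidHom.map_trace, hι (h1.trans (map_zero ι).symm), map_zero]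
  · rw [← map_mul, hNN']
    show ((z ^ 2 * (d : ℤ_[p])) • (1 : M2 ℤ_[p])).map PadicInt.toZMod = _
    rw [Matrix.map_smul' _ _ _ (map_mul _), Matrix.map_one _ (map_zero _) (map_one _), map_mul,
      map_pow, map_intCast]
  · rw [← hred, ← map_mul, ← map_mul, (hcomm g).1 hg]
  · rw [← hred, ← map_mul, ← map_mul, ← map_neg, (hcomm g).2 hg]

/-- A matrix of square zero, commuting up to sign with the image, gives a stable line. -/
theorem not_irreducible_of_nilpotent {Y : M2 (ZMod p)} (hY : Y ≠ 0) (hYY : Y * Y = 0)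
    (h : ∀ g, curveRep p W g * Y = Y * curveRep p W g ∨
      curveRep p W g * Y = -(Y * curveRep p W g)) : ¬ W.ModRepIsIrreducible p := by
  intro hirr
  obtain ⟨v, hv⟩ : ∃ v, Y *ᵥ v ≠ 0 := by
    by_contra hcon
    push Not at hcon
    exact hY (Matrix.ext_iff_mulVec.mpr fun v => by rw [hcon v, zero_mulVec])
  set w := Y *ᵥ v
  have hw : Y *ᵥ w = 0 := by rw [mulVec_mulVec, hYY, zero_mulVec]
  obtain ⟨g, hg⟩ := FA.Ribet.exists_moves_line hirr hv
  have hgw : Y *ᵥ (curveRep p W g *ᵥ w) = 0 := by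
    have h1 : curveRep p W g *ᵥ (Y *ᵥ w) = 0 := by rw [hw, mulVec_zero]
    rw [mulVec_mulVec] at h1 ⊢
    rcases h g with e | e <;> rw [e] at h1
    · exact h1
    · rwa [neg_mulVec, neg_eq_zero] at h1
  refine hg _ (Classical.choose_spec (?_ : ∃ a : ZMod p, curveRep p W g *ᵥ w = a • w))
  by_contra hcon
  push Not at hcon
  have hli : LinearIndependent (ZMod p) ![w, curveRep p W g *ᵥ w] :=
    LinearIndependent.pair_iff' hv |>.mpr fun a e => hcon a e.symm
  refine hY (Matrix.toLin'.injective ((LinearMap.ext_on_range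
    (v := ![w, curveRep p W g *ᵥ w]) (f := Matrix.toLin' Y) (g := 0)
    (hli.span_eq_top_of_card_eq_finrank (by simp)) fun i => ?_).trans (map_zero _).symm))
  fin_cases i
  exacts [hw, hgw]

/-- A traceless matrix commuting up to sign with the two elementary unipotent matrices is zero. -/
theorem eq_zero_of_unipotents (h2 : (2 : ZMod p) ≠ 0) {Y : M2 (ZMod p)} (htr : Y.trace = 0)
    (hu : !![1, 1; 0, 1] * Y = Y * !![1, 1; 0, 1] ∨ !![1, 1; 0, 1] * Y = -(Y * !![1, 1; 0, 1]))
    (hl : !![1, 0; 1, 1] * Y = Y * !![1, 0; 1, 1] ∨ !![1, 0; 1, 1] * Y = -(Y * !![1, 0; 1, 1])) :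
    Y = 0 := by
  rw [trace_fin_two] at htr
  have hu2 : Y 1 0 = 0 ∧ (Y 1 1 = Y 0 0 ∨ Y 0 0 = 0) := by
    rcases hu with e | e
    · have e00 := congrFun (congrFun e 0) 0
      have e01 := congrFun (congrFun e 0) 1
      simp [Matrix.mul_apply, Fin.sum_univ_two] at e00 e01
      exact ⟨by linear_combination e00, Or.inl (by linear_combination e01)⟩
    · have e00 := congrFun (congrFun e 0) 0
      have e11 := congrFun (congrFun e 1) 1
      simp [Matrix.mul_apply, Fin.sum_univ_two] at e00 e11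
      have h10 : Y 1 0 = 0 := mul_left_cancel₀ h2 (by linear_combination e00 + e11 - 2 * htr)
      exact ⟨h10, Or.inr (mul_left_cancel₀ h2 (by linear_combination e00 - h10))⟩
  have hl2 : Y 0 1 = 0 := by
    rcases hl with e | e
    · have e00 := congrFun (congrFun e 0) 0
      simp [Matrix.mul_apply, Fin.sum_univ_two] at e00
      linear_combination e00
    · have e00 := congrFun (congrFun e 0) 0
      have e11 := congrFun (congrFun e 1) 1
      simp [Matrix.mul_apply, Fin.sum_univ_two] at e00 e11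
      exact mul_left_cancel₀ h2 (by linear_combination e00 + e11 - 2 * htr)
  have h00 : Y 0 0 = 0 := by
    rcases hu2.2 with e | e
    · exact mul_left_cancel₀ h2 (by linear_combination htr - e)
    · exact e
  ext i j
  fin_cases i <;> fin_cases j <;> simp [h00, hu2.1, hl2]
  linear_combination htr - h00

/-- **Never all of `GL₂(𝔽_p)`**, `p` odd. -/
theorem exists_matrix_not_mem (hE : IsExceptional W d) (hp2 : p ≠ 2) :
    ∃ X : M2 (ZMod p), X.det ≠ 0 ∧ ∀ σ : GQ, curveRep p W σ ≠ X := by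
  by_contra hcon
  push Not at hcon
  obtain ⟨s, H, hs, hH, hopen, hfix⟩ :=
    FA.OpenImageAll.exists_index_two_of_sqrt hE.sqfree hE.ne_one
  obtain ⟨Y, c, hY, htr, -, hc, ha⟩ := exists_sqrt_modp (p := p) hE hs hH hopen hfix
  have hpm : ∀ g, curveRep p W g * Y = Y * curveRep p W g ∨
      curveRep p W g * Y = -(Y * curveRep p W g) := fun g => by
    by_cases hg : g ∈ H
    exacts [Or.inl (hc g hg), Or.inr (ha g hg)]
  have h2 : (2 : ZMod p) ≠ 0 := fun h => hp2 ((Nat.prime_dvd_prime_iff_eq hp.out Nat.prime_two).mp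
    ((ZMod.natCast_eq_zero_iff 2 p).mp (by exact_mod_cast h)))
  obtain ⟨σ, hσ⟩ := hcon !![1, 1; 0, 1] (by simp [det_fin_two_of])
  obtain ⟨τ, hτ⟩ := hcon !![1, 0; 1, 1] (by simp [det_fin_two_of])
  exact hY (eq_zero_of_unipotents h2 htr (hσ ▸ hpm σ) (hτ ▸ hpm τ))

/-- **A stable line at the ramified primes.** -/
theorem not_irreducible_of_dvd (hE : IsExceptional W d) (hpd : (p : ℤ) ∣ d) :
    ¬ W.ModRepIsIrreducible p := by
  obtain ⟨s, H, hs, hH, hopen, hfix⟩ :=
    FA.OpenImageAll.exists_index_two_of_sqrt hE.sqfree hE.ne_one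
  obtain ⟨Y, c, hY, -, hYY, hc, ha⟩ := exists_sqrt_modp (p := p) hE hs hH hopen hfix
  rw [(ZMod.intCast_zmod_eq_zero_iff_dvd d p).mpr hpd, mul_zero, zero_smul] at hYY
  refine not_irreducible_of_nilpotent hY hYY fun g => ?_
  by_cases hg : g ∈ H
  exacts [Or.inl (hc g hg), Or.inr (ha g hg)]

/-- **The normaliser of a Cartan subgroup** of type `d` where no line is stable: a matrix of square
`d` commuting or anticommuting with the image. -/
theorem exists_cartan (hE : IsExceptional W d) (hirr : W.ModRepIsIrreducible p) {s : Qb}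
    (hs : s ^ 2 = (d : Qb)) :
    ∃ Y : M2 (ZMod p), Y * Y = (d : ZMod p) • 1 ∧
      ∀ g : GQ, (g s = s → curveRep p W g * Y = Y * curveRep p W g) ∧
        (g s ≠ s → curveRep p W g * Y = -(Y * curveRep p W g)) := by
  obtain ⟨t, H, ht, hH, hopen, hfix⟩ :=
    FA.OpenImageAll.exists_index_two_of_sqrt hE.sqfree hE.ne_one
  obtain ⟨Y, c, hY, -, hYY, hc, ha⟩ := exists_sqrt_modp (p := p) hE ht hH hopen hfix
  have hst : ∀ g : GQ, g t = t ↔ g s = s := fun g => by
    rcases sq_eq_sq_iff_eq_or_eq_neg.mp (ht.trans hs.symm) with e | e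
    · rw [e]
    · rw [e, map_neg, neg_inj]
  have hc0 : c ≠ 0 := fun h => by
    rw [h, zero_pow two_ne_zero, zero_mul, zero_smul] at hYY
    exact not_irreducible_of_nilpotent hY hYY (fun g => by
      by_cases hg : g ∈ H
      exacts [Or.inl (hc g hg), Or.inr (ha g hg)]) hirr
  refine ⟨c⁻¹ • Y, ?_, fun g => ⟨fun hg => ?_, fun hg => ?_⟩⟩
  · rw [smul_mul_assoc, mul_smul_comm, hYY, smul_smul, smul_smul]
    congr 1
    field_simp
  · rw [mul_smul_comm, smul_mul_assoc, hc g ((hfix g).mpr ((hst g).mpr hg))]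
  · rw [mul_smul_comm, smul_mul_assoc, ha g (fun h => hg ((hst g).mp ((hfix g).mp h))), smul_neg]

end FA.CMStructure

end
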