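import Fermat.Agent.OpenImageAll.CMStructure
import Fermat.Agent.SerreLarge.InertiaAtP

/-!
# The whole normaliser of a Cartan subgroup

Let `Y² = d` modulo `p ∤ 2 d` commute with the image of the automorphisms fixing `√d` and
anticommute with the others. Inertia at a good `p` fixes `√d`, so its image lies in the commutant of
`Y`. If `d` is not a square modulo `p` that commutant is a field: the reduction at `p` is
supersingular and an element of inertia generates its units. If `d` is a square it is a split torus: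
the reduction is ordinary and inertia gives all `diag (x, 1)`, whose conjugates by an element moving
`√d` are the `diag (1, x)`. So the image is the whole normaliser.
-/

set_option autoImplicit false
set_option linter.unusedSectionVars false
set_option linter.style.haveILetI false

noncomputable section

open Matrix WeierstrassCurve FA.EC FA.Frob FA.RT FA.LocalDef FA.Local

local notation "Qb" => AlgebraicClosure ℚ
local notation "GQ" => AlgebraicClosure ℚ ≃ₐ[ℚ] AlgebraicClosure ℚ
local notation "M2" => Matrix (Fin 2) (Fin 2)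

namespace FA.CartanImage

section Algebra

variable {k : Type*} [Field k] {Y : M2 k} {δ : k}

/-- A square root of a nonzero scalar anticommuting with an invertible matrix is no scalar. -/
theorem ne_smul_one (h2 : (2 : k) ≠ 0) (hδ : δ ≠ 0) (hYY : Y * Y = δ • 1) {T : M2 k}
    (hT : T.det ≠ 0) (h : T * Y = -(Y * T)) (a : k) : Y ≠ a • 1 := by
  rintro rfl
  rw [mul_smul_comm, smul_mul_assoc, mul_one, one_mul, eq_neg_iff_add_eq_zero, ← add_smul,
    ← two_mul, smul_eq_zero, mul_eq_zero] at h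
  rcases h with (h | h) | h
  · exact h2 h
  · rw [h, zero_smul, mul_zero, eq_comm, smul_eq_zero] at hYY
    exact hδ (hYY.resolve_right one_ne_zero)
  · exact hT (by rw [h]; exact det_zero)

/-- Its trace and determinant. -/
theorem trace_det_of_sq (hYY : Y * Y = δ • 1) (hY : ∀ a : k, Y ≠ a • 1) :
    Y.trace = 0 ∧ Y.det = -δ := by
  have h := FA.LocalDef.mul_self_two Y
  rw [hYY, eq_sub_iff_add_eq, ← add_smul] at h
  have ht : Y.trace = 0 := by
    by_contra ht
    exact hY (Y.trace⁻¹ * (δ + Y.det))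
      (by rw [← smul_smul, h, smul_smul, inv_mul_cancel₀ ht, one_smul])
  rw [ht, zero_smul, smul_eq_zero] at h
  exact ⟨ht, eq_neg_of_add_eq_zero_right (h.resolve_right one_ne_zero)⟩

/-- The determinant of an element of the commutant. -/
theorem det_combo (hYY : Y * Y = δ • 1) (hY : ∀ a : k, Y ≠ a • 1) (a b : k) :
    (a • Y + b • 1).det = b ^ 2 - δ * a ^ 2 := by
  obtain ⟨ht, hd⟩ := trace_det_of_sq hYY hY
  rw [trace_fin_two] at ht
  rw [det_fin_two] at hd
  simp [det_fin_two]
  linear_combination a * b * ht + a ^ 2 * hd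

/-- The commutant is a field if `δ` is not a square. -/
theorem det_combo_ne_zero (hYY : Y * Y = δ • 1) (hY : ∀ a : k, Y ≠ a • 1) (hsq : ¬ IsSquare δ)
    {a b : k} (h : a ≠ 0 ∨ b ≠ 0) : (a • Y + b • 1).det ≠ 0 := by
  rw [det_combo hYY hY a b]
  intro h0
  by_cases ha : a = 0
  · rw [ha] at h0
    exact (h.resolve_left (by simp [ha])) (by simpa using h0)
  · exact hsq ⟨b / a, by field_simp; linear_combination -h0⟩

/-- The powers of a matrix and of a root of its characteristic polynomial. -/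
theorem pow_combo {F : Type*} [Field F] (f : k →+* F) (M : M2 k) {ν : F}
    (hν : ν * ν = f M.trace * ν - f M.det) (n : ℕ) :
    ∃ a b : k, M ^ n = a • M + b • 1 ∧ ν ^ n = f a * ν + f b := by
  induction n with
  | zero => exact ⟨0, 1, by simp, by simp⟩
  | succ n ih =>
    obtain ⟨a, b, hM, hn⟩ := ih
    refine ⟨a * M.trace + b, -(a * M.det), ?_, ?_⟩
    · rw [pow_succ, hM, add_mul, smul_mul_assoc, smul_mul_assoc, one_mul, mul_self_two]
      module
    · rw [pow_succ, hn, add_mul, mul_assoc, hν, map_add, map_mul, map_neg, map_mul]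
      ring

variable (Y) in
/-- The element of a split commutant with eigenvalues `u`, `v` on the eigenlines of `Y`. -/
def diag (c u v : k) : M2 k := ((u + v) / 2) • 1 + ((u - v) / (2 * c)) • Y

/-- `diag` is multiplicative. -/
theorem diag_mul (h2 : (2 : k) ≠ 0) {c : k} (hc : c ≠ 0) (hYY : Y * Y = c ^ 2 • 1)
    (u v u' v' : k) : diag Y c u v * diag Y c u' v' = diag Y c (u * u') (v * v') := by
  simp only [diag, add_mul, mul_add, smul_mul_assoc, mul_smul_comm, one_mul, mul_one, hYY,
    smul_smul]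
  match_scalars <;> field_simp <;> ring

/-- An anticommuting matrix swaps the eigenvalues. -/
theorem mul_diag_of_anticommute {T : M2 k} (h : T * Y = -(Y * T)) (c u v : k) :
    T * diag Y c u v = diag Y c v u * T := by
  simp only [diag, add_mul, mul_add, smul_mul_assoc, mul_smul_comm, one_mul, mul_one, h]
  match_scalars <;> ring

/-- The powers of `diag`. -/
theorem diag_pow (h2 : (2 : k) ≠ 0) {c : k} (hc : c ≠ 0) (hYY : Y * Y = c ^ 2 • 1) (u v : k)
    (n : ℕ) : diag Y c u v ^ n = diag Y c (u ^ n) (v ^ n) := by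
  induction n with
  | zero => simp [diag, ← two_mul, h2]
  | succ n ih => rw [pow_succ, ih, diag_mul h2 hc hYY, pow_succ, pow_succ]

/-- The determinant of `diag`. -/
theorem det_diag (h2 : (2 : k) ≠ 0) {c : k} (hc : c ≠ 0) (hYY : Y * Y = c ^ 2 • 1)
    (hY : ∀ a : k, Y ≠ a • 1) (u v : k) : (diag Y c u v).det = u * v := by
  rw [diag, add_comm, det_combo hYY hY]
  field_simp
  ring

/-- Every element of the commutant is a `diag`. -/
theorem exists_diag_of_commute (h2 : (2 : k) ≠ 0) {c : k} (hc : c ≠ 0) (hY : ∀ a : k, Y ≠ a • 1)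
    {M : M2 k} (h : M * Y = Y * M) : ∃ u v, M = diag Y c u v := by
  obtain ⟨a, b, rfl⟩ := FA.Exceptional.exists_eq_add_of_commute hY h
  refine ⟨b + a * c, b - a * c, ?_⟩
  simp only [diag]
  match_scalars <;> field_simp <;> ring

end Algebra

section Image

variable {p : ℕ} [hp : Fact p.Prime] {G : Type*} [Group G] {r : G →* M2 (ZMod p)} {Y : M2 (ZMod p)}

/-- **The split case**: an element of determinant a generator with the eigenvalue `1` and an
anticommuting element generate the whole torus. -/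
theorem exists_eq_split (h2 : (2 : ZMod p) ≠ 0) {c : ZMod p} (hc : c ≠ 0)
    (hYY : Y * Y = c ^ 2 • 1) (hY : ∀ a : ZMod p, Y ≠ a • 1) {τ σ₀ : G}
    (hτ : r τ * Y = -(Y * r τ)) (hσ₀ : r σ₀ * Y = Y * r σ₀) (h1 : (r σ₀ - 1).det = 0)
    {g : ZMod p} (hg : (r σ₀).det = g) (hgen : ∀ x : ZMod p, x ≠ 0 → ∃ i : ℕ, g ^ i = x)
    {M : M2 (ZMod p)} (hM : M.det ≠ 0) (hMY : M * Y = Y * M) : ∃ σ, r σ = M := by
  obtain ⟨u₀, v₀, hS⟩ := exists_diag_of_commute h2 hc hY hσ₀
  have hone : (1 : M2 (ZMod p)) = diag Y c 1 1 := by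
    simpa using diag_pow h2 hc hYY 1 1 0
  have hprod : u₀ * v₀ = g := by rw [← det_diag h2 hc hYY hY, ← hS, hg]
  have hfac : (u₀ - 1) * (v₀ - 1) = 0 := by
    rw [← det_diag h2 hc hYY hY, ← h1, hS, hone]
    congr 1
    simp only [diag]
    match_scalars <;> field_simp <;> ring
  have hinv : r τ * r τ⁻¹ = 1 := by rw [← map_mul, mul_inv_cancel, map_one]
  have hswap : ∀ a b : ZMod p, (∃ σ, r σ = diag Y c a b) → ∃ σ, r σ = diag Y c b a := by
    rintro a b ⟨σ, hσ⟩
    exact ⟨τ * σ * τ⁻¹, by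
      rw [map_mul, map_mul, hσ, mul_diag_of_anticommute hτ, mul_assoc, hinv, mul_one]⟩
  have hleft : ∀ x : ZMod p, x ≠ 0 → ∃ σ, r σ = diag Y c x 1 := by
    intro x hx
    obtain ⟨i, hi⟩ := hgen x hx
    have hpow : r (σ₀ ^ i) = diag Y c (u₀ ^ i) (v₀ ^ i) := by
      rw [map_pow, hS, diag_pow h2 hc hYY]
    rcases mul_eq_zero.mp hfac with h | h <;> rw [sub_eq_zero] at h
    · rw [h, one_mul] at hprod
      rw [h, hprod, hi, one_pow] at hpow
      exact hswap 1 x ⟨_, hpow⟩
    · rw [h, mul_one] at hprod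
      rw [h, hprod, hi, one_pow] at hpow
      exact ⟨_, hpow⟩
  obtain ⟨u, v, rfl⟩ := exists_diag_of_commute h2 hc hY hMY
  rw [det_diag h2 hc hYY hY, mul_ne_zero_iff] at hM
  obtain ⟨σ, hσ⟩ := hleft u hM.1
  obtain ⟨σ', hσ'⟩ := hswap v 1 (hleft v hM.2)
  exact ⟨σ * σ', by rw [map_mul, hσ, hσ', diag_mul h2 hc hYY, mul_one, one_mul]⟩

/-- **The non-split case**: an element whose eigenvalue has order `p² - 1` generates the invertible
elements of the commutant, which is then a field. -/
theorem exists_eq_of_order (hY : ∀ a : ZMod p, Y ≠ a • 1) {σ₀ : G} (hσ₀ : r σ₀ * Y = Y * r σ₀) {F : Type*} [Field F]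
    (f : ZMod p →+* F) {ν : F} (hν : ν * ν = f (r σ₀).trace * ν - f (r σ₀).det)
    (hord : orderOf ν = p ^ 2 - 1) {M : M2 (ZMod p)} (hM : M.det ≠ 0) (hMY : M * Y = Y * M) :
    ∃ σ, r σ = M := by
  classical
  have hp2 := hp.out.two_le
  have hlt : p - 1 < p ^ 2 - 1 := by
    have : p * 2 ≤ p ^ 2 := by rw [pow_two]; exact Nat.mul_le_mul_left p hp2
    omega
  have hν0 : ν ≠ 0 := fun h => by rw [h, orderOf_zero] at hord; omega
  -- the matrix is no scalar
  have hns : ∀ e : ZMod p, r σ₀ ≠ e • 1 := fun e he => by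
    have h : (ν - f e) ^ 2 = 0 := by
      rw [he] at hν
      simp [map_ofNat] at hν
      linear_combination hν
    have hνe : ν = f e := sub_eq_zero.mp (pow_eq_zero_iff two_ne_zero |>.mp h)
    have h1 := orderOf_dvd_of_pow_eq_one (show ν ^ (p - 1) = 1 by
      rw [hνe, ← map_pow, ZMod.pow_card_sub_one_eq_one (fun h => hν0 (by rw [hνe, h, map_zero])),
        map_one])
    rw [hord] at h1
    exact absurd (Nat.le_of_dvd (by omega) h1) (not_le.mpr hlt)
  -- so its powers are as distinct as those of the eigenvalue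
  have hSdet : ∀ i : ℕ, (r σ₀ ^ i).det ≠ 0 := fun i h => by
    have := congrArg Matrix.det (map_mul r (σ₀ ^ i) (σ₀ ^ i)⁻¹)
    rw [mul_inv_cancel, map_one, det_one, det_mul, map_pow, h, zero_mul] at this
    exact one_ne_zero this
  have hinj : Set.InjOn (fun i => r σ₀ ^ i) (Finset.range (p ^ 2 - 1)) := by
    intro i hi j hj hij
    obtain ⟨a, b, hMi, hνi⟩ := pow_combo f (r σ₀) hν i
    obtain ⟨a', b', hMj, hνj⟩ := pow_combo f (r σ₀) hν j
    simp only [hMi, hMj] at hij
    have hab : a = a' := by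
      by_contra hne
      refine hns ((a - a')⁻¹ * (b' - b)) ?_
      rw [← smul_smul, show (b' - b) • (1 : M2 (ZMod p)) = (a - a') • r σ₀ by
        rw [sub_smul, sub_smul, sub_eq_sub_iff_add_eq_add, add_comm (b' • 1), ← hij],
        smul_smul, inv_mul_cancel₀ (sub_ne_zero.mpr hne), one_smul]
    subst hab
    have hbb := smul_left_injective (ZMod p) (one_ne_zero (α := M2 (ZMod p))) (add_left_cancel hij)
    subst hbb
    rw [← hord] at hi hj
    exact pow_injOn_Iio_orderOf (Finset.mem_range.mp hi) (Finset.mem_range.mp hj)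
      (hνi.trans hνj.symm)
  let T := (Finset.univ.erase (0 : ZMod p × ZMod p)).image fun ab => ab.1 • Y + ab.2 • 1
  let P := (Finset.range (p ^ 2 - 1)).image fun i => r σ₀ ^ i
  have hsub : ∀ N : M2 (ZMod p), N.det ≠ 0 → N * Y = Y * N → N ∈ T := fun N hN hNY => by
    obtain ⟨a, b, rfl⟩ := FA.Exceptional.exists_eq_add_of_commute hY hNY
    refine Finset.mem_image.mpr ⟨(a, b), Finset.mem_erase.mpr ⟨fun h => hN ?_,
      Finset.mem_univ _⟩, rfl⟩
    obtain ⟨rfl, rfl⟩ := Prod.mk_eq_zero.mp h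
    simp
  have hPT : P = T := Finset.eq_of_subset_of_card_le
    (Finset.image_subset_iff.mpr fun i _ => hsub _ (hSdet i)
      (Commute.pow_left (show Commute (r σ₀) Y from hσ₀) i))
    (by
      rw [Finset.card_image_of_injOn hinj, Finset.card_range]
      refine Finset.card_image_le.trans ?_
      rw [Finset.card_erase_of_mem (Finset.mem_univ _), Finset.card_univ, Fintype.card_prod,
        ZMod.card, pow_two])
  obtain ⟨i, -, hi⟩ := Finset.mem_image.mp (hPT ▸ hsub M hM hMY : M ∈ P)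
  exact ⟨σ₀ ^ i, by rw [map_pow, hi]⟩

end Image

section Curve

variable {p : ℕ} [hp : Fact p.Prime]

/-- **Inertia fixes `√d`** at a place over `p ∤ 2 d`. -/
theorem inertia_fixes_sqrt {d : ℤ} (hp2 : p ≠ 2) (hpd : ¬ (p : ℤ) ∣ d) {s : Qb}
    (hs : s ^ 2 = (d : Qb)) {A : ValuationSubring Qb} (hA : A.LiesOverPrime p) {σ : GQ}
    (hσ : σ ∈ A.inertiaSubgroupIn ℚ) : σ s = s := by
  refine (sq_eq_sq_iff_eq_or_eq_neg.mp (show σ s ^ 2 = s ^ 2 by
    rw [← map_pow, hs, map_intCast])).resolve_right fun h => ?_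
  have hlt := valuation_p_lt_one hA
  have hv : A.valuation s = 1 := by
    have h1 := congrArg A.valuation hs
    rw [map_pow, natCast_eq_one_of_not_dvd hp.out hlt hpd] at h1
    exact (pow_eq_one_iff.mp h1).resolve_right two_ne_zero
  have h2 := (inert_of_mem_inertiaSubgroupIn A hσ).sub_lt s hv.le
  rw [h, show -s - s = ((-2 : ℤ) : Qb) * s by push_cast; ring, map_mul, hv, mul_one,
    natCast_eq_one_of_not_dvd hp.out hlt] at h2
  · exact lt_irrefl _ h2
  · rw [dvd_neg, Int.natCast_dvd]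
    exact fun h' => hp2 ((Nat.prime_dvd_prime_iff_eq hp.out Nat.prime_two).mp h')

variable {W : WeierstrassCurve ℤ} [(ratCurve W).IsElliptic]

theorem det_curveRep_ne_zero (σ : GQ) : (curveRep p W σ).det ≠ 0 := fun h => by
  have := congrArg Matrix.det (map_mul (curveRep p W) σ σ⁻¹)
  rw [mul_inv_cancel, map_one, det_one, det_mul, h, zero_mul] at this
  exact one_ne_zero this

/-- **The whole Cartan subgroup**: at a good `p ∤ 2 d` every invertible matrix commuting with `Y`
is the image of an automorphism fixing `√d`, and every one anticommuting of one moving it. -/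
theorem exists_eq_of_commute_or_anticommute (hp2 : p ≠ 2) (hgood : W.IsGoodPrimeFor p) {d : ℤ}
    (hpd : ¬ (p : ℤ) ∣ d) {s : Qb} (hs : s ^ 2 = (d : Qb)) {τ : GQ} (hτ : τ s ≠ s)
    {Y : M2 (ZMod p)} (hYY : Y * Y = (d : ZMod p) • 1)
    (hY : ∀ g : GQ, (g s = s → curveRep p W g * Y = Y * curveRep p W g) ∧
      (g s ≠ s → curveRep p W g * Y = -(Y * curveRep p W g)))
    {M : M2 (ZMod p)} (hM : M.det ≠ 0) :
    (M * Y = Y * M → ∃ σ, σ s = s ∧ curveRep p W σ = M) ∧
      (M * Y = -(Y * M) → ∃ σ, σ s ≠ s ∧ curveRep p W σ = M) := by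
  have h2 : (2 : ZMod p) ≠ 0 := fun h => hp2 ((Nat.prime_dvd_prime_iff_eq hp.out Nat.prime_two).mp
    ((ZMod.natCast_eq_zero_iff 2 p).mp (by exact_mod_cast h)))
  set δ : ZMod p := (d : ZMod p)
  have hδ : δ ≠ 0 := fun h => hpd ((ZMod.intCast_zmod_eq_zero_iff_dvd d p).mp h)
  have hns := ne_smul_one h2 hδ hYY (det_curveRep_ne_zero τ) ((hY τ).2 hτ)
  have hcomm : ∀ M : M2 (ZMod p), M.det ≠ 0 → M * Y = Y * M →
      ∃ σ, σ s = s ∧ curveRep p W σ = M := by
    intro M hM hMY
    suffices ∃ σ, curveRep p W σ = M by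
      obtain ⟨σ, hσ⟩ := this
      refine ⟨σ, by_contra fun h => ?_, hσ⟩
      have ha := (hY σ).2 h
      rw [hσ, hMY, eq_neg_iff_add_eq_zero, ← two_smul (ZMod p)] at ha
      have h0 := congrArg Matrix.det ((smul_eq_zero.mp ha).resolve_left h2)
      rw [det_mul, det_zero, (trace_det_of_sq hYY hns).2, mul_eq_zero,
        neg_eq_zero] at h0
      exact hM (h0.resolve_left hδ)
    obtain ⟨A, hA⟩ := FA.Deform.exists_liesOverPrime hp.out
    have hin : ∀ σ ∈ A.inertiaSubgroupIn ℚ, curveRep p W σ * Y = Y * curveRep p W σ :=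
      fun σ hσ => (hY σ).1 (inertia_fixes_sqrt hp2 hpd hs hA hσ)
    rcases flat_residual_type hA hp2 (detOmega_curveRep W A) (isFlatRes_curveRep W hA hgood) with
      ⟨l, -, -, hI⟩ | ⟨Λ, -, -, -, g₀, hg₀, -, hord, t, e, ht, he, heq⟩
    · -- ordinary reduction
      obtain ⟨g, hg⟩ := IsCyclic.exists_monoid_generator (α := (ZMod p)ˣ)
      have hgen : ∀ x : ZMod p, x ≠ 0 → ∃ i : ℕ, (g : ZMod p) ^ i = x := fun x hx => by
        obtain ⟨i, hi⟩ := hg (Units.mk0 x hx)
        exact ⟨i, by rw [← Units.val_pow_eq_pow_val, show g ^ i = Units.mk0 x hx from hi]; rfl⟩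
      obtain ⟨ζ, hζ⟩ := HasEnoughRootsOfUnity.exists_primitiveRoot Qb p
      have hm : ¬ p ∣ (g : ZMod p).val := fun h => g.ne_zero (by
        rw [← ZMod.natCast_zmod_val (g : ZMod p), ZMod.natCast_eq_zero_iff]; exact h)
      obtain ⟨σ₀, hσ₀, hσζ⟩ := exists_inertia_zeta hp.out hA hζ hm
      have hdet : (curveRep p W σ₀).det = (g : ZMod p) := by
        rw [det_curveRep W σ₀ (g : ZMod p).val fun μ hμ => ?_, ZMod.natCast_zmod_val]
        obtain ⟨i, -, rfl⟩ := hζ.eq_pow_of_pow_eq_one hμ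
        rw [map_pow, hσζ, ← pow_mul, ← pow_mul, mul_comm]
      have h1 : (curveRep p W σ₀ - 1).det = 0 := by
        obtain ⟨s₀, h0⟩ := hI σ₀ hσ₀ (Pi.single 0 1)
        obtain ⟨s₁, h1⟩ := hI σ₀ hσ₀ (Pi.single 1 1)
        have a00 : curveRep p W σ₀ 0 0 - 1 = s₀ * l 0 := by simpa using congrFun h0 0
        have a10 : curveRep p W σ₀ 1 0 = s₀ * l 1 := by simpa using congrFun h0 1
        have a01 : curveRep p W σ₀ 0 1 = s₁ * l 0 := by simpa using congrFun h1 0
        have a11 : curveRep p W σ₀ 1 1 - 1 = s₁ * l 1 := by simpa using congrFun h1 1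
        simp [det_fin_two, a00, a10, a01, a11]
        ring
      by_cases hsq : IsSquare δ
      · obtain ⟨c, hc⟩ := hsq
        rw [← pow_two] at hc
        exact exists_eq_split h2 (show c ≠ 0 from fun h => hδ (by rw [hc, h, zero_pow two_ne_zero]))
          (hYY.trans (by rw [hc])) hns ((hY τ).2 hτ) (hin σ₀ hσ₀) h1 hdet hgen hM hMY
      · exfalso
        obtain ⟨a, b, hS⟩ := FA.Exceptional.exists_eq_add_of_commute hns (hin σ₀ hσ₀)
        rw [hS, add_sub_assoc, ← one_smul (ZMod p) (1 : M2 (ZMod p)), smul_smul, mul_one,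
          ← sub_smul] at h1
        obtain ⟨ha, hb⟩ : a = 0 ∧ b = 1 := by
          by_contra hab
          exact det_combo_ne_zero hYY hns hsq
            (show a ≠ 0 ∨ b - 1 ≠ 0 by simpa [sub_eq_zero, or_iff_not_imp_left] using hab) h1
        rw [hS, ha, hb, zero_smul, zero_add, one_smul, det_one] at hdet
        obtain ⟨i, hi⟩ := hgen (-1) (by simp)
        rw [← hdet, one_pow] at hi
        exact h2 (by linear_combination hi)
    · -- supersingular reduction
      have := res_charP hp.out hA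
      let f : ZMod p →+* FA.LocalDef.Res A := ZMod.castHom (dvd_refl p) (FA.LocalDef.Res A)
      set ν := Λ.chi0 g₀
      have hν : ν * ν = f (curveRep p W g₀).trace * ν - f (curveRep p W g₀).det := by
        rw [ht, he, map_natCast, map_natCast]
        linear_combination heq
      exact exists_eq_of_order hns (hin g₀ hg₀) f hν hord hM hMY
  refine ⟨hcomm M hM, fun hMY => ?_⟩
  have hτ' : τ⁻¹ s ≠ s := fun h => hτ (by
    conv_lhs => rw [← h]
    rw [← AlgEquiv.mul_apply, mul_inv_cancel, AlgEquiv.one_apply])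
  obtain ⟨σ, hσ, hσM⟩ := hcomm (curveRep p W τ⁻¹ * M)
    (by rw [det_mul]; exact mul_ne_zero (det_curveRep_ne_zero _) hM)
    (by rw [mul_assoc, hMY, mul_neg, ← mul_assoc, (hY τ⁻¹).2 hτ', neg_mul, neg_neg, mul_assoc])
  refine ⟨τ * σ, by rwa [AlgEquiv.mul_apply, hσ], ?_⟩
  rw [map_mul, hσM, ← mul_assoc, ← map_mul, mul_inv_cancel, map_one, one_mul]

end Curve

end FA.CartanImage

end
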