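import Mathlib.NumberTheory.NumberField.ClassNumber
import Mathlib.NumberTheory.NumberField.Ideal.Asymptotics
import Mathlib.RingTheory.DedekindDomain.Factorization
import Mathlib.RingTheory.Norm.Basic
import Mathlib.Tactic

/-!
# Class number one from principal primes

The ideals of each class prime to finitely many given primes have the same positive density, by
the asymptotics of the ideals in a class and a sieve. So a number field all of whose other primes
are principal has class number one; in an imaginary quadratic field a prime above `l` is principal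
if `4 l = a² - d b²` whenever `d` is a square modulo `l`.
-/

set_option autoImplicit false
set_option linter.style.haveILetI false

noncomputable section

open NumberField Ideal IsDedekindDomain Filter Topology Module
open scoped nonZeroDivisors

namespace FA.ClassOneField

section sieve

variable (K : Type*) [Field K] [NumberField K]

/-- The ideals in a class of norm at most `s` prime to the given primes. -/
def sifted (T : Finset (HeightOneSpectrum (𝓞 K))) (C : ClassGroup (𝓞 K)) (s : ℝ) :
    Set (Ideal (𝓞 K))⁰ :=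
  {I | (absNorm (I : Ideal (𝓞 K)) : ℝ) ≤ s ∧ ClassGroup.mk0 I = C ∧
    ∀ v ∈ T, ¬ v.asIdeal ∣ (I : Ideal (𝓞 K))}

theorem sifted_finite (T : Finset (HeightOneSpectrum (𝓞 K))) (C : ClassGroup (𝓞 K)) (s : ℝ) :
    (sifted K T C s).Finite :=
  (finite_setOfPred_absNorm_le₀ (S := 𝓞 K) ⌊s⌋₊).subset fun _ hI => Nat.le_floor hI.1

/-- **The sieve**: every class has the same positive density of ideals prime to given primes. -/
theorem exists_density (T : Finset (HeightOneSpectrum (𝓞 K))) :
    ∃ c : ℝ, 0 < c ∧ ∀ C, Tendsto (fun s => ((sifted K T C s).ncard : ℝ) / s) atTop (𝓝 c) := by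
  classical
  induction T using Finset.induction_on with
  | empty =>
    refine ⟨(2 ^ InfinitePlace.nrRealPlaces K * (2 * Real.pi) ^ InfinitePlace.nrComplexPlaces K *
        Units.regulator K) / (Units.torsionOrder K * Real.sqrt |discr K|), ?_, fun C => ?_⟩
    · have := Units.regulator_pos K
      have : 0 < Units.torsionOrder K := Nat.pos_of_ne_zero (Units.torsionOrder_ne_zero K)
      have : (0 : ℝ) < |(discr K : ℝ)| := abs_pos.mpr (Int.cast_ne_zero.mpr (discr_ne_zero K))
      positivity
    · refine (Ideal.tendsto_norm_le_and_mk_eq_div_atTop K C).congr fun s => ?_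
      congr 2
      rw [← Nat.card_coe_set_eq]
      exact Nat.card_congr (Equiv.subtypeEquivRight fun I =>
        ⟨fun h => ⟨h.1, h.2, fun v hv => absurd hv (Finset.notMem_empty v)⟩,
          fun h => ⟨h.1, h.2.1⟩⟩)
  | insert v T hv ih =>
    obtain ⟨c, hc, hlim⟩ := ih
    set N : ℕ := absNorm v.asIdeal with hN
    have hN1 : (1 : ℝ) < N := by
      have h0 : absNorm v.asIdeal ≠ 0 := absNorm_eq_zero_iff.not.mpr v.ne_bot
      have h1 : absNorm v.asIdeal ≠ 1 := absNorm_eq_one_iff.not.mpr v.isPrime.ne_top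
      exact_mod_cast (show 1 < N by omega)
    set P : (Ideal (𝓞 K))⁰ := ⟨v.asIdeal, mem_nonZeroDivisors_of_ne_zero v.ne_bot⟩ with hP
    refine ⟨c - c / N, sub_pos.mpr (div_lt_self hc hN1), fun C => ?_⟩
    have hunion : ∀ s, sifted K T C s = sifted K (insert v T) C s ∪
        (fun J => P * J) '' sifted K T (C / ClassGroup.mk0 P) (s / N) := fun s => by
      ext I
      simp only [sifted, Set.mem_union, Set.mem_image, Set.mem_ofPred_eq, Finset.mem_insert,
        forall_eq_or_imp]
      constructor
      · rintro ⟨hI, hCI, hT⟩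
        by_cases hvI : v.asIdeal ∣ (I : Ideal (𝓞 K))
        · obtain ⟨J, hJ⟩ := hvI
          have hJ0 : J ∈ (Ideal (𝓞 K))⁰ := mem_nonZeroDivisors_of_ne_zero fun h =>
            nonZeroDivisors.coe_ne_zero I (by rw [hJ, h, mul_zero])
          obtain rfl : I = P * ⟨J, hJ0⟩ := Subtype.ext hJ
          refine Or.inr ⟨⟨J, hJ0⟩, ⟨?_, ?_, fun w hw h => hT w hw (dvd_mul_of_dvd_right h _)⟩, rfl⟩
          · rw [le_div_iff₀ (by linarith), mul_comm]
            simpa [hN, hP, map_mul] using hI
          · rw [eq_div_iff_mul_eq', mul_comm, ← map_mul, hCI]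
        · exact Or.inl ⟨hI, hCI, hvI, hT⟩
      · rintro (⟨hI, hCI, -, hT⟩ | ⟨J, ⟨hJ, hCJ, hT⟩, rfl⟩)
        · exact ⟨hI, hCI, hT⟩
        · refine ⟨?_, by rw [map_mul, hCJ, mul_div_cancel], fun w hw h => ?_⟩
          · rw [le_div_iff₀ (by linarith), mul_comm] at hJ
            simpa [hN, hP, map_mul] using hJ
          · rcases w.prime.dvd_or_dvd h with h | h
            · refine hv ?_
              rwa [← show w = v from HeightOneSpectrum.ext
                (v.isMaximal.eq_of_le w.isPrime.ne_top (Ideal.dvd_iff_le.mp h)).symm]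
            · exact hT w hw h
    have hdisj : ∀ s, Disjoint (sifted K (insert v T) C s)
        ((fun J => P * J) '' sifted K T (C / ClassGroup.mk0 P) (s / N)) := fun s =>
      Set.disjoint_left.mpr fun I hI ⟨J, _, hJ⟩ =>
        hI.2.2 v (Finset.mem_insert_self v T) ⟨J, congrArg Subtype.val hJ.symm⟩
    have hinj : Function.Injective fun J : (Ideal (𝓞 K))⁰ => P * J := fun J J' h =>
      Subtype.ext (mul_left_cancel₀ v.ne_bot (congrArg Subtype.val h))
    have hsub := ((hlim C).sub ((((hlim (C / ClassGroup.mk0 P)).comp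
      (tendsto_id.atTop_div_const (by linarith : (0 : ℝ) < N))).div_const (N : ℝ))))
    refine hsub.congr fun s => ?_
    show _ / s - _ / (s / N) / N = _
    simp only [id_eq]
    rw [hunion s, Set.ncard_union_eq (hdisj s) (sifted_finite K _ _ _)
      ((sifted_finite K _ _ _).image _), Set.ncard_image_of_injective _ hinj, div_div,
      div_mul_cancel₀ _ (by linarith : (N : ℝ) ≠ 0), Nat.cast_add, add_div, add_sub_cancel_right]

/-- **Class number one** if all primes but finitely many are principal. -/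
theorem classNumber_eq_one_of_primes (T : Finset (HeightOneSpectrum (𝓞 K)))
    (h : ∀ v ∉ T, v.asIdeal.IsPrincipal) : classNumber K = 1 := by
  classical
  obtain ⟨c, hc, hlim⟩ := exists_density K T
  refine Fintype.card_eq_one_iff.mpr ⟨1, fun C => by_contra fun hC => ?_⟩
  have key : ∀ J : Ideal (𝓞 K), (∀ v ∈ T, ¬ v.asIdeal ∣ J) → J.IsPrincipal := fun J => by
    induction J using UniqueFactorizationMonoid.induction_on_prime with
    | h₁ => exact fun _ => bot_isPrincipal
    | h₂ J hJ => exact fun _ => Ideal.isUnit_iff.mp hJ ▸ top_isPrincipal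
    | h₃ a q _ hq ih =>
      intro hT
      haveI := h ⟨q, Ideal.isPrime_of_prime hq, hq.ne_zero⟩ fun hmem =>
        hT _ hmem (dvd_mul_right q a)
      haveI := ih fun v hv hd => hT v hv (dvd_mul_of_dvd_right hd q)
      refine ⟨⟨Submodule.IsPrincipal.generator q * Submodule.IsPrincipal.generator a, ?_⟩⟩
      rw [← Ideal.span, ← Ideal.span_singleton_mul_span_singleton, Ideal.span_singleton_generator,
        Ideal.span_singleton_generator]
  have hempty : ∀ s, sifted K T C s = ∅ := fun s =>
    Set.eq_empty_iff_forall_notMem.mpr fun I ⟨_, hI, hT⟩ =>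
      hC (hI ▸ (ClassGroup.mk0_eq_one_iff I.2).mpr (key I hT))
  have h0 := hlim C
  simp only [hempty, Set.ncard_empty, Nat.cast_zero, zero_div] at h0
  exact hc.ne' (tendsto_nhds_unique h0 tendsto_const_nhds)

end sieve

section quadratic

variable {K : Type*} [Field K] [NumberField K]

/-- The element `(a + b √d) / 2`. -/
theorem exists_element (hK : finrank ℚ K = 2) {d : ℤ} (hd : d < 0) {s : K} (hs : s ^ 2 = d)
    {a b : ℤ} {l : ℕ} (hb : b ≠ 0) (h : a ^ 2 - d * b ^ 2 = 4 * l) :
    ∃ x : 𝓞 K, (x : K) = (a + b * s) / 2 ∧ absNorm (span {x}) = l := by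
  classical
  set x : K := (a + b * s) / 2 with hx
  have hxx : x * x = (a : ℚ) • x - (l : ℚ) • 1 := by
    rw [Algebra.smul_def, Algebra.smul_def, map_intCast, map_natCast, hx]
    have h' : ((a : K)) ^ 2 - (d : K) * (b : K) ^ 2 = 4 * (l : K) := by exact_mod_cast h
    field_simp
    linear_combination (b : K) ^ 2 * hs - h'
  have hint : IsIntegral ℤ x := by
    refine ⟨Polynomial.X ^ 2 - Polynomial.C a * Polynomial.X + Polynomial.C (l : ℤ),
      by monicity!, ?_⟩
    rw [← Polynomial.aeval_def, Polynomial.aeval_add, Polynomial.aeval_sub, map_pow, map_mul,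
      Polynomial.aeval_X, Polynomial.aeval_C, Polynomial.aeval_C, sq, hxx, Algebra.smul_def,
      Algebra.smul_def]
    simp
  obtain ⟨X, hX⟩ : ∃ X : 𝓞 K, (X : K) = x := ⟨⟨x, hint⟩, rfl⟩
  refine ⟨X, hX, ?_⟩
  have hli : LinearIndependent ℚ ![1, x] := LinearIndependent.pair_iff.mpr fun u v e => by
    by_cases hv : v = 0
    · subst hv
      rw [zero_smul, add_zero, smul_eq_zero, or_iff_left one_ne_zero] at e
      exact ⟨e, rfl⟩
    · exfalso
      set r : ℚ := -u / v
      have hr : algebraMap ℚ K r = x := by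
        rw [Algebra.smul_def, Algebra.smul_def, mul_one] at e
        rw [map_div₀, map_neg, div_eq_iff ((map_ne_zero _).mpr hv)]
        linear_combination -e
      have hq : algebraMap ℚ K ((2 * r - a) / b) = s := by
        rw [map_div₀, map_sub, map_mul, hr, map_ofNat, map_intCast, map_intCast, hx,
          div_eq_iff (Int.cast_ne_zero.mpr hb)]
        ring
      have hsq : ((2 * r - a) / b) ^ 2 = (d : ℚ) := (algebraMap ℚ K).injective (by
        rw [map_pow, hq, hs, map_intCast])
      have : (d : ℚ) < 0 := Int.cast_lt_zero.mpr hd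
      nlinarith [sq_nonneg ((2 * r - a) / b)]
  let B := basisOfLinearIndependentOfCardEqFinrank hli (by rw [Fintype.card_fin, hK])
  have hB : ∀ i, B i = ![1, x] i := fun i => by simp [B]
  have e0 : B.repr x = Finsupp.single 1 1 := by
    rw [← B.repr_self]; congr 1; rw [hB]; rfl
  have e1 : B.repr 1 = Finsupp.single 0 1 := by
    rw [← B.repr_self]; congr 1; rw [hB]; rfl
  have hnorm : Algebra.norm ℚ x = l := by
    rw [Algebra.norm_eq_matrix_det B, Matrix.det_fin_two]
    simp only [Algebra.leftMulMatrix_eq_repr_mul, hB, Matrix.cons_val_zero, Matrix.cons_val_one,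
      Matrix.cons_val_fin_one, mul_one, hxx, map_sub, map_smul, e0, e1, Finsupp.sub_apply,
      Finsupp.smul_apply, Finsupp.single_eq_same, smul_eq_mul,
      Finsupp.single_eq_of_ne (show (0 : Fin 2) ≠ 1 by decide),
      Finsupp.single_eq_of_ne (show (1 : Fin 2) ≠ 0 by decide)]
    ring
  rw [absNorm_span_singleton]
  have h2 : Algebra.norm ℤ X = (l : ℤ) := Int.cast_injective (α := ℚ) (by
    rw [Algebra.coe_norm_int, Int.cast_natCast, hX]; exact hnorm)
  rw [h2, Int.natAbs_natCast]

/-- Ideals of equal norm, one inside the other, are equal. -/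
theorem eq_of_le_of_absNorm {I J : Ideal (𝓞 K)} (h : I ≤ J) (hJ : absNorm J ≠ 0)
    (e : absNorm I = absNorm J) : I = J := by
  obtain ⟨Q, rfl⟩ := Ideal.dvd_iff_le.mpr h
  rw [map_mul] at e
  rw [Ideal.absNorm_eq_one_iff.mp (mul_left_cancel₀ hJ (e.trans (mul_one _).symm)), Ideal.mul_top]

/-- **Principal primes** in an imaginary quadratic field. -/
theorem isPrincipal_prime (hK : finrank ℚ K = 2) {d : ℤ} (hd : d < 0) {s : K} (hs : s ^ 2 = d)
    {P : Ideal (𝓞 K)} (hP : P.IsPrime) {l : ℕ} (hl : l.Prime) (hlP : (l : 𝓞 K) ∈ P)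
    (h : IsSquare (d : ZMod l) → ∃ a b : ℤ, b ≠ 0 ∧ a ^ 2 - d * b ^ 2 = 4 * l) :
    P.IsPrincipal := by
  classical
  have hle : span {(l : 𝓞 K)} ≤ P := (span_singleton_le_iff_mem _).mpr hlP
  have hspan : absNorm (span {(l : 𝓞 K)}) = l ^ 2 := by
    rw [absNorm_span_natCast, RingOfIntegers.rank, hK]
  have hdvd : absNorm P ∣ l ^ 2 := hspan ▸ absNorm_dvd_absNorm_of_le hle
  obtain ⟨k, hk, hkP⟩ := (Nat.dvd_prime_pow hl).mp hdvd
  interval_cases k
  · exact absurd (absNorm_eq_one_iff.mp (by simpa using hkP)) hP.ne_top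
  · -- a prime of degree one
    rw [pow_one] at hkP
    have hcard : Nat.card (𝓞 K ⧸ P) = l := by
      rw [← Submodule.cardQuot_apply, ← absNorm_apply, hkP]
    haveI : Finite (𝓞 K ⧸ P) := Nat.finite_of_card_ne_zero (hcard ▸ hl.ne_zero)
    haveI : Fintype (𝓞 K ⧸ P) := Fintype.ofFinite _
    let e := ZMod.ringEquivOfPrime (𝓞 K ⧸ P) hl (by rw [← Nat.card_eq_fintype_card, hcard])
    let s' : 𝓞 K := ⟨s, ⟨Polynomial.X ^ 2 - Polynomial.C d, by monicity!,
      by rw [Polynomial.eval₂_sub, Polynomial.eval₂_X_pow, Polynomial.eval₂_C, hs]; simp⟩⟩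
    have hs' : s' ^ 2 = (d : 𝓞 K) := RingOfIntegers.coe_injective (by simpa [s'] using hs)
    obtain ⟨a, b, hb, hab⟩ := h ⟨e.symm (Ideal.Quotient.mk P s'), e.injective (by
      rw [map_mul, e.apply_symm_apply, map_intCast, ← map_mul, ← sq, hs', map_intCast])⟩
    obtain ⟨x, hx, hxn⟩ := exists_element hK hd hs hb hab
    obtain ⟨y, hy, hyn⟩ := exists_element hK hd hs (neg_ne_zero.mpr hb) (a := a) (l := l)
      (by rw [neg_sq]; exact hab)
    have hxy : x * y = (l : 𝓞 K) := RingOfIntegers.coe_injective (by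
      have h' : ((a : K)) ^ 2 - (d : K) * (b : K) ^ 2 = 4 * (l : K) := by exact_mod_cast hab
      rw [map_mul, show algebraMap (𝓞 K) K x = _ from hx, show algebraMap (𝓞 K) K y = _ from hy,
        map_natCast]
      push_cast
      linear_combination (1 / 4 : K) * h' - (b : K) ^ 2 / 4 * hs)
    have key : ∀ z : 𝓞 K, absNorm (span {z}) = l → z ∈ P → P.IsPrincipal := fun z hz hzP =>
      eq_of_le_of_absNorm ((span_singleton_le_iff_mem _).mpr hzP) (hkP ▸ hl.ne_zero)
        (hz.trans hkP.symm) ▸ ⟨⟨z, rfl⟩⟩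
    rcases hP.mem_or_mem (show x * y ∈ P from hxy ▸ hlP) with h' | h'
    exacts [key x hxn h', key y hyn h']
  · exact eq_of_le_of_absNorm hle (hkP ▸ pow_ne_zero 2 hl.ne_zero) (hspan.trans hkP.symm) ▸
      ⟨⟨_, rfl⟩⟩

end quadratic

end FA.ClassOneField

end
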