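import Mathlib.Analysis.Normed.Field.Basic
import Mathlib.GroupTheory.Commutator.Basic
import Mathlib.GroupTheory.Index
import Mathlib.LinearAlgebra.Matrix.Adjugate
import Mathlib.NumberTheory.Padics.RingHoms
import Mathlib.Tactic
import Mathlib.Topology.Instances.Matrix

/-!
# A criterion for open subgroups of `GL₂(ℤ_p)`

A closed subgroup of `GL₂(ℤ_p)` without a stable line contains every matrix of determinant one
congruent to one modulo some power of `p`, or normalises a line of traceless matrices, or has a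
finite image in `PGL₂`. Three elements of determinant one near the identity with independent
traceless parts give the first case by successive approximation; no Lie algebra is used.
-/

set_option autoImplicit false
set_option linter.unusedSectionVars false
set_option linter.style.haveILetI false

noncomputable section

open Matrix Filter
open scoped Topology commutatorElement

namespace FA.OpenImageAll

variable {p : ℕ} [hp : Fact p.Prime]

local notation "Mp" => Matrix (Fin 2) (Fin 2) ℤ_[p]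
local notation "π" => (p : ℤ_[p])

/-! ### Traceless matrices -/

/-- Twice the traceless part. -/
def tl (M : Mp) : Mp := (2 : ℤ_[p]) • M - M.trace • 1

theorem trace_tl (M : Mp) : (tl M).trace = 0 := by
  simp [tl, trace_fin_two]; ring

theorem tl_add (A B : Mp) : tl (A + B) = tl A + tl B := by
  simp only [tl, trace_add, smul_add, add_smul]; abel

theorem tl_sub (A B : Mp) : tl (A - B) = tl A - tl B := by
  simp only [tl, trace_sub, smul_sub, sub_smul]; abel

theorem tl_smul (a : ℤ_[p]) (A : Mp) : tl (a • A) = a • tl A := by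
  simp only [tl, trace_smul, smul_sub, smul_smul, smul_eq_mul, mul_comm a]

theorem tl_one : tl (1 : Mp) = 0 := by
  simp only [tl, trace_one, Fintype.card_fin, Nat.cast_ofNat, sub_self]

theorem eq_smul_one_of_tl_eq_zero {M : Mp} (h : tl M = 0) : M = M 0 0 • 1 := by
  have h00 := congrFun (congrFun h 0) 0
  have h01 := congrFun (congrFun h 0) 1
  have h10 := congrFun (congrFun h 1) 0
  simp [tl, trace_fin_two] at h00 h01 h10
  ext i j
  fin_cases i <;> fin_cases j <;> simp [h01, h10]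
  linear_combination -h00

theorem tl_conj {H H' : Mp} (h : H' * H = 1) (h' : H * H' = 1) (M : Mp) :
    tl (H * M * H') = H * tl M * H' := by
  rw [tl, trace_mul_comm, ← mul_assoc, h, one_mul, tl]
  simp only [mul_sub, sub_mul, mul_smul_comm, smul_mul_assoc, mul_one, h']

/-- The triple product of three matrices. -/
def triple (A B C : Mp) : ℤ_[p] := ((A * B - B * A) * C).trace

/-- Cramer's rule for traceless matrices. -/
theorem cramer_traceless {A B C T : Mp} (hA : A.trace = 0) (hB : B.trace = 0) (hC : C.trace = 0)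
    (hT : T.trace = 0) :
    triple B C T • A + triple C A T • B + triple A B T • C = triple A B C • T := by
  rw [trace_fin_two, ← eq_neg_iff_add_eq_zero] at hA hB hC hT
  ext i j
  fin_cases i <;> fin_cases j <;>
    simp [triple, trace_fin_two, Matrix.mul_apply, Fin.sum_univ_two, hA, hB, hC, hT] <;> ring

/-- The bracket with a bracket. -/
theorem bracket_bracket {A B Y : Mp} (hA : A.trace = 0) (hB : B.trace = 0) (hY : Y.trace = 0) :
    (A * B - B * A) * Y - Y * (A * B - B * A) =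
      (2 * (B * Y).trace) • A - (2 * (A * Y).trace) • B := by
  rw [trace_fin_two, ← eq_neg_iff_add_eq_zero] at hA hB hY
  ext i j
  fin_cases i <;> fin_cases j <;>
    simp [trace_fin_two, Matrix.mul_apply, Fin.sum_univ_two, hA, hB, hY] <;> ring

/-- Commuting traceless matrices are proportional. -/
theorem minors_eq {X Y : Mp} (hX : X.trace = 0) (hY : Y.trace = 0) (h : X * Y = Y * X)
    (i j k l : Fin 2) : X i j * Y k l = Y i j * X k l := by
  rw [trace_fin_two, ← eq_neg_iff_add_eq_zero] at hX hY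
  have h00 := congrFun (congrFun h 0) 0
  have h01 := congrFun (congrFun h 0) 1
  have h10 := congrFun (congrFun h 1) 0
  simp [Matrix.mul_apply, Fin.sum_univ_two, hX, hY] at h00 h01 h10
  have e01 : X 1 1 * Y 0 1 = Y 1 1 * X 0 1 :=
    mul_left_cancel₀ (two_ne_zero (α := ℤ_[p])) (by linear_combination -h01)
  have e10 : X 1 1 * Y 1 0 = Y 1 1 * X 1 0 :=
    mul_left_cancel₀ (two_ne_zero (α := ℤ_[p])) (by linear_combination h10)
  fin_cases i <;> fin_cases j <;> fin_cases k <;> fin_cases l <;> simp [hX, hY] <;>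
    first
      | ring1
      | linear_combination h00
      | linear_combination -h00
      | linear_combination e01
      | linear_combination -e01
      | linear_combination e10
      | linear_combination -e10

/-- The square of a traceless matrix. -/
theorem sq_eq_of_trace_eq_zero {X : Mp} (hX : X.trace = 0) : X * X = -X.det • 1 := by
  rw [trace_fin_two, ← eq_neg_iff_add_eq_zero] at hX
  ext i j
  fin_cases i <;> fin_cases j <;>
    simp [det_fin_two, Matrix.mul_apply, Fin.sum_univ_two, hX] <;> ring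

/-- Two vectors killed by a nonzero matrix are dependent. -/
theorem cross_eq_zero {X : Mp} (hX : X ≠ 0) {e w : Fin 2 → ℤ_[p]} (he : X *ᵥ e = 0)
    (hw : X *ᵥ w = 0) : e 0 * w 1 - e 1 * w 0 = 0 := by
  have e0 := congrFun he 0
  have e1 := congrFun he 1
  have w0 := congrFun hw 0
  have w1 := congrFun hw 1
  simp [mulVec, dotProduct, Fin.sum_univ_two] at e0 e1 w0 w1
  by_contra hd
  refine hX (Matrix.ext fun i j => mul_left_cancel₀ hd ?_)
  fin_cases i <;> fin_cases j <;> simp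
  · right; exact mul_left_cancel₀ hd (by linear_combination w 1 * e0 - e 1 * w0)
  · right; exact mul_left_cancel₀ hd (by linear_combination e 0 * w0 - w 0 * e0)
  · right; exact mul_left_cancel₀ hd (by linear_combination w 1 * e1 - e 1 * w1)
  · right; exact mul_left_cancel₀ hd (by linear_combination e 0 * w1 - w 0 * e1)

/-! ### Stable lines of traceless matrices -/

variable {G : Type*} [Group G] (r : G →* Matrix (Fin 2) (Fin 2) ℤ_[p])

/-- The second case of the criterion. -/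
def Dihedral : Prop :=
  ∃ X : Mp, X.det ≠ 0 ∧ X.trace = 0 ∧ ∀ g : G, r g * X = X * r g ∨ r g * X = -(X * r g)

variable {r}

theorem rep_inv_mul (g : G) : r g⁻¹ * r g = 1 := by rw [← map_mul, inv_mul_cancel, map_one]

theorem rep_mul_inv (g : G) : r g * r g⁻¹ = 1 := by rw [← map_mul, mul_inv_cancel, map_one]

theorem trace_conj (g : G) (M : Mp) : (r g * M * r g⁻¹).trace = M.trace := by
  rw [trace_mul_comm, ← mul_assoc, rep_inv_mul, one_mul]

theorem det_rep_inv (g : G) : (r g⁻¹).det * (r g).det = 1 := by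
  rw [← det_mul, rep_inv_mul, det_one]

/-- A nonzero traceless matrix commuting with all its conjugates gives the second case, as there is
no stable line. -/
theorem dihedral_of_commute
    (hline : ∀ e : Fin 2 → ℤ_[p], e ≠ 0 → ∃ g, e 0 * (r g *ᵥ e) 1 - e 1 * (r g *ᵥ e) 0 ≠ 0)
    {X : Mp} (hX : X ≠ 0) (htr : X.trace = 0)
    (hcomm : ∀ g, X * (r g * X * r g⁻¹) = r g * X * r g⁻¹ * X) : Dihedral r := by
  obtain ⟨i, j, hx⟩ : ∃ i j, X i j ≠ 0 := by
    by_contra! h
    exact hX (Matrix.ext fun i j => by simpa using h i j)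
  have hprop : ∀ g, X i j • (r g * X * r g⁻¹) = (r g * X * r g⁻¹) i j • X := fun g =>
    Matrix.ext fun k l => minors_eq htr ((trace_conj g X).trans htr) (hcomm g) i j k l
  have hback : ∀ g (Z : Mp), r g * Z * r g⁻¹ * r g = r g * Z := fun g Z => by
    rw [mul_assoc, rep_inv_mul, mul_one]
  have hdet : X.det ≠ 0 := by
    intro h0
    have hsq : X * X = 0 := by rw [sq_eq_of_trace_eq_zero htr, h0, neg_zero, zero_smul]
    obtain ⟨v, hv⟩ : ∃ v, X *ᵥ v ≠ 0 := by
      by_contra! hall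
      exact hX (Matrix.ext_of_mulVec_single fun k => by rw [hall, zero_mulVec])
    have he : X *ᵥ (X *ᵥ v) = 0 := by rw [mulVec_mulVec, hsq, zero_mulVec]
    generalize X *ᵥ v = e at hv he
    obtain ⟨g, hg⟩ := hline e hv
    refine hg (cross_eq_zero hX he ?_)
    have hy : (r g * X * r g⁻¹) i j ≠ 0 := fun hy => by
      have h := hprop g
      rw [hy, zero_smul, smul_eq_zero, or_iff_right hx] at h
      have h2 := congrArg (fun Z => r g⁻¹ * (Z * r g)) h
      simp only [hback, zero_mul, mul_zero, ← mul_assoc, rep_inv_mul, one_mul] at h2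
      exact hX h2
    have h := congrArg (fun Z => Z * r g) (hprop g)
    simp only [smul_mul_assoc, hback] at h
    have h' := congrArg (fun Z => Z *ᵥ e) h
    simp only [smul_mulVec, ← mulVec_mulVec, he, mulVec_zero, smul_zero] at h'
    exact (smul_eq_zero.mp h'.symm).resolve_left hy
  refine ⟨X, hdet, htr, fun g => ?_⟩
  have hd : (r g * X * r g⁻¹).det = X.det := by
    rw [det_mul, det_mul, mul_right_comm, mul_comm (r g).det, det_rep_inv, one_mul]
  have h := congrArg Matrix.det (hprop g)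
  rw [det_smul, det_smul, hd, Fintype.card_fin] at h
  have h2 := mul_right_cancel₀ hdet h
  rcases eq_or_eq_neg_of_sq_eq_sq _ _ h2 with h3 | h3
  · left
    have h4 := hprop g
    rw [← h3] at h4
    have h5 := congrArg (· * r g) (smul_right_injective Mp hx h4)
    simpa only [hback] using h5
  · right
    have h4 := hprop g
    rw [show (r g * X * r g⁻¹) i j = -X i j by rw [h3, neg_neg], neg_smul, ← smul_neg] at h4
    have h5 := congrArg (· * r g) (smul_right_injective Mp hx h4)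
    simpa only [hback, neg_mul] using h5

/-- A nonzero set of traceless matrices stable under conjugation gives the second case or has a
nonzero triple product. -/
theorem dihedral_or_triple
    (hline : ∀ e : Fin 2 → ℤ_[p], e ≠ 0 → ∃ g, e 0 * (r g *ᵥ e) 1 - e 1 * (r g *ᵥ e) 0 ≠ 0)
    {T : Set Mp} (htr : ∀ t ∈ T, t.trace = 0) (hconj : ∀ g, ∀ t ∈ T, r g * t * r g⁻¹ ∈ T)
    (hne : ∃ t ∈ T, t ≠ 0) :
    Dihedral r ∨ ∃ t₁ ∈ T, ∃ t₂ ∈ T, ∃ t₃ ∈ T, triple t₁ t₂ t₃ ≠ 0 := by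
  refine or_iff_not_imp_right.mpr fun h => ?_
  push Not at h
  by_cases hc : ∀ t ∈ T, ∀ s ∈ T, t * s = s * t
  · obtain ⟨t, ht, ht0⟩ := hne
    exact dihedral_of_commute hline ht0 (htr t ht) fun g => hc t ht _ (hconj g t ht)
  · push Not at hc
    obtain ⟨t₁, h₁, t₂, h₂, h12⟩ := hc
    refine dihedral_of_commute hline (sub_ne_zero.mpr h12)
      (by rw [trace_sub, trace_mul_comm, sub_self]) fun g => sub_eq_zero.mp ?_
    have key : ∀ t ∈ T, (t * (r g * (t₁ * t₂ - t₂ * t₁) * r g⁻¹)).trace = 0 := fun t ht => by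
      rw [trace_mul_comm, mul_assoc, mul_assoc, trace_mul_comm, mul_assoc]
      have h' := hconj g⁻¹ t ht
      rw [inv_inv] at h'
      exact h t₁ h₁ t₂ h₂ _ h'
    rw [bracket_bracket (htr t₁ h₁) (htr t₂ h₂)
      ((trace_conj g _).trans (by rw [trace_sub, trace_mul_comm, sub_self])), key t₁ h₁, key t₂ h₂,
      mul_zero, zero_smul, zero_smul, sub_self]

/-! ### Powers and products near one -/

theorem exists_one_add_pow_sq {R : Type*} [Ring R] (a : R) (n : ℕ) :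
    ∃ V, (1 + a) ^ n = 1 + n • a + a * a * V := by
  induction n with
  | zero => exact ⟨0, by simp⟩
  | succ n ih =>
    obtain ⟨V, hV⟩ := ih
    refine ⟨V * (1 + a) + n • 1, ?_⟩
    rw [pow_succ, hV]
    simp only [mul_add, add_mul, mul_one, one_mul, smul_mul_assoc, mul_smul_comm, succ_nsmul,
      mul_assoc]
    abel

theorem isUnit_one_add (x : ℤ_[p]) : IsUnit (1 + π * x) := by
  by_contra h
  rw [← mem_nonunits_iff, ← IsLocalRing.mem_maximalIdeal, PadicInt.maximalIdeal_eq_span_p,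
    Ideal.mem_span_singleton] at h
  exact PadicInt.prime_p.not_dvd_one ((dvd_add_left (dvd_mul_right _ _)).mp h)

/-- A `p`-th power lowers nothing: the traceless part is multiplied by `p` times a unit. -/
theorem exists_pow_prime {e : ℕ} (he : 2 ≤ e) {Y : Mp} (hdet : (1 + π ^ e • Y).det = 1) :
    ∃ (Y' : Mp) (u : ℤ_[p]), IsUnit u ∧ (1 + π ^ e • Y) ^ p = 1 + π ^ (e + 1) • Y' ∧
      tl ((1 + π ^ e • Y) ^ p) = (π * u) • tl (1 + π ^ e • Y) := by
  obtain ⟨M, hM⟩ : ∃ M, 1 + π ^ e • Y = M := ⟨_, rfl⟩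
  rw [hM] at hdet ⊢
  have hch : M * M = M.trace • M - 1 := by
    rw [det_fin_two] at hdet
    ext i j
    fin_cases i <;> fin_cases j <;> simp [Matrix.mul_apply, Fin.sum_univ_two, trace_fin_two]
    · linear_combination -hdet
    · ring
    · ring
    · linear_combination -hdet
  have ht : π ^ e ∣ M.trace - 2 :=
    ⟨Y.trace, by rw [← hM, trace_add, trace_smul, trace_one, smul_eq_mul]; simp⟩
  have key : ∀ n : ℕ, ∃ s s' : ℤ_[p], tl (M ^ n) = s • tl M ∧ π ^ e ∣ s - n ∧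
      tl (M ^ (n + 1)) = s' • tl M ∧ π ^ e ∣ s' - (n + 1) := by
    intro n
    induction n with
    | zero => exact ⟨0, 1, by simp [tl_one], by simp, by simp, by simp⟩
    | succ n ih =>
      obtain ⟨s, s', h1, h2, h3, h4⟩ := ih
      refine ⟨s', M.trace * s' - s, h3, by exact_mod_cast h4, ?_, ?_⟩
      · rw [pow_succ, pow_succ, mul_assoc, hch, mul_sub, mul_one, mul_smul_comm, ← pow_succ,
          tl_sub, tl_smul, h3, h1, smul_smul, sub_smul]
      · push_cast
        rw [show M.trace * s' - s - ((n : ℤ_[p]) + 1 + 1) = (M.trace - 2) * s' +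
          2 * (s' - (n + 1)) - (s - n) by ring]
        exact dvd_sub (dvd_add (ht.mul_right _) (h4.mul_left _)) h2
  obtain ⟨s, -, hs, ⟨c, hc⟩, -, -⟩ := key p
  obtain ⟨j, rfl⟩ := Nat.exists_eq_add_of_le he
  obtain ⟨V, hV⟩ := exists_one_add_pow_sq (π ^ (2 + j) • Y) p
  refine ⟨Y + π ^ (1 + j) • (Y * Y * V), 1 + π * (π ^ j * c), isUnit_one_add _, ?_, ?_⟩
  · rw [← hM, hV, ← Nat.cast_smul_eq_nsmul ℤ_[p]]
    simp only [smul_add, smul_mul_assoc, mul_smul_comm, smul_smul, ← pow_succ', ← pow_add]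
    rw [show 2 + j + 1 + (1 + j) = 2 + j + (2 + j) by omega, add_assoc]
  · rw [hs, show s = π + π ^ (2 + j) * c by linear_combination hc]
    congr 1
    ring

/-- The `p ^ j`-th powers. -/
theorem exists_pow_prime_pow {Y : Mp} (hdet : (1 + π ^ 2 • Y).det = 1) :
    ∀ j : ℕ, ∃ (B : Mp) (u : ℤ_[p]), IsUnit u ∧
      (1 + π ^ 2 • Y) ^ p ^ j = 1 + π ^ (j + 2) • B ∧
        π ^ 2 • tl B = u • tl (1 + π ^ 2 • Y)
  | 0 => ⟨Y, 1, isUnit_one, by rw [pow_zero, pow_one],
      by rw [one_smul, tl_add, tl_one, zero_add, tl_smul]⟩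
  | j + 1 => by
    obtain ⟨B, u, hu, hB, htl⟩ := exists_pow_prime_pow hdet j
    have hd : (1 + π ^ (j + 2) • B).det = 1 := by rw [← hB, det_pow, hdet, one_pow]
    obtain ⟨B', u', hu', hB', htl'⟩ := exists_pow_prime (by omega) hd
    refine ⟨B', u' * u, hu'.mul hu, by rw [pow_succ p j, pow_mul, hB, hB'],
      smul_right_injective Mp (pow_ne_zero (j + 1) (NeZero.ne π)) ?_⟩
    rw [hB', tl_add, tl_add, tl_one, zero_add, zero_add, tl_smul, tl_smul, smul_smul] at htl'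
    show π ^ (j + 1) • π ^ 2 • tl B' = π ^ (j + 1) • (u' * u) • tl (1 + π ^ 2 • Y)
    rw [mul_smul, ← htl, smul_smul, ← pow_add, smul_smul, smul_smul, htl']
    congr 1
    ring

/-- A product of matrices near one. -/
theorem exists_mul_one_add (x : ℤ_[p]) (A R B S : Mp) :
    ∃ U, (1 + x • A + (x * x) • R) * (1 + x • B + (x * x) • S) =
      1 + x • (A + B) + (x * x) • U := by
  refine ⟨R + S + A * B + x • (A * S + R * B) + (x * x) • (R * S), ?_⟩
  simp only [mul_add, add_mul, mul_one, one_mul, smul_mul_assoc, mul_smul_comm, smul_add,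
    smul_smul, mul_assoc]
  abel

/-- A power of a matrix near one. -/
theorem exists_pow_one_add (x : ℤ_[p]) (B : Mp) (n : ℕ) :
    ∃ U, (1 + x • B) ^ n = 1 + x • ((n : ℤ_[p]) • B) + (x * x) • U := by
  obtain ⟨V, hV⟩ := exists_one_add_pow_sq (x • B) n
  refine ⟨B * B * V, ?_⟩
  rw [hV, ← Nat.cast_smul_eq_nsmul ℤ_[p]]
  simp only [smul_mul_assoc, mul_smul_comm, smul_smul, mul_comm (n : ℤ_[p])]

theorem det_one_add_smul (x : ℤ_[p]) (Z : Mp) :
    (1 + x • Z).det = 1 + x * (Z.trace + x * Z.det) := by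
  simp [det_fin_two, trace_fin_two]; ring

/-! ### Successive approximation -/

variable (r)

/-- One step: three independent elements of determinant one give the next digit. -/
theorem exists_step {a₁ a₂ a₃ : G} {Y₁ Y₂ Y₃ : Mp} (hY₁ : r a₁ = 1 + π ^ 2 • Y₁)
    (hY₂ : r a₂ = 1 + π ^ 2 • Y₂) (hY₃ : r a₃ = 1 + π ^ 2 • Y₃) (hd₁ : (r a₁).det = 1)
    (hd₂ : (r a₂).det = 1) (hd₃ : (r a₃).det = 1) {d : ℕ}
    (hD : triple (tl (r a₁)) (tl (r a₂)) (tl (r a₃)) ∣ π ^ d) {j : ℕ} (hj : d ≤ j) {g A : Mp}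
    (hg : g = 1 + π ^ (j + 2 + d) • A) (hdet : g.det = 1) :
    ∃ (h : G) (R : Mp), (r h).det = 1 ∧ g = r h + π ^ (j + 2 + d + 1) • R := by
  obtain ⟨w, hw⟩ := hD
  obtain ⟨B₁, u₁, hu₁, hB₁, htl₁⟩ := exists_pow_prime_pow (hY₁ ▸ hd₁) j
  obtain ⟨B₂, u₂, hu₂, hB₂, htl₂⟩ := exists_pow_prime_pow (hY₂ ▸ hd₂) j
  obtain ⟨B₃, u₃, hu₃, hB₃, htl₃⟩ := exists_pow_prime_pow (hY₃ ▸ hd₃) j
  rw [← hY₁] at htl₁ hB₁
  rw [← hY₂] at htl₂ hB₂
  rw [← hY₃] at htl₃ hB₃
  -- the coefficients of the traceless part of the target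
  have hcr := cramer_traceless (trace_tl (r a₁)) (trace_tl (r a₂)) (trace_tl (r a₃)) (trace_tl A)
  obtain ⟨v₁, hv₁⟩ := hu₁.exists_left_inv
  obtain ⟨v₂, hv₂⟩ := hu₂.exists_left_inv
  obtain ⟨v₃, hv₃⟩ := hu₃.exists_left_inv
  have hinv : ∀ {u v : ℤ_[p]} {B X : Mp}, v * u = 1 → π ^ 2 • tl B = u • X →
      X = (v * π ^ 2) • tl B := fun {u v B X} h1 h2 => by
    rw [mul_smul, h2, smul_smul, h1, one_smul]
  obtain ⟨c₁, c₂, c₃, hc⟩ : ∃ c₁ c₂ c₃ : ℤ_[p],
      c₁ • tl B₁ + c₂ • tl B₂ + c₃ • tl B₃ = π ^ d • tl A := by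
    generalize triple (tl (r a₁)) (tl (r a₂)) (tl (r a₃)) = D at hw hcr
    generalize triple (tl (r a₂)) (tl (r a₃)) (tl A) = τ₁ at hcr
    generalize triple (tl (r a₃)) (tl (r a₁)) (tl A) = τ₂ at hcr
    generalize triple (tl (r a₁)) (tl (r a₂)) (tl A) = τ₃ at hcr
    rw [hinv hv₁ htl₁, hinv hv₂ htl₂, hinv hv₃ htl₃] at hcr
    refine ⟨w * (τ₁ * (v₁ * π ^ 2)), w * (τ₂ * (v₂ * π ^ 2)), w * (τ₃ * (v₃ * π ^ 2)), ?_⟩
    have h := congrArg (w • ·) hcr
    simp only [smul_add, smul_smul] at h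
    rw [h, hw, mul_comm]
  obtain ⟨n₁, e₁, he₁⟩ : ∃ (n : ℕ) (e : ℤ_[p]), c₁ = n + π ^ (j + 2) * e :=
    ⟨c₁.appr (j + 2), (Ideal.mem_span_singleton.mp (PadicInt.appr_spec (j + 2) c₁)).imp
      fun _ h => by linear_combination h⟩
  obtain ⟨n₂, e₂, he₂⟩ : ∃ (n : ℕ) (e : ℤ_[p]), c₂ = n + π ^ (j + 2) * e :=
    ⟨c₂.appr (j + 2), (Ideal.mem_span_singleton.mp (PadicInt.appr_spec (j + 2) c₂)).imp
      fun _ h => by linear_combination h⟩
  obtain ⟨n₃, e₃, he₃⟩ : ∃ (n : ℕ) (e : ℤ_[p]), c₃ = n + π ^ (j + 2) * e :=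
    ⟨c₃.appr (j + 2), (Ideal.mem_span_singleton.mp (PadicInt.appr_spec (j + 2) c₃)).imp
      fun _ h => by linear_combination h⟩
  -- the product of the powers
  obtain ⟨h, hh⟩ : ∃ h, (a₁ ^ p ^ j) ^ n₁ * (a₂ ^ p ^ j) ^ n₂ * (a₃ ^ p ^ j) ^ n₃ = h := ⟨_, rfl⟩
  have hdh : (r h).det = 1 := by
    simp only [← hh, map_mul, map_pow, det_mul, det_pow, hd₁, hd₂, hd₃, one_pow, mul_one]
  obtain ⟨Q, S, hQ, hP⟩ : ∃ Q S, Q = (n₁ : ℤ_[p]) • B₁ + (n₂ : ℤ_[p]) • B₂ + (n₃ : ℤ_[p]) • B₃ +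
      π ^ (j + 2) • S ∧ r h = 1 + π ^ (j + 2) • Q := by
    obtain ⟨U₁, hU₁⟩ := exists_pow_one_add (π ^ (j + 2)) B₁ n₁
    obtain ⟨U₂, hU₂⟩ := exists_pow_one_add (π ^ (j + 2)) B₂ n₂
    obtain ⟨U₃, hU₃⟩ := exists_pow_one_add (π ^ (j + 2)) B₃ n₃
    obtain ⟨U, hU⟩ := exists_mul_one_add (π ^ (j + 2)) ((n₁ : ℤ_[p]) • B₁) U₁
      ((n₂ : ℤ_[p]) • B₂) U₂
    obtain ⟨U', hU'⟩ := exists_mul_one_add (π ^ (j + 2))
      ((n₁ : ℤ_[p]) • B₁ + (n₂ : ℤ_[p]) • B₂) U ((n₃ : ℤ_[p]) • B₃) U₃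
    refine ⟨_, U', rfl, ?_⟩
    rw [← hh, map_mul, map_mul, map_pow, map_pow, map_pow, map_pow, map_pow, map_pow, hB₁, hB₂,
      hB₃, hU₁, hU₂, hU₃, hU, hU', add_assoc, mul_smul, ← smul_add]
  -- the difference is scalar modulo a higher power
  obtain ⟨Z, hZ⟩ : ∃ Z, π ^ d • A - c₁ • B₁ - c₂ • B₂ - c₃ • B₃ = Z := ⟨_, rfl⟩
  have hZ0 : Z = Z 0 0 • 1 := eq_smul_one_of_tl_eq_zero (by
    rw [← hZ, tl_sub, tl_sub, tl_sub, tl_smul, tl_smul, tl_smul, tl_smul, ← hc]; abel)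
  generalize Z 0 0 = γ at hZ0
  obtain ⟨R, hR⟩ : ∃ R, π ^ d • A = Q + γ • 1 + π ^ (j + 2) • R := by
    refine ⟨e₁ • B₁ + e₂ • B₂ + e₃ • B₃ - S, ?_⟩
    rw [← hZ0, ← hZ, he₁, he₂, he₃, hQ]
    simp only [smul_sub, smul_add, smul_smul, add_smul]
    abel
  have hgd := hdet
  rw [hg, show π ^ (j + 2 + d) • A = π ^ (j + 2) • (π ^ d • A) by rw [smul_smul, pow_add],
    det_one_add_smul] at hgd
  have hhd := hdh
  rw [hP, det_one_add_smul] at hhd
  have hne : π ^ (j + 2) ≠ 0 := pow_ne_zero _ (NeZero.ne π)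
  have hγ : π ^ (j + 2) * ((π ^ d • A).det - Q.det + R.trace) + 2 * γ = 0 := by
    have h1 : (π ^ d • A).trace = Q.trace + 2 * γ + π ^ (j + 2) * R.trace := by
      rw [hR, trace_add, trace_add, trace_smul, trace_smul, trace_one, smul_eq_mul, smul_eq_mul,
        Fintype.card_fin, Nat.cast_ofNat, mul_comm γ]
    refine mul_left_cancel₀ hne ?_
    linear_combination hgd - hhd - π ^ (j + 2) * h1
  obtain ⟨c, hc2⟩ : ∃ c, (2 : ℤ_[p]) * c = π := by
    rcases eq_or_ne p 2 with rfl | hp2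
    · exact ⟨1, by simp⟩
    · obtain ⟨c, hc⟩ := (PadicInt.isUnit_iff.mpr ((PadicInt.norm_natCast_eq_one_iff).mpr
        ((Nat.coprime_primes hp.out Nat.prime_two).mpr hp2)) :
        IsUnit ((2 : ℕ) : ℤ_[p])).exists_right_inv
      exact ⟨c * π, by rw [← mul_assoc, show (2 : ℤ_[p]) = ((2 : ℕ) : ℤ_[p]) by simp, hc, one_mul]⟩
  obtain ⟨γ', hγ'⟩ : ∃ γ', γ = π ^ (j + 1) * γ' :=
    ⟨-c * ((π ^ d • A).det - Q.det + R.trace), mul_left_cancel₀ (NeZero.ne π)
      (by linear_combination c * hγ - γ * hc2)⟩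
  obtain ⟨k, hk⟩ := Nat.exists_eq_add_of_le hj
  refine ⟨h, π ^ k • (γ' • 1 + π • R), hdh, ?_⟩
  rw [hg, hP, pow_add, mul_smul, hR, hγ', hk]
  match_scalars <;> ring

/-- **Successive approximation**: a closed range with three independent elements of determinant
one contains a congruence subgroup of `SL₂(ℤ_p)`. -/
theorem exists_level_of_triple (hcl : IsClosed (Set.range r)) {a₁ a₂ a₃ : G} {Y₁ Y₂ Y₃ : Mp}
    (hY₁ : r a₁ = 1 + π ^ 2 • Y₁) (hY₂ : r a₂ = 1 + π ^ 2 • Y₂) (hY₃ : r a₃ = 1 + π ^ 2 • Y₃)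
    (hd₁ : (r a₁).det = 1) (hd₂ : (r a₂).det = 1) (hd₃ : (r a₃).det = 1)
    (hne : triple (tl (r a₁)) (tl (r a₂)) (tl (r a₃)) ≠ 0) :
    ∃ k : ℕ, ∀ Y : Mp, (1 + π ^ k • Y).det = 1 → ∃ g, r g = 1 + π ^ k • Y := by
  obtain ⟨d, hd⟩ : ∃ d : ℕ, triple (tl (r a₁)) (tl (r a₂)) (tl (r a₃)) ∣ π ^ d := by
    refine ⟨(triple (tl (r a₁)) (tl (r a₂)) (tl (r a₃))).valuation, ?_⟩
    conv_lhs => rw [PadicInt.unitCoeff_spec hne]
    exact Units.mul_left_dvd.mpr dvd_rfl
  refine ⟨d + 2 + d, fun Y hY => ?_⟩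
  have key : ∀ i j : ℕ, d ≤ j → ∀ g A : Mp, g = 1 + π ^ (j + 2 + d) • A → g.det = 1 →
      ∃ (h : G) (R : Mp), (r h).det = 1 ∧ g = r h + π ^ (j + 2 + d + i) • R := by
    intro i
    induction i with
    | zero => exact fun j _ g A hg _ => ⟨1, A, by simp, by rw [map_one]; exact hg⟩
    | succ i ih =>
      intro j hj g A hg hdet
      obtain ⟨h₀, R₀, hd₀, hg₀⟩ := exists_step r hY₁ hY₂ hY₃ hd₁ hd₂ hd₃ hd hj hg hdet
      obtain ⟨h, R, hdh, hR⟩ := ih (j + 1) (by omega) (r h₀⁻¹ * g) (r h₀⁻¹ * R₀)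
        (by rw [hg₀, mul_add, rep_inv_mul, mul_smul_comm,
          show j + 1 + 2 + d = j + 2 + d + 1 by omega])
        (by
          have h1 := det_rep_inv (r := r) h₀
          rw [hd₀, mul_one] at h1
          rw [det_mul, hdet, h1, one_mul])
      refine ⟨h₀ * h, r h₀ * R, by rw [map_mul, det_mul, hd₀, hdh, one_mul], ?_⟩
      have h2 := congrArg (r h₀ * ·) hR
      simp only [← mul_assoc, rep_mul_inv, one_mul, mul_add, mul_smul_comm] at h2
      rw [h2, map_mul, show j + 2 + d + (i + 1) = j + 1 + 2 + d + i by omega]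
  choose h R _ hR using fun i => key i d le_rfl _ Y rfl hY
  have ht : Tendsto (fun i => r (h i)) atTop (𝓝 (1 + π ^ (d + 2 + d) • Y)) := by
    refine tendsto_pi_nhds.mpr fun a => tendsto_pi_nhds.mpr fun b => Metric.tendsto_atTop.mpr
      fun ε hε => ?_
    obtain ⟨k, hk⟩ := PadicInt.exists_pow_neg_lt p hε
    refine ⟨k, fun i hi => lt_of_le_of_lt ?_ hk⟩
    rw [dist_eq_norm, hR i, Matrix.add_apply, sub_add_cancel_left, norm_neg, Matrix.smul_apply,
      smul_eq_mul, PadicInt.norm_le_pow_iff_mem_span_pow, Ideal.mem_span_singleton]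
    exact (pow_dvd_pow _ (by omega)).mul_right _
  exact hcl.mem_of_tendsto ht (Eventually.of_forall fun i => Set.mem_range_self _)

/-! ### The criterion -/

/-- Reduction modulo `p ^ 2`. -/
def redTwo : G →* (Matrix (Fin 2) (Fin 2) (ZMod (p ^ 2)))ˣ :=
  (((PadicInt.toZModPow (p := p) 2).mapMatrix.toMonoidHom).comp r).toHomUnits

theorem exists_eq_one_add_of_mem_ker {g : G} (hg : g ∈ (redTwo r).ker) :
    ∃ Y : Mp, r g = 1 + π ^ 2 • Y := by
  have h : (r g).map (PadicInt.toZModPow 2) = 1 :=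
    congrArg (fun u : (Matrix (Fin 2) (Fin 2) (ZMod (p ^ 2)))ˣ => u.val) (MonoidHom.mem_ker.mp hg)
  have hdvd : ∀ i j, π ^ 2 ∣ r g i j - (1 : Mp) i j := fun i j => by
    rw [← Ideal.mem_span_singleton, ← PadicInt.ker_toZModPow, RingHom.mem_ker, map_sub,
      sub_eq_zero]
    calc PadicInt.toZModPow 2 (r g i j) = (r g).map (PadicInt.toZModPow 2) i j := rfl
      _ = (1 : Matrix (Fin 2) (Fin 2) (ZMod (p ^ 2))) i j := by rw [h]
      _ = _ := by rw [Matrix.one_apply, Matrix.one_apply]; split <;> simp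
  choose Y hY using hdvd
  exact ⟨Matrix.of Y, Matrix.ext fun i j => by simp [← hY]⟩

/-- **The criterion**: a closed range without a stable line contains a congruence subgroup of
`SL₂(ℤ_p)`, or normalises a line of traceless matrices with nonzero determinant, or is finite
modulo scalars. -/
theorem level_or_small {p : ℕ} [hp : Fact p.Prime] {G : Type*} [Group G]
    (r : G →* Matrix (Fin 2) (Fin 2) ℤ_[p]) (hcl : IsClosed (Set.range r))
    (hline : ∀ e : Fin 2 → ℤ_[p], e ≠ 0 → ∃ g, e 0 * (r g *ᵥ e) 1 - e 1 * (r g *ᵥ e) 0 ≠ 0) :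
    (∃ k : ℕ, ∀ Y : Matrix (Fin 2) (Fin 2) ℤ_[p], (1 + (p : ℤ_[p]) ^ k • Y).det = 1 →
        ∃ g, r g = 1 + (p : ℤ_[p]) ^ k • Y) ∨
    (∃ X : Matrix (Fin 2) (Fin 2) ℤ_[p], X.det ≠ 0 ∧ X.trace = 0 ∧
        ∀ g, r g * X = X * r g ∨ r g * X = -(X * r g)) ∨
    ∃ n : ℕ, 0 < n ∧ ∀ g, ∃ c : ℤ_[p], r g ^ n = c • 1 := by
  have hconj : ∀ g a, r g * tl (r a) * r g⁻¹ = tl (r (g * a * g⁻¹)) := fun g a => by
    rw [map_mul, map_mul, tl_conj (rep_inv_mul g) (rep_mul_inv g)]
  by_cases h0 : ∀ g ∈ (redTwo r).ker, tl (r g) = 0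
  · refine Or.inr (Or.inr ⟨(redTwo r).ker.index,
      Nat.pos_of_ne_zero Subgroup.FiniteIndex.index_ne_zero,
      fun g => ⟨r (g ^ (redTwo r).ker.index) 0 0, ?_⟩⟩)
    rw [← map_pow]
    exact eq_smul_one_of_tl_eq_zero (h0 _ (Subgroup.pow_index_mem _ g))
  push Not at h0
  obtain ⟨g₀, hg₀, hg₀'⟩ := h0
  rcases dihedral_or_triple hline (T := {t | ∃ g ∈ (redTwo r).ker, tl (r g) = t})
    (by rintro t ⟨g, -, rfl⟩; exact trace_tl _)
    (by
      rintro g t ⟨a, ha, rfl⟩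
      exact ⟨g * a * g⁻¹, (MonoidHom.normal_ker _).conj_mem a ha g, (hconj g a).symm⟩)
    ⟨_, ⟨g₀, hg₀, rfl⟩, hg₀'⟩ with h | ⟨t₁, ⟨b₁, hb₁, rfl⟩, t₂, ⟨b₂, hb₂, rfl⟩, t₃, -, hne⟩
  · exact Or.inr (Or.inl h)
  -- the commutators of the kernel
  let T₁ : Set (Matrix (Fin 2) (Fin 2) ℤ_[p]) :=
    {t | ∃ a ∈ (redTwo r).ker, ∃ b ∈ (redTwo r).ker, tl (r ⁅a, b⁆) = t}
  have hdetc : ∀ a b : G, (r ⁅a, b⁆).det = 1 := fun a b => by
    simp only [commutatorElement_def, map_mul, det_mul]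
    linear_combination (r b⁻¹).det * (r b).det * det_rep_inv (r := r) a + det_rep_inv (r := r) b
  have hmemc : ∀ {a b : G}, a ∈ (redTwo r).ker → b ∈ (redTwo r).ker → ⁅a, b⁆ ∈ (redTwo r).ker :=
    fun {a b} ha hb => by
      rw [commutatorElement_def]
      exact mul_mem (mul_mem (mul_mem ha hb) (inv_mem ha)) (inv_mem hb)
  have hne₁ : ∃ t ∈ T₁, t ≠ 0 := by
    by_contra! hall
    have hone : r ⁅b₁, b₂⁆ = 1 := by
      obtain ⟨Y, hY⟩ := exists_eq_one_add_of_mem_ker r (hmemc hb₁ hb₂)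
      have hc := eq_smul_one_of_tl_eq_zero (hall _ ⟨b₁, hb₁, b₂, hb₂, rfl⟩)
      have hd := hdetc b₁ b₂
      rw [hc, det_smul, det_one, mul_one, Fintype.card_fin] at hd
      rcases sq_eq_one_iff.mp hd with h1 | h1
      · rw [hc, h1, one_smul]
      · exfalso
        have h2 : (p : ℤ_[p]) ^ 2 ∣ ((2 : ℤ) : ℤ_[p]) :=
          ⟨-(Y 0 0), by rw [hY] at h1; simp at h1; push_cast; linear_combination h1⟩
        rw [PadicInt.pow_p_dvd_int_iff] at h2
        have h3 := Int.le_of_dvd two_pos h2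
        have h4 : (4 : ℤ) ≤ (p : ℤ) ^ 2 := by
          exact_mod_cast Nat.pow_le_pow_left hp.out.two_le 2
        omega
    have hcomm : r b₁ * r b₂ = r b₂ * r b₁ := by
      have h := congrArg (· * (r b₂ * r b₁)) hone
      simpa only [one_mul, ← map_mul, commutatorElement_def, mul_assoc, inv_mul_cancel_left,
        inv_mul_cancel, mul_one] using h
    have htl : tl (r b₁) * tl (r b₂) = tl (r b₂) * tl (r b₁) := by
      simp only [tl, mul_sub, sub_mul, smul_mul_assoc, mul_smul_comm, mul_one, one_mul, hcomm]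
      module
    exact hne (by rw [triple, htl, sub_self, zero_mul, trace_zero])
  rcases dihedral_or_triple hline (T := T₁)
    (by rintro t ⟨a, -, b, -, rfl⟩; exact trace_tl _)
    (by
      rintro g t ⟨a, ha, b, hb, rfl⟩
      refine ⟨g * a * g⁻¹, (MonoidHom.normal_ker _).conj_mem a ha g, g * b * g⁻¹,
        (MonoidHom.normal_ker _).conj_mem b hb g, ?_⟩
      rw [hconj, ← conjugate_commutatorElement])
    hne₁ with h | ⟨_, ⟨a₁, ha₁, b₁', hb₁', rfl⟩, _, ⟨a₂, ha₂, b₂', hb₂', rfl⟩,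
      _, ⟨a₃, ha₃, b₃, hb₃, rfl⟩, hne'⟩
  · exact Or.inr (Or.inl h)
  obtain ⟨Y₁, hY₁⟩ := exists_eq_one_add_of_mem_ker r (hmemc ha₁ hb₁')
  obtain ⟨Y₂, hY₂⟩ := exists_eq_one_add_of_mem_ker r (hmemc ha₂ hb₂')
  obtain ⟨Y₃, hY₃⟩ := exists_eq_one_add_of_mem_ker r (hmemc ha₃ hb₃)
  exact Or.inl (exists_level_of_triple r hcl hY₁ hY₂ hY₃ (hdetc _ _) (hdetc _ _) (hdetc _ _) hne')

end FA.OpenImageAll

end
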