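import Fermat.Agent.OpenImageAll.FrobeniusField

/-!
# The ordinary primes of an exceptional curve

If `a_l = 0` at the good primes inert in `ℚ(√d)` and `l ∤ 2 d` is good and split, then `a_l ≠ 0`:
otherwise a Frobenius in `G_K` would have discriminant `-4 l`, which is not `d` times a square.
-/

set_option autoImplicit false
set_option linter.style.haveILetI false

noncomputable section

open WeierstrassCurve FA.EC FA.Frob FA.RT

namespace FA.Exceptional

/-- A prime `l ∤ 2 d` with `a² - 4 l = d b²` does not divide `a`. -/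
theorem false_of_dvd_trace {a b d : ℤ} {l : ℕ} (hl : l.Prime) (hl2 : l ≠ 2)
    (hld : ¬ (l : ℤ) ∣ d) (h : a ^ 2 - 4 * l = d * b ^ 2) (ha : (l : ℤ) ∣ a) : False := by
  have hp := Nat.prime_iff_prime_int.mp hl
  obtain ⟨x, rfl⟩ := ha
  obtain ⟨y, rfl⟩ : (l : ℤ) ∣ b := hp.dvd_of_dvd_pow (n := 2)
    ((hp.dvd_or_dvd ⟨l * x ^ 2 - 4, by linear_combination -h⟩).resolve_left hld)
  have h4 : (l : ℤ) ∣ 4 := ⟨x ^ 2 - d * y ^ 2, mul_left_cancel₀
    (Int.natCast_ne_zero.mpr hl.ne_zero) (by linear_combination -h)⟩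
  exact hl2 ((Nat.prime_dvd_prime_iff_eq hl Nat.prime_two).mp
    (hl.dvd_of_dvd_pow (n := 2) (Int.natCast_dvd_natCast.mp h4 : l ∣ 2 ^ 2)))

variable {W : WeierstrassCurve ℤ} [(ratCurve W).IsElliptic]

/-- **Split primes have nonzero trace.** -/
theorem apOfModel_ne_zero_of_split {d : ℤ} (hd : Squarefree d) (hd1 : d ≠ 1)
    (h0 : ∀ l : ℕ, l.Prime → W.IsGoodPrimeFor l → ¬ IsSquare (d : ZMod l) → W.apOfModel l = 0)
    {l : ℕ} (hl : l.Prime) (hg : W.IsGoodPrimeFor l) (hl2 : l ≠ 2) (hld : ¬ (l : ℤ) ∣ d)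
    (hsq : IsSquare (d : ZMod l)) : W.apOfModel l ≠ 0 := by
  intro ha
  obtain ⟨s, H, hs, hH, hopen, hfix⟩ := FA.OpenImageAll.exists_index_two_of_sqrt hd hd1
  obtain ⟨l', hl', -, hg', ha'⟩ := exists_good_trace_ne (W := W) ∅
  obtain ⟨b, hb⟩ := exists_disc_eq hd hd1 h0 hl' hg' ha'
  have h := isSquare_disc_mul_of_mem hd.ne_zero hs hH hopen hfix h0 hl' hl hg' hg
    (mem_of_trace_ne hd.ne_zero hs hH hopen hfix h0 hl' hg' ha')
    fun A hA F hF => (hfix F).mpr (by_contra fun hne =>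
      FA.OpenImageAll.not_isSquare_of_frobenius_apply_ne hl hl2 hld hA hF hs hne hsq)
  rw [hb] at h
  obtain ⟨w, hw⟩ := eq_mul_sq_of_isSquare hd
    (fun hb0 => (disc_neg hl' hg').ne (by rw [hb, hb0]; ring)) h
  exact false_of_dvd_trace hl hl2 hld hw (ha ▸ dvd_zero _)

end FA.Exceptional

end
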