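import Mathlib.Algebra.Category.Grp.Injective
import Mathlib.GroupTheory.Torsion
import Mathlib.RingTheory.Coprime.Lemmas
import Mathlib.Tactic

/-!
# Extending automorphisms to a torsion group

In a torsion group with finitely many elements of each order and a `p`-divisible `p`-primary part
an automorphism of the elements killed by `p` extends to one of the whole group: the `p`-primary
part is injective, so the automorphism minus one extends to a map into it.
-/

set_option autoImplicit false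

noncomputable section

namespace FA.OpenImageAll

variable {A : Type*} [AddCommGroup A]

/-- A `p`-divisible `p`-primary part is divisible. -/
theorem exists_nsmul_eq_primary {p : ℕ} [hp : Fact p.Prime]
    (hdiv : ∀ x : A, (∃ k : ℕ, p ^ k • x = 0) → ∃ y : A, p • y = x)
    {x : A} (hx : ∃ k : ℕ, p ^ k • x = 0) {n : ℕ} (hn : n ≠ 0) :
    ∃ y : A, (∃ k : ℕ, p ^ k • y = 0) ∧ n • y = x := by
  have hpow : ∀ a : ℕ, ∀ z : A, (∃ k : ℕ, p ^ k • z = 0) →
      ∃ y : A, (∃ k : ℕ, p ^ k • y = 0) ∧ p ^ a • y = z := fun a => by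
    induction a with
    | zero => exact fun z hz => ⟨z, hz, by rw [pow_zero, one_nsmul]⟩
    | succ a ih =>
      intro z hz
      obtain ⟨w, hw, hwz⟩ := ih z hz
      obtain ⟨y, hy⟩ := hdiv w hw
      obtain ⟨k, hk⟩ := hw
      exact ⟨y, ⟨k + 1, by rw [pow_succ, mul_nsmul', hy, hk]⟩,
        by rw [pow_succ, mul_nsmul', hy, hwz]⟩
  obtain ⟨a, m, hm, rfl⟩ := Nat.exists_eq_pow_mul_and_not_dvd hn p hp.out.ne_one
  obtain ⟨y, ⟨k, hk⟩, hy⟩ := hpow a x hx
  obtain ⟨u, v, huv⟩ := (Int.isCoprime_iff_nat_coprime.mpr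
    (show Nat.Coprime (Int.natAbs (m : ℤ)) (Int.natAbs ((p ^ k : ℕ) : ℤ)) by
      simpa using ((hp.out.coprime_iff_not_dvd.mpr hm).symm).pow_right k))
  refine ⟨u • y, ⟨k, by rw [smul_comm, hk, smul_zero]⟩, ?_⟩
  rw [mul_nsmul', ← natCast_zsmul _ m, smul_smul, show (m : ℤ) * u = 1 - v * ((p ^ k : ℕ) : ℤ) by
    linear_combination huv, sub_zsmul, one_zsmul, mul_zsmul, natCast_zsmul, hk, smul_zero,
    neg_zero, add_zero, hy]

/-- **Extension**: an automorphism `1 + f` of the elements killed by `p` extends to the whole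
group. -/
theorem exists_extension {p : ℕ} [hp : Fact p.Prime] (htor : ∀ x : A, IsOfFinAddOrder x)
    (hfin : ∀ N : ℕ, N ≠ 0 → {x : A | N • x = 0}.Finite)
    (hdiv : ∀ x : A, (∃ k : ℕ, p ^ k • x = 0) → ∃ y : A, p • y = x)
    (f : (nsmulAddMonoidHom p : A →+ A).ker →+ A) (hf : ∀ x, p • f x = 0)
    (hinj : ∀ x, x.1 + f x = 0 → x = 0) :
    ∃ ψ : A ≃ₗ[ℤ] A, ∀ x : (nsmulAddMonoidHom p : A →+ A).ker, ψ x.1 = x.1 + f x := by
  let P : AddSubgroup A := AddCommGroup.primaryComponent A p
  have hP : ∀ x, x ∈ P ↔ ∃ k : ℕ, p ^ k • x = 0 := fun x => AddCommGroup.mem_primaryComponent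
  letI : DivisibleBy P ℤ := divisibleByOfSMulRightSurj P ℤ fun {n} hn x => by
    obtain ⟨y, hy, hyx⟩ := exists_nsmul_eq_primary hdiv ((hP _).mp x.2)
      (Int.natAbs_ne_zero.mpr hn)
    rcases Int.natAbs_eq n with h | h
    · refine ⟨⟨y, (hP y).mpr hy⟩, Subtype.ext ?_⟩
      show n • y = x.1
      rw [h, natCast_zsmul, hyx]
    · refine ⟨⟨-y, neg_mem ((hP y).mpr hy)⟩, Subtype.ext ?_⟩
      show n • -y = x.1
      rw [h, neg_zsmul, zsmul_neg, neg_neg, natCast_zsmul, hyx]
  let g : (nsmulAddMonoidHom p : A →+ A).ker →+ P := f.codRestrict P fun x =>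
    (hP _).mpr ⟨1, by rw [pow_one]; exact hf x⟩
  obtain ⟨η, hη⟩ := (Module.Baer.of_divisible P).extension_property_addMonoidHom
    (nsmulAddMonoidHom p : A →+ A).ker.subtype Subtype.val_injective g
  set ψ : A →+ A := AddMonoidHom.id A + P.subtype.comp η with hψ
  have happ : ∀ x : (nsmulAddMonoidHom p : A →+ A).ker, ψ x.1 = x.1 + f x := fun x => by
    have h := congrArg Subtype.val (DFunLike.congr_fun hη x)
    rw [hψ, AddMonoidHom.add_apply, AddMonoidHom.id_apply]
    exact congrArg (x.1 + ·) h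
  have hker : ∀ k : ℕ, ∀ x, p ^ k • x = 0 → ψ x = 0 → x = 0 := fun k => by
    induction k with
    | zero => exact fun x hx _ => by rwa [pow_zero, one_nsmul] at hx
    | succ k ih =>
      intro x hx h0
      have h1 : p • x = 0 := ih (p • x) (by rwa [← mul_nsmul', ← pow_succ])
        (by rw [map_nsmul, h0, nsmul_zero])
      exact congrArg Subtype.val (hinj ⟨x, h1⟩ ((happ ⟨x, h1⟩).symm.trans h0))
  have hψinj : Function.Injective ψ := (injective_iff_map_eq_zero ψ).mpr fun x hx => by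
    have h1 : x = -(η x).1 := eq_neg_of_add_eq_zero_left hx
    have hmem : x ∈ P := by rw [h1]; exact P.neg_mem (η x).2
    obtain ⟨k, hk⟩ := (hP _).mp hmem
    exact hker k x hk hx
  have hψsurj : Function.Surjective ψ := fun y => by
    set N := addOrderOf y
    have hN : N ≠ 0 := (htor y).addOrderOf_pos.ne'
    have : Finite {x : A | N • x = 0} := (hfin N hN).to_subtype
    let ψN : {x : A | N • x = 0} → {x : A | N • x = 0} := fun x => ⟨ψ x.1, by
      show N • ψ x.1 = 0
      rw [← map_nsmul, show N • x.1 = 0 from x.2, map_zero]⟩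
    have hN' : Function.Injective ψN := fun a b h => Subtype.ext (hψinj (congrArg Subtype.val h))
    obtain ⟨x, hx⟩ := (Finite.injective_iff_surjective.mp hN') ⟨y, addOrderOf_nsmul_eq_zero y⟩
    exact ⟨x.1, congrArg Subtype.val hx⟩
  exact ⟨(AddEquiv.ofBijective ψ ⟨hψinj, hψsurj⟩).toIntLinearEquiv, happ⟩

end FA.OpenImageAll

end
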