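import Mathlib.NumberTheory.LSeries.PrimesInAP
import Mathlib.NumberTheory.LegendreSymbol.JacobiSymbol
import Mathlib.Data.Nat.Squarefree
import Mathlib.Tactic

/-!
# Split primes that are no squares modulo a ramified prime

Unless a negative squarefree `d` is `-1`, `-2` or `-p` with `p ≡ 3 mod 4` a prime, some arbitrarily
large prime `l` has `d` as a square modulo it and is no square modulo an odd prime dividing `d`:
by reciprocity and Dirichlet's theorem (the genus characters).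
-/

set_option autoImplicit false

noncomputable section

open scoped NumberTheorySymbols

namespace FA.Genus

/-- Symbols depend on the class of the numerator. -/
theorem jacobi_congr {a c b : ℕ} (h : a ≡ c [MOD b]) : J((a : ℤ) | b) = J((c : ℤ) | b) :=
  jacobiSym.mod_left' (Int.natCast_modEq_iff.mpr h)

/-- A nonresidue of an odd prime. -/
theorem exists_nonresidue {q : ℕ} (hq : q.Prime) (hq2 : q ≠ 2) :
    ∃ c : ℕ, c.Coprime q ∧ J((c : ℤ) | q) = -1 := by
  haveI := Fact.mk hq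
  obtain ⟨a, ha⟩ := FiniteField.exists_nonsquare (F := ZMod q) (by rwa [ZMod.ringChar_zmod_n])
  refine ⟨a.val, ?_, ?_⟩
  · rw [Nat.coprime_comm, hq.coprime_iff_not_dvd, ← ZMod.natCast_eq_zero_iff, ZMod.natCast_zmod_val]
    exact fun h => ha (h ▸ IsSquare.zero)
  · rw [ZMod.nonsquare_iff_jacobiSym_eq_neg_one, Int.cast_natCast, ZMod.natCast_zmod_val]
    exact ha

/-- A class with symbol `-1` modulo an odd squarefree `r ≠ 1`. -/
theorem exists_nonresidue_odd {r : ℕ} (hr : Squarefree r) (hodd : Odd r) (hr1 : r ≠ 1) :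
    ∃ c : ℕ, c.Coprime r ∧ J((c : ℤ) | r) = -1 := by
  obtain ⟨q, hq, r', rfl⟩ := Nat.exists_prime_and_dvd hr1
  have hq2 : q ≠ 2 := fun h => by simp [h, ← Nat.not_even_iff_odd] at hodd
  obtain ⟨c₀, hc₀, hj⟩ := exists_nonresidue hq hq2
  have hcop : q.Coprime r' := Nat.coprime_of_squarefree_mul hr
  obtain ⟨c, hcq, hcr⟩ := Nat.chineseRemainder hcop c₀ 1
  refine ⟨c, Nat.Coprime.mul_right ?_ ?_, ?_⟩
  · rw [Nat.Coprime, hcq.gcd_eq]; exact hc₀
  · rw [Nat.Coprime, hcr.gcd_eq]; exact Nat.gcd_one_left r'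
  · rw [jacobiSym.mul_right' _ hq.ne_zero (right_ne_zero_of_mul hr.ne_zero), jacobi_congr hcq,
      jacobi_congr hcr, hj, Nat.cast_one, jacobiSym.one_left, mul_one]

/-- A large prime with given class modulo `8`, no square modulo `p`, with given symbol modulo
`r`. -/
theorem exists_prime_symbols {p r a c : ℕ} (hp : p.Prime) (hp2 : p ≠ 2) (hr : Odd r)
    (hpr : p.Coprime r) (ha : Odd a) (hc : c.Coprime r) (n : ℕ) :
    ∃ l : ℕ, n < l ∧ l.Prime ∧ l % 8 = a % 8 ∧ J((l : ℤ) | p) = -1 ∧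
      J((l : ℤ) | r) = J((c : ℤ) | r) := by
  obtain ⟨c₀, hc₀, hj⟩ := exists_nonresidue hp hp2
  obtain ⟨k, hkp, hkr⟩ := Nat.chineseRemainder hpr c₀ c
  have h8 : ∀ {x : ℕ}, Odd x → x.Coprime 8 := fun hx =>
    Nat.Coprime.pow_right 3 (Nat.coprime_two_right.mpr hx)
  obtain ⟨e, he8, hek⟩ :=
    Nat.chineseRemainder (h8 ((hp.odd_of_ne_two hp2).mul hr)).symm a k
  have hcop : e.Coprime (8 * (p * r)) := by
    refine Nat.Coprime.mul_right ?_ (Nat.Coprime.mul_right ?_ ?_)
    · rw [Nat.Coprime, he8.gcd_eq]; exact h8 ha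
    · rw [Nat.Coprime, ((hek.of_mul_right r).trans hkp).gcd_eq]; exact hc₀
    · rw [Nat.Coprime, ((hek.of_mul_left p).trans hkr).gcd_eq]; exact hc
  obtain ⟨l, hln, hl, hle⟩ := Nat.forall_exists_prime_gt_and_modEq n
    (mul_ne_zero (by norm_num) (mul_ne_zero hp.ne_zero hr.pos.ne')) hcop
  refine ⟨l, hln, hl, (hle.of_mul_right (p * r)).trans he8, ?_, ?_⟩
  · rw [jacobi_congr ((((hle.of_mul_left 8).trans hek).of_mul_right r).trans hkp), hj]
  · exact jacobi_congr ((((hle.of_mul_left 8).trans hek).of_mul_left p).trans hkr)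

/-- **The genus argument.** -/
theorem exists_split_nonsquare {d : ℤ} (hd : Squarefree d) (hneg : d < 0) (h1 : d ≠ -1)
    (h2 : d ≠ -2) (h3 : ∀ p : ℕ, p.Prime → p % 4 = 3 → d ≠ -(p : ℤ)) (n : ℕ) :
    ∃ l p : ℕ, n < l ∧ l.Prime ∧ p.Prime ∧ p ≠ 2 ∧ (p : ℤ) ∣ d ∧
      J(d | l) = 1 ∧ J((l : ℤ) | p) = -1 := by
  obtain ⟨N, rfl⟩ : ∃ N : ℕ, d = -(N : ℤ) := ⟨d.natAbs, by omega⟩
  have hN : Squarefree N := by
    rwa [← Int.squarefree_natAbs, Int.natAbs_neg, Int.natAbs_natCast] at hd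
  have hlodd : ∀ {l a : ℕ}, l % 8 = a % 8 → Odd a → Odd l := fun hl ha => by
    rw [Nat.odd_iff] at *; omega
  rcases Nat.even_or_odd' N with ⟨m, rfl | rfl⟩
  · -- `d = -2 m`: primes `5 mod 8`
    have hm2 : ¬ 2 ∣ m := fun h => by
      have := hN 2 (mul_dvd_mul_left 2 h)
      simp at this
    have hm1 : m ≠ 1 := fun h => h2 (by rw [h]; norm_num)
    obtain ⟨p, hp, r, rfl⟩ := Nat.exists_prime_and_dvd hm1
    have hp2 : p ≠ 2 := fun h => hm2 (h ▸ dvd_mul_right _ _)
    have hodd : Odd r := Nat.odd_iff.mpr (Nat.two_dvd_ne_zero.mp fun h =>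
      hm2 (Dvd.dvd.mul_left h p))
    obtain ⟨l, hln, hl, hl8, hlp, hlr⟩ := exists_prime_symbols hp hp2 hodd
      (Nat.coprime_of_squarefree_mul hN.of_mul_right) (a := 5) (by decide)
      (Nat.coprime_one_left r) n
    have hlo := hlodd hl8 (by decide)
    refine ⟨l, p, hln, hl, hp, hp2, ⟨-(2 * r : ℤ), by push_cast; ring⟩, ?_, hlp⟩
    rw [Nat.cast_mul, Nat.cast_mul, jacobiSym.neg _ hlo, jacobiSym.mul_left, jacobiSym.mul_left,
      Nat.cast_ofNat, jacobiSym.at_two hlo, ZMod.χ₈_nat_eq_if_mod_eight,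
      ZMod.χ₄_nat_one_mod_four (by omega), if_neg (by omega), if_neg (by omega),
      jacobiSym.quadratic_reciprocity_one_mod_four' (hp.odd_of_ne_two hp2) (by omega),
      jacobiSym.quadratic_reciprocity_one_mod_four' hodd (by omega), hlp, hlr, Nat.cast_one,
      jacobiSym.one_left]
    norm_num
  · have hm1 : 2 * m + 1 ≠ 1 := fun h => h1 (by rw [h]; norm_num)
    have hodd : Odd (2 * m + 1) := odd_two_mul_add_one m
    generalize 2 * m + 1 = M at hN hm1 hodd h3 ⊢
    obtain ⟨p, hp, r, rfl⟩ := Nat.exists_prime_and_dvd hm1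
    obtain ⟨hpo, hro⟩ := Nat.odd_mul.mp hodd
    have hp2 : p ≠ 2 := fun h => by
      subst h
      exact absurd hpo (by decide)
    have hcop := Nat.coprime_of_squarefree_mul hN
    by_cases hr1 : r = 1
    · -- `d = -p` with `p ≡ 1 mod 4`: primes `3 mod 4`
      subst hr1
      have hp4 : p % 4 = 1 := by
        have := h3 p hp
        rw [Nat.odd_iff] at hpo
        by_contra h
        exact this (by omega) (by rw [mul_one])
      obtain ⟨l, hln, hl, hl8, hlp, -⟩ := exists_prime_symbols hp hp2 hro hcop (a := 3) (by decide)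
        (Nat.coprime_one_left 1) n
      have hlo := hlodd hl8 (by decide)
      refine ⟨l, p, hln, hl, hp, hp2, ⟨-1, by push_cast; ring⟩, ?_, hlp⟩
      rw [mul_one, jacobiSym.neg _ hlo, ZMod.χ₄_nat_three_mod_four (by omega),
        jacobiSym.quadratic_reciprocity_one_mod_four hp4 hlo, hlp]
      norm_num
    · -- two ramified odd primes: primes `1 mod 8`
      obtain ⟨c, hc, hj⟩ := exists_nonresidue_odd hN.of_mul_right hro hr1
      obtain ⟨l, hln, hl, hl8, hlp, hlr⟩ := exists_prime_symbols hp hp2 hro hcop (a := 1) (by decide)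
        hc n
      have hlo := hlodd hl8 (by decide)
      refine ⟨l, p, hln, hl, hp, hp2, ⟨-(r : ℤ), by push_cast; ring⟩, ?_, hlp⟩
      rw [Nat.cast_mul, jacobiSym.neg _ hlo, jacobiSym.mul_left,
        ZMod.χ₄_nat_one_mod_four (by omega),
        jacobiSym.quadratic_reciprocity_one_mod_four' hpo (by omega),
        jacobiSym.quadratic_reciprocity_one_mod_four' hro (by omega), hlp, hlr, hj]
      norm_num

end FA.Genus

end
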