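import Fermat.Agent.OpenImageAll.Local
import Fermat.Agent.OpenImageJ.StableLine
import Fermat.Agent.Root.SummaryAbelianTorsion
import Fermat.Agent.Root.SummaryIsogenyBound
import Fermat.Agent.Root.SummaryIsogenyPrimes

/-!
# No stable line for an integral invariant, and bounds on stable cyclic subgroups

If `j` is integral at every prime, no line of a Tate module is stable: a power of the character of
a stable line would be trivial or cyclotomic, at a good prime against the existence of points. By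
compactness a Tate module without a stable line bounds the orders of the points of `p`-power order
generating stable subgroups.
-/

set_option autoImplicit false
set_option linter.unusedSectionVars false
set_option linter.style.haveILetI false

noncomputable section

open Matrix WeierstrassCurve FA.EC FA.Frob FA.RT FA.RT.Tate
open FA.OpenImageJ (NoStableLine)
open scoped WeierstrassCurve.Affine

local notation "Qb" => AlgebraicClosure ℚ
local notation "GQ" => AlgebraicClosure ℚ ≃ₐ[ℚ] AlgebraicClosure ℚ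

namespace FA.OpenImageAll

variable {W : WeierstrassCurve ℤ} [(ratCurve W).IsElliptic] {p : ℕ} [hp : Fact p.Prime]

/-- **An integral invariant leaves no stable line**, whatever the reduction. -/
theorem noStableLine_of_integral (B : TateBasis p W)
    (hj : ∀ l : ℕ, l.Prime → 0 ≤ padicValRat l (ratCurve W).j) : NoStableLine B := by
  refine FA.OpenImageJ.noStableLine_of_inertia B (fun e i χ hi hχ l hl hlp A hA σ hσ => ?_)
    fun e i χ hi hχ => ?_
  · have := Fact.mk hl
    exact FA.OpenImageJ.exists_pow_eq_one_of_integral hlp (hj l hl) hA hi hχ hσ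
  · obtain ⟨A, hA⟩ := FA.Deform.exists_liesOverPrime hp.out
    obtain ⟨K, hK, hdet⟩ := exists_field_det_sub_one B (hj p hp.out) hA hi hχ
    exact Or.inl ⟨A, K.fixingSubgroup, hA,
      FA.AbelianTorsion.index_fixingSubgroup_ne_zero K,
      fun σ hσ => hdet σ (Subgroup.mem_inf.mp hσ).1
        ((IntermediateField.mem_fixingSubgroup_iff K σ).mp (Subgroup.mem_inf.mp hσ).2)⟩

/-- **Compactness**: without a stable line no vector with a unit coordinate is stable modulo a
large power of `p`. -/
theorem exists_level_cross (B : TateBasis p W) (hline : NoStableLine B) :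
    ∃ n : ℕ, ∀ e : Fin 2 → ℤ_[p], (∃ i, IsUnit (e i)) →
      ∃ σ, ¬ (p : ℤ_[p]) ^ n ∣ e 0 * (B.rep σ *ᵥ e) 1 - e 1 * (B.rep σ *ᵥ e) 0 := by
  by_contra hc
  push Not at hc
  choose e he hdvd using hc
  obtain ⟨x, φ, hφ, hx⟩ := CompactSpace.tendsto_subseq e
  have hcoord : ∀ i, Filter.Tendsto (fun k => e (φ k) i) Filter.atTop (nhds (x i)) := fun i =>
    ((continuous_apply i).tendsto x).comp hx
  have hx0 : x ≠ 0 := by
    intro h0
    have hev : ∀ᶠ k in Filter.atTop, ∀ i, ‖e (φ k) i‖ < 1 := Filter.eventually_all.mpr fun i => by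
      have h := (hcoord i).norm
      rw [h0, Pi.zero_apply, norm_zero] at h
      exact h.eventually (eventually_lt_nhds zero_lt_one)
    obtain ⟨k, hk⟩ := hev.exists
    obtain ⟨i, hi⟩ := he (φ k)
    exact absurd (PadicInt.isUnit_iff.mp hi) (hk i).ne
  obtain ⟨σ, hσ⟩ := hline x hx0
  apply hσ
  let c : (Fin 2 → ℤ_[p]) → ℤ_[p] := fun v =>
    v 0 * (B.rep σ *ᵥ v) 1 - v 1 * (B.rep σ *ᵥ v) 0
  have hc : Continuous c := by
    simp only [c, mulVec, dotProduct, Fin.sum_univ_two]
    fun_prop
  refine tendsto_nhds_unique ((hc.tendsto x).comp hx) ?_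
  refine squeeze_zero_norm (fun k => ((PadicInt.norm_le_pow_iff_mem_span_pow _ (φ k)).mpr
    (Ideal.mem_span_singleton.mpr (hdvd (φ k) σ)))) ?_
  simp only [_root_.zpow_neg, zpow_natCast, ← inv_pow]
  exact (tendsto_pow_atTop_nhds_zero_of_lt_one (by positivity)
    (inv_lt_one_of_one_lt₀ (by exact_mod_cast hp.out.one_lt))).comp hφ.tendsto_atTop

/-- Without a stable line the points of `p`-power order generating stable subgroups have bounded
order. -/
theorem exists_bound_of_noStableLine (B : TateBasis p W) (hline : NoStableLine B) :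
    ∃ n : ℕ, ∀ (v : ℕ) (P : Pts W), addOrderOf P = p ^ v →
      (∀ σ : GQ, σ • P ∈ AddSubgroup.zmultiples P) → v ≤ n := by
  obtain ⟨n, hn⟩ := exists_level_cross B hline
  refine ⟨n, fun v P hP hst => ?_⟩
  by_contra hlt
  obtain ⟨w, rfl⟩ := B.surj v P (by rw [← hP]; exact addOrderOf_nsmul_eq_zero P)
  obtain ⟨σ, hσ⟩ := hn w (FA.IsogenyBound.exists_isUnit_coord B (by omega) hP)
  obtain ⟨t, ht⟩ := AddSubgroup.mem_zmultiples_iff.mp (hst σ)
  rw [B.rep_spec, ← map_zsmul] at ht
  have e0 := B.phi_eq_iff.mp ht 0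
  have e1 := B.phi_eq_iff.mp ht 1
  simp only [Pi.smul_apply, zsmul_eq_mul, map_mul, map_intCast] at e0 e1
  refine hσ ((pow_dvd_pow _ (le_of_not_ge hlt)).trans ?_)
  rw [← Ideal.mem_span_singleton, ← PadicInt.ker_toZModPow, RingHom.mem_ker, map_sub, map_mul,
    map_mul, ← e0, ← e1]
  ring

/-- **A bound on all stable cyclic subgroups**: if no line of any Tate module is stable. -/
theorem exists_stable_bound (hline : ∀ (l : ℕ) [Fact l.Prime] (B : TateBasis l W), NoStableLine B) :
    ∃ m : ℕ, 0 < m ∧ ∀ P : Pts W, addOrderOf P ≠ 0 →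
      (∀ σ : GQ, σ • P ∈ AddSubgroup.zmultiples P) → addOrderOf P ∣ m := by
  classical
  obtain ⟨M, hM⟩ := FA.IsogenyPrimes.exists_bound W
  have hb : ∀ l : ℕ, ∃ n : ℕ, l.Prime → ∀ (v : ℕ) (P : Pts W), addOrderOf P = l ^ v →
      (∀ σ : GQ, σ • P ∈ AddSubgroup.zmultiples P) → v ≤ n := fun l => by
    by_cases hl : l.Prime
    · have := Fact.mk hl
      obtain ⟨B⟩ := exists_tateBasis (p := l) W
      exact (exists_bound_of_noStableLine B (hline l B)).imp fun n hn _ => hn
    · exact ⟨0, fun h => absurd h hl⟩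
  choose n hn using hb
  refine ⟨∏ l ∈ Finset.range (M + 1) with l.Prime, l ^ n l,
    Finset.prod_pos fun l hl => pow_pos (Finset.mem_filter.mp hl).2.pos _,
    fun P hP hst => (Nat.dvd_iff_prime_pow_dvd_dvd _ _).mpr fun l v hl hv => ?_⟩
  obtain ⟨d, hd⟩ := hv
  have := Fact.mk hl
  have hd0 : d ≠ 0 := fun e => hP (by rw [hd, e, mul_zero])
  have hord : addOrderOf (d • P) = l ^ v := by
    rw [addOrderOf_nsmul' P hd0, hd, Nat.gcd_mul_left_left, Nat.mul_div_cancel _
      (Nat.pos_of_ne_zero hd0)]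
  have hst' : ∀ σ : GQ, σ • (d • P) ∈ AddSubgroup.zmultiples (d • P) := fun σ => by
    obtain ⟨t, ht⟩ := AddSubgroup.mem_zmultiples_iff.mp (hst σ)
    rw [FA.RT.Tate.gal_smul_nsmul, ← ht, smul_comm]
    exact AddSubgroup.zsmul_mem_zmultiples _ _
  rcases Nat.eq_zero_or_pos v with rfl | hv0
  · rw [pow_zero]
    exact one_dvd _
  have hlM : l ≤ M := by
    by_contra hlt
    set Q := l ^ (v - 1) • d • P with hQ
    have hQ0 : Q ≠ 0 := fun h => by
      have h1 := addOrderOf_dvd_of_nsmul_eq_zero h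
      rw [hord, Nat.pow_dvd_pow_iff_le_right hl.one_lt] at h1
      omega
    refine hQ0 (hM l hl (not_le.mp hlt) Q ?_ fun σ => ?_)
    · rw [hQ, ← mul_nsmul', ← pow_succ', Nat.sub_add_cancel hv0, ← hord]
      exact addOrderOf_nsmul_eq_zero _
    · have h1 : l ^ v • d • P = 0 := by rw [← hord]; exact addOrderOf_nsmul_eq_zero _
      obtain ⟨t, ht⟩ := AddSubgroup.mem_zmultiples_iff.mp (hst' σ)
      obtain ⟨k, hk⟩ : ∃ k : ℕ, t • d • P = k • d • P := by
        have hfin : IsOfFinAddOrder (d • P) :=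
          isOfFinAddOrder_iff_nsmul_eq_zero.mpr ⟨l ^ v, pow_pos hl.pos v, h1⟩
        obtain ⟨k, hk⟩ := (AddSubmonoid.mem_multiples_iff _ _).mp
          (hfin.mem_multiples_iff_mem_zmultiples.mpr
            (AddSubgroup.zsmul_mem_zmultiples (d • P) t))
        exact ⟨k, hk.symm⟩
      refine ⟨k, ?_⟩
      rw [hQ, FA.RT.Tate.gal_smul_nsmul, ← ht, hk, smul_comm]
  exact (pow_dvd_pow l (hn l hl v _ hord hst')).trans (Finset.dvd_prod_of_mem (fun l => l ^ n l)
    (Finset.mem_filter.mpr ⟨Finset.mem_range.mpr (Nat.lt_succ_of_le hlM), hl⟩))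

end FA.OpenImageAll

end
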