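import Mathlib.Data.ZMod.QuotientRing
import Mathlib.LinearAlgebra.Matrix.Determinant.Basic
import Mathlib.LinearAlgebra.Matrix.Trace
import Mathlib.LinearAlgebra.Matrix.Notation
import Mathlib.Tactic.LinearCombination

/-!
# Lifting trace and determinant from a divisor of the level

An integer matrix of determinant prime to `N` can be changed modulo `g ∣ N` so that its trace
takes any value congruent to the old one mod `g`; a matrix `K` with `det (1 - K)` prime to `N` so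
that `det K` takes any value congruent to the old one mod `gcd (N, g²)`. At a prime power this is
linear in one entry, opposite to an entry of small valuation, or the matrix is divisible by the
power of the prime in `g`.
-/

set_option autoImplicit false

open Matrix

local notation "M2" => Matrix (Fin 2) (Fin 2) ℤ

namespace FA.ObstructionLevel

/-- Being divisible at each prime power of `N` is being divisible by `N`. -/
theorem dvd_of_local {N : ℕ} (hN : N ≠ 0) {z : ℤ}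
    (h : ∀ l ∈ N.primeFactors, ((l ^ N.factorization l : ℕ) : ℤ) ∣ z) : (N : ℤ) ∣ z := by
  rw [← ZMod.intCast_zmod_eq_zero_iff_dvd]
  apply (ZMod.equivPi N hN).injective
  funext p
  rw [map_intCast, Pi.intCast_apply, map_zero, Pi.zero_apply, ZMod.intCast_zmod_eq_zero_iff_dvd]
  exact h p p.2

/-- Integers with given residues at the prime powers of `N`. -/
theorem exists_crt {N : ℕ} (hN : N ≠ 0) (c : ℕ → ℤ) :
    ∃ x : ℤ, ∀ l ∈ N.primeFactors, ((l ^ N.factorization l : ℕ) : ℤ) ∣ x - c l := by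
  haveI : NeZero N := ⟨hN⟩
  set z : ZMod N := (ZMod.equivPi N hN).symm fun p => (c p : ZMod _) with hz
  refine ⟨(z.val : ℤ), fun l hl => ?_⟩
  have e := congrFun (congrArg (ZMod.equivPi N hN) (ZMod.natCast_zmod_val z)) ⟨l, hl⟩
  rw [map_natCast, Pi.natCast_apply, hz, RingEquiv.apply_symm_apply] at e
  refine (ZMod.intCast_eq_intCast_iff_dvd_sub _ _ _).mp (Eq.symm ?_)
  rw [Int.cast_natCast]
  exact e

/-- Congruent entries give congruent determinants. -/
theorem dvd_det_sub {n : ℤ} {K K' : M2} (h : ∀ i j, n ∣ K i j - K' i j) :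
    n ∣ K.det - K'.det := by
  have e : K.det - K'.det = (K 0 0 - K' 0 0) * K 1 1 + (K 1 1 - K' 1 1) * K' 0 0
      - (K 0 1 - K' 0 1) * K 1 0 - (K 1 0 - K' 1 0) * K' 0 1 := by
    rw [det_fin_two, det_fin_two]; ring
  rw [e]
  exact dvd_sub (dvd_sub (dvd_add ((h 0 0).mul_right _) ((h 1 1).mul_right _))
    ((h 0 1).mul_right _)) ((h 1 0).mul_right _)

/-- Congruent entries give congruent traces. -/
theorem dvd_trace_sub {n : ℤ} {K K' : M2} (h : ∀ i j, n ∣ K i j - K' i j) :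
    n ∣ K.trace - K'.trace := by
  rw [trace_fin_two, trace_fin_two, show K 0 0 + K 1 1 - (K' 0 0 + K' 1 1) =
    (K 0 0 - K' 0 0) + (K 1 1 - K' 1 1) by ring]
  exact dvd_add (h 0 0) (h 1 1)

/-- Congruent entries give congruent entries of `1 - K`. -/
theorem dvd_one_sub {n : ℤ} {K K' : M2} (h : ∀ i j, n ∣ K i j - K' i j) (i j : Fin 2) :
    n ∣ (1 - K) i j - (1 - K') i j := by
  rw [Matrix.sub_apply, Matrix.sub_apply, show (1 : M2) i j - K i j - ((1 : M2) i j - K' i j) =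
    -(K i j - K' i j) by ring]
  exact (h i j).neg_right

/-- **Gluing**: choices at the primes of `N`, all congruent to one matrix mod `g ∣ N`, come from
one matrix congruent to it mod `g`. -/
theorem exists_glue {N g : ℕ} (hN : N ≠ 0) (hg : g ∣ N) (K₀ : M2) (P : ℕ → M2 → Prop)
    (hloc : ∀ l ∈ N.primeFactors, ∃ K : M2, (∀ i j, (g : ℤ) ∣ K i j - K₀ i j) ∧ P l K)
    (hcongr : ∀ l ∈ N.primeFactors, ∀ K K' : M2,
      (∀ i j, ((l ^ N.factorization l : ℕ) : ℤ) ∣ K' i j - K i j) → P l K → P l K') :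
    ∃ K : M2, (∀ i j, (g : ℤ) ∣ K i j - K₀ i j) ∧ ∀ l ∈ N.primeFactors, P l K := by
  classical
  have hg0 : g ≠ 0 := fun e => hN (Nat.eq_zero_of_zero_dvd (e ▸ hg))
  choose f hf hP using hloc
  let c : ℕ → Fin 2 → Fin 2 → ℤ := fun l i j => if h : l ∈ N.primeFactors then f l h i j else 0
  choose x hx using fun i j => exists_crt hN fun l => c l i j
  have hxf : ∀ l (hl : l ∈ N.primeFactors) i j,
      ((l ^ N.factorization l : ℕ) : ℤ) ∣ x i j - f l hl i j := fun l hl i j => by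
    simpa only [c, dif_pos hl] using hx i j l hl
  refine ⟨Matrix.of x, fun i j => dvd_of_local hg0 fun l hl => ?_,
    fun l hl => hcongr l hl _ _ (hxf l hl) (hP l hl)⟩
  have hlN : l ∈ N.primeFactors := Nat.primeFactors_mono hg hN hl
  rw [Matrix.of_apply, show x i j - K₀ i j = (x i j - f l hlN i j) + (f l hlN i j - K₀ i j) by ring]
  refine dvd_add (dvd_trans (Int.natCast_dvd_natCast.mpr (pow_dvd_pow l ?_)) (hxf l hlN i j))
    (dvd_trans (Int.natCast_dvd_natCast.mpr (Nat.ordProj_dvd g l)) (hf l hlN i j))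
  exact (Nat.factorization_le_iff_dvd hg0 hN).mpr hg l

/-- Inverting a number prime to `l` at a power of `l`. -/
theorem exists_mul_sub_one {l g : ℕ} (hl : l.Prime) (hlg : ¬ l ∣ g) (n : ℕ) :
    ∃ w : ℤ, ((l ^ n : ℕ) : ℤ) ∣ (g : ℤ) * w - 1 := by
  obtain ⟨u, v, h⟩ := Int.isCoprime_iff_nat_coprime.mpr
    (show (((g : ℤ)).natAbs).Coprime ((l ^ n : ℕ) : ℤ).natAbs by
      simpa using ((hl.coprime_iff_not_dvd.mpr hlg).symm.pow_right n))
  exact ⟨u, -v, by linear_combination h⟩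

/-- Off the primes of `g` any target is reached. -/
theorem exists_of_not_dvd {l g : ℕ} (hl : l.Prime) (hlg : ¬ l ∣ g) (n : ℕ) (K₀ T : M2) :
    ∃ K : M2, (∀ i j, (g : ℤ) ∣ K i j - K₀ i j) ∧ ∀ i j, ((l ^ n : ℕ) : ℤ) ∣ K i j - T i j := by
  obtain ⟨w, hw⟩ := exists_mul_sub_one hl hlg n
  refine ⟨Matrix.of fun i j => K₀ i j + (g : ℤ) * w * (T i j - K₀ i j), fun i j => ?_,
    fun i j => ?_⟩ <;> rw [Matrix.of_apply]
  · exact ⟨w * (T i j - K₀ i j), by ring⟩
  · rw [show K₀ i j + (g : ℤ) * w * (T i j - K₀ i j) - T i j =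
      ((g : ℤ) * w - 1) * (T i j - K₀ i j) by ring]
    exact hw.mul_right _

/-- **Lifting the trace.** -/
theorem exists_lift_trace {N g : ℕ} (hN : N ≠ 0) (hg : g ∣ N) (A : M2) (t : ℤ)
    (hA : ∀ l : ℕ, l.Prime → l ∣ N → ¬ (l : ℤ) ∣ A.det) (ht : (g : ℤ) ∣ A.trace - t) :
    ∃ X : M2, (∀ i j, (g : ℤ) ∣ X i j - A i j) ∧ (N : ℤ) ∣ X.trace - t ∧
      ∀ l : ℕ, l.Prime → l ∣ N → ¬ (l : ℤ) ∣ X.det := by
  refine (exists_glue hN hg A (fun l X =>
      ((l ^ N.factorization l : ℕ) : ℤ) ∣ X.trace - t ∧ ¬ (l : ℤ) ∣ X.det) ?_ ?_).imp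
    fun X ⟨h1, h2⟩ => ⟨h1, dvd_of_local hN fun l hl => (h2 l hl).1, fun l hl hlN =>
      (h2 l (Nat.mem_primeFactors.mpr ⟨hl, hlN, hN⟩)).2⟩
  · intro l hl
    obtain ⟨hlp, hlN, -⟩ := Nat.mem_primeFactors.mp hl
    by_cases hlg : l ∣ g
    · have hchg : ∀ i j, (g : ℤ) ∣
          (!![A 0 0 + (t - A.trace), A 0 1; A 1 0, A 1 1] : M2) i j - A i j := by
        intro i j
        fin_cases i <;> fin_cases j <;> simp
        exact (dvd_sub_comm).mp ht
      refine ⟨_, hchg, ⟨0, by simp [trace_fin_two]; ring⟩, fun hd => hA l hlp hlN ?_⟩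
      have := dvd_det_sub fun i j => (Int.natCast_dvd_natCast.mpr hlg).trans (hchg i j)
      exact (dvd_sub_right hd).mp this
    · obtain ⟨K, hK, hKT⟩ := exists_of_not_dvd hlp hlg (N.factorization l) A !![0, -1; 1, t]
      refine ⟨K, hK, ?_, fun hd => ?_⟩
      · have := dvd_trace_sub hKT
        simpa [trace_fin_two] using this
      · have h1 := dvd_det_sub fun i j => (Int.natCast_dvd_natCast.mpr (dvd_pow_self l
          (hlp.factorization_pos_of_dvd hN hlN).ne')).trans (hKT i j)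
        have h2 := (dvd_sub_right hd).mp h1
        rw [det_fin_two_of, show (0 : ℤ) * t - -1 * 1 = ((1 : ℕ) : ℤ) by norm_num,
          Int.natCast_dvd_natCast] at h2
        exact hlp.one_lt.ne' (Nat.dvd_one.mp h2)
  · rintro l hl K K' hKK ⟨ht', hd'⟩
    obtain ⟨hlp, hlN, -⟩ := Nat.mem_primeFactors.mp hl
    refine ⟨?_, fun hd => hd' ((dvd_sub_right hd).mp (dvd_det_sub fun i j =>
      (Int.natCast_dvd_natCast.mpr (dvd_pow_self l
        (hlp.factorization_pos_of_dvd hN hlN).ne')).trans (hKK i j)))⟩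
    rw [show K'.trace - t = (K'.trace - K.trace) + (K.trace - t) by ring]
    exact dvd_add (dvd_trace_sub hKK) ht'

/-- A linear congruence. -/
theorem exists_linear {a : ℤ} {P : ℕ} {D : ℤ} (h : (Int.gcd a P : ℤ) ∣ D) :
    ∃ x : ℤ, (P : ℤ) ∣ a * x - D := by
  obtain ⟨c, rfl⟩ := h
  exact ⟨Int.gcdA a P * c, -(Int.gcdB a P * c), by rw [Int.gcd_eq_gcd_ab a P]; ring⟩

/-- **The determinant at one prime dividing `g`.** -/
theorem exists_det_local {l g : ℕ} (hl : l.Prime) (hg : g ≠ 0) (n : ℕ) (K₀ : M2) (r : ℤ)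
    (h : ((Nat.gcd (l ^ n) (g ^ 2) : ℕ) : ℤ) ∣ K₀.det - r) :
    ∃ K : M2, (∀ i j, (g : ℤ) ∣ K i j - K₀ i j) ∧ ((l ^ n : ℕ) : ℤ) ∣ K.det - r := by
  obtain ⟨k, g', hlg', rfl⟩ := Nat.exists_eq_pow_mul_and_not_dvd hg l hl.ne_one
  have hgcd : Nat.gcd (l ^ n) ((l ^ k * g') ^ 2) = l ^ min n (2 * k) := by
    rw [mul_pow, ← pow_mul, mul_comm k 2,
      Nat.Coprime.gcd_mul_right_cancel_right _ (((hl.coprime_iff_not_dvd.mpr hlg').pow n 2).symm)]
    rcases le_total n (2 * k) with hle | hle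
    · rw [min_eq_left hle, Nat.gcd_eq_left (pow_dvd_pow l hle)]
    · rw [min_eq_right hle, Nat.gcd_eq_right (pow_dvd_pow l hle)]
  rw [hgcd] at h
  rcases le_or_gt n (2 * k) with hnk | hnk
  · exact ⟨K₀, fun i j => by simp, by rwa [min_eq_left hnk] at h⟩
  rw [min_eq_right hnk.le] at h
  by_cases hall : ∀ i j, ((l ^ k : ℕ) : ℤ) ∣ K₀ i j
  · choose u hu using hall
    obtain ⟨s, hs⟩ : ((l ^ (2 * k) : ℕ) : ℤ) ∣ r := by
      refine (dvd_sub_right ?_).mp h
      rw [det_fin_two, hu, hu, hu, hu, show l ^ (2 * k) = l ^ k * l ^ k by ring, Nat.cast_mul]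
      exact ⟨u 0 0 * u 1 1 - u 0 1 * u 1 0, by ring⟩
    obtain ⟨K, hK, hKT⟩ := exists_of_not_dvd hl hlg' n (Matrix.of u) !![1, 0; 0, s]
    refine ⟨((l ^ k : ℕ) : ℤ) • K, fun i j => ?_, ?_⟩
    · rw [Matrix.smul_apply, smul_eq_mul, hu, ← mul_sub, Nat.cast_mul]
      exact mul_dvd_mul_left _ (hK i j)
    · rw [det_smul, Fintype.card_fin, hs, show l ^ (2 * k) = (l ^ k) ^ 2 by ring, Nat.cast_pow _ 2,
        ← mul_sub]
      refine dvd_mul_of_dvd_right ?_ _
      have e := dvd_det_sub hKT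
      rwa [det_fin_two_of, one_mul, zero_mul, sub_zero] at e
  push Not at hall
  obtain ⟨i, j, hij⟩ := hall
  have hgc : (Int.gcd (((l ^ k * g' : ℕ) : ℤ) * K₀ i j) (l ^ n : ℕ) : ℤ) ∣
      ((l ^ (2 * k) : ℕ) : ℤ) := by
    rw [Int.natCast_dvd_natCast]
    obtain ⟨e, -, he⟩ := (Nat.dvd_prime_pow hl).mp (Int.natCast_dvd_natCast.mp
      (Int.gcd_dvd_right (((l ^ k * g' : ℕ) : ℤ) * K₀ i j) ((l ^ n : ℕ) : ℤ)))
    rw [he]
    refine pow_dvd_pow l (Nat.le_of_not_lt fun hlt => hij ?_)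
    have hd : ((l ^ e : ℕ) : ℤ) ∣ ((l ^ k * g' : ℕ) : ℤ) * K₀ i j :=
      he ▸ Int.gcd_dvd_left _ _
    rw [Int.natCast_dvd, Int.natAbs_mul, Int.natAbs_natCast, mul_assoc] at hd
    have h2 : l ^ k * l ^ k ∣ l ^ k * (g' * (K₀ i j).natAbs) :=
      (by rw [← pow_add]; exact pow_dvd_pow l (by omega) : l ^ k * l ^ k ∣ l ^ e).trans hd
    exact Int.natCast_dvd.mpr (((hl.coprime_iff_not_dvd.mpr hlg').pow_left k).dvd_of_dvd_mul_left
      (Nat.dvd_of_mul_dvd_mul_left (pow_pos hl.pos k) h2))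
  obtain ⟨x, hx⟩ := exists_linear (D := r - K₀.det) (hgc.trans ((dvd_sub_comm).mp h))
  generalize hG : ((l ^ k * g' : ℕ) : ℤ) = G at hx ⊢
  have hd0 := det_fin_two K₀
  fin_cases i <;> fin_cases j <;> simp only [Fin.zero_eta, Fin.mk_one, Fin.isValue] at hx
  · refine ⟨!![K₀ 0 0, K₀ 0 1; K₀ 1 0, K₀ 1 1 + G * x], fun a c => by
      fin_cases a <;> fin_cases c <;> simp, ?_⟩
    convert hx using 1
    rw [det_fin_two_of]; linear_combination -hd0
  · refine ⟨!![K₀ 0 0, K₀ 0 1; K₀ 1 0 - G * x, K₀ 1 1], fun a c => by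
      fin_cases a <;> fin_cases c <;> simp, ?_⟩
    convert hx using 1
    rw [det_fin_two_of]; linear_combination -hd0
  · refine ⟨!![K₀ 0 0, K₀ 0 1 - G * x; K₀ 1 0, K₀ 1 1], fun a c => by
      fin_cases a <;> fin_cases c <;> simp, ?_⟩
    convert hx using 1
    rw [det_fin_two_of]; linear_combination -hd0
  · refine ⟨!![K₀ 0 0 + G * x, K₀ 0 1; K₀ 1 0, K₀ 1 1], fun a c => by
      fin_cases a <;> fin_cases c <;> simp, ?_⟩
    convert hx using 1
    rw [det_fin_two_of]; linear_combination -hd0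

/-- **Lifting the determinant**, `1 - K` staying invertible. -/
theorem exists_lift_det {N g : ℕ} (hN : N ≠ 0) (hg : g ∣ N) (K₀ : M2) (t : ℤ)
    (hK : ∀ l : ℕ, l.Prime → l ∣ N → ¬ (l : ℤ) ∣ (1 - K₀).det)
    (ht : ((Nat.gcd N (g ^ 2) : ℕ) : ℤ) ∣ K₀.det - t) :
    ∃ K : M2, (∀ i j, (g : ℤ) ∣ K i j - K₀ i j) ∧ (N : ℤ) ∣ K.det - t ∧
      ∀ l : ℕ, l.Prime → l ∣ N → ¬ (l : ℤ) ∣ (1 - K).det := by
  have hg0 : g ≠ 0 := fun e => hN (Nat.eq_zero_of_zero_dvd (e ▸ hg))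
  refine (exists_glue hN hg K₀ (fun l K =>
      ((l ^ N.factorization l : ℕ) : ℤ) ∣ K.det - t ∧ ¬ (l : ℤ) ∣ (1 - K).det) ?_ ?_).imp
    fun K ⟨h1, h2⟩ => ⟨h1, dvd_of_local hN fun l hl => (h2 l hl).1, fun l hl hlN =>
      (h2 l (Nat.mem_primeFactors.mpr ⟨hl, hlN, hN⟩)).2⟩
  · intro l hl
    obtain ⟨hlp, hlN, -⟩ := Nat.mem_primeFactors.mp hl
    have hpow := Int.natCast_dvd_natCast.mpr
      (dvd_pow_self l (hlp.factorization_pos_of_dvd hN hlN).ne')
    by_cases hlg : l ∣ g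
    · obtain ⟨K, hK', hdet⟩ := exists_det_local hlp hg0 (N.factorization l) K₀ t
        ((Int.natCast_dvd_natCast.mpr (Nat.gcd_dvd_gcd_of_dvd_left (g ^ 2)
          (Nat.ordProj_dvd N l))).trans ht)
      exact ⟨K, hK', hdet, fun hd => hK l hlp hlN ((dvd_sub_right hd).mp (dvd_det_sub
        (dvd_one_sub fun i j => (Int.natCast_dvd_natCast.mpr hlg).trans (hK' i j))))⟩
    · obtain ⟨K, hK', hKT⟩ := exists_of_not_dvd hlp hlg (N.factorization l) K₀ !![0, -t; 1, t]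
      refine ⟨K, hK', ?_, fun hd => ?_⟩
      · have e := dvd_det_sub hKT
        rwa [det_fin_two_of, zero_mul, zero_sub, mul_one, neg_neg] at e
      · have h1 := dvd_det_sub (dvd_one_sub fun i j => hpow.trans (hKT i j))
        have h2 := (dvd_sub_right hd).mp h1
        rw [show (1 - !![0, -t; 1, t] : M2).det = ((1 : ℕ) : ℤ) by
          rw [det_fin_two]; simp, Int.natCast_dvd_natCast] at h2
        exact hlp.one_lt.ne' (Nat.dvd_one.mp h2)
  · rintro l hl K K' hKK ⟨ht', hd'⟩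
    obtain ⟨hlp, hlN, -⟩ := Nat.mem_primeFactors.mp hl
    refine ⟨?_, fun hd => hd' ((dvd_sub_right hd).mp (dvd_det_sub (dvd_one_sub fun i j =>
      (Int.natCast_dvd_natCast.mpr (dvd_pow_self l
        (hlp.factorization_pos_of_dvd hN hlN).ne')).trans (hKK i j))))⟩
    rw [show K'.det - t = (K'.det - K.det) + (K.det - t) by ring]
    exact dvd_add (dvd_det_sub hKK) ht'

end FA.ObstructionLevel
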