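import Fermat.Agent.OpenImageAll.Criterion
import Fermat.Agent.OpenImageAll.Irreducible
import Fermat.Agent.OpenImageAll.Traces
import Fermat.Agent.OpenImageJ.Main
import Fermat.Agent.Root.SummaryTorsionFieldAbelian
import Fermat.Agent.SerreLarge.Main

/-!
# An open image on every Tate module from full images at the large primes

Without a stable line the image on a Tate module is open, or it normalises a Cartan subalgebra, or
a fixed power of every element is scalar. When the image modulo all large primes is everything, the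
Frobenius elements contradict the last two.
-/

set_option autoImplicit false
set_option linter.unusedSectionVars false
set_option linter.style.haveILetI false

noncomputable section

open Matrix WeierstrassCurve FA.EC FA.Frob FA.RT FA.RT.Tate
open FA.OpenImageJ (NoStableLine)
open scoped WeierstrassCurve.Affine

local notation "Qb" => AlgebraicClosure ℚ
local notation "GQ" => AlgebraicClosure ℚ ≃ₐ[ℚ] AlgebraicClosure ℚ
local notation "M2" k => Matrix (Fin 2) (Fin 2) k

namespace FA.OpenImageAll

variable {W : WeierstrassCurve ℤ} [(ratCurve W).IsElliptic] {p : ℕ} [hp : Fact p.Prime]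

/-- Full image at the large primes excludes a Tate module inside the normaliser of a Cartan
subalgebra, unless it has a stable line. -/
theorem false_of_commute_or_anticommute (B : TateBasis p W) (hline : NoStableLine B)
    (hsurj : SurjectiveLarge W) {X : M2 ℤ_[p]} (hdet : X.det ≠ 0) (htr : X.trace = 0)
    (h : ∀ g, B.rep g * X = X * B.rep g ∨ B.rep g * X = -(X * B.rep g)) : False := by
  classical
  let H : Subgroup GQ :=
    { carrier := {g | B.rep g * X = X * B.rep g}
      one_mem' := by simp
      mul_mem' := fun {a b} ha hb => by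
        show B.rep (a * b) * X = X * B.rep (a * b)
        rw [map_mul, mul_assoc, show B.rep b * X = X * B.rep b from hb, ← mul_assoc,
          show B.rep a * X = X * B.rep a from ha, mul_assoc]
      inv_mem' := fun {a} ha => by
        show B.rep a⁻¹ * X = X * B.rep a⁻¹
        have e : B.rep a⁻¹ * B.rep a = 1 := by rw [← map_mul, inv_mul_cancel, map_one]
        have e' : B.rep a * B.rep a⁻¹ = 1 := by rw [← map_mul, mul_inv_cancel, map_one]
        calc B.rep a⁻¹ * X = B.rep a⁻¹ * (X * B.rep a) * B.rep a⁻¹ := by
              simp only [mul_assoc, e', mul_one]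
          _ = B.rep a⁻¹ * (B.rep a * X) * B.rep a⁻¹ := by
              rw [show B.rep a * X = X * B.rep a from ha]
          _ = X * B.rep a⁻¹ := by rw [← mul_assoc, e, one_mul] }
  have hX0 : X ≠ 0 := fun h0 => hdet (by rw [h0, Matrix.det_zero])
  by_cases hall : ∀ g, g ∈ H
  · -- everything commutes: complex conjugation gives a stable line
    let ι := algebraMap ℤ_[p] ℚ_[p]
    have hι : Function.Injective ι := FaithfulSMul.algebraMap_injective ℤ_[p] ℚ_[p]
    let r' : GQ →* M2 ℚ_[p] := ι.mapMatrix.toMonoidHom.comp B.rep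
    have hM : ∀ a : ℚ_[p], ι.mapMatrix X ≠ a • 1 := fun a ha => by
      have h0 := congrArg Matrix.trace ha
      rw [RingHom.mapMatrix_apply, Matrix.trace_fin_two, Matrix.map_apply, Matrix.map_apply,
        ← map_add, ← Matrix.trace_fin_two, htr, map_zero,
        Matrix.trace_smul, Matrix.trace_one, Fintype.card_fin, smul_eq_mul, eq_comm,
        mul_eq_zero] at h0
      rw [h0.resolve_right two_ne_zero, zero_smul, ← map_zero ι.mapMatrix] at ha
      exact hX0 ((Matrix.map_injective hι) ha)
    obtain ⟨v, hv, hst⟩ := FA.SerreLarge.exists_line_of_commute (two_ne_zero (α := ℚ_[p])) r' hM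
      (fun g => by
        show ι.mapMatrix (B.rep g) * ι.mapMatrix X = ι.mapMatrix X * ι.mapMatrix (B.rep g)
        rw [← map_mul, ← map_mul, show B.rep g * X = X * B.rep g from hall g])
      complexConjugation_mul_self
      (by
        show (ι.mapMatrix (B.rep _)).det = -1
        rw [← RingHom.map_det, B.det_rep, FA.TorsionField.cycP_complexConjugation, map_neg,
          map_one])
    obtain ⟨⟨b, hb⟩, hint⟩ :=
      IsLocalization.exist_integer_multiples_of_finite (nonZeroDivisors ℤ_[p]) v
    choose e he using hint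
    have he' : ι ∘ e = ι b • v := funext fun i => by
      rw [Function.comp_apply, Pi.smul_apply]
      exact (he i).trans (Algebra.smul_def b (v i))
    obtain ⟨g, hg⟩ := hline e fun h0 => hv (funext fun i => by
      have h1 := congrFun he' i
      rw [h0, Function.comp_apply, Pi.zero_apply, map_zero, eq_comm, Pi.smul_apply, smul_eq_mul,
        mul_eq_zero] at h1
      exact h1.resolve_left fun hb0 => nonZeroDivisors.ne_zero hb (hι (by rw [hb0, map_zero])))
    obtain ⟨a, ha⟩ := hst g
    refine hg (hι ?_)
    have hc : ∀ i, ι ((B.rep g *ᵥ e) i) = a * ι (e i) := fun i => by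
      rw [RingHom.map_mulVec ι (B.rep g) e i, he', mulVec_smul,
        show (B.rep g).map ι *ᵥ v = r' g *ᵥ v from rfl, ha]
      have h1 := congrFun he' i
      rw [Function.comp_apply] at h1
      rw [h1, Pi.smul_apply, Pi.smul_apply, Pi.smul_apply, smul_eq_mul, smul_eq_mul, smul_eq_mul]
      ring
    rw [map_sub, map_mul, map_mul, hc, hc, map_zero]
    ring
  · -- index two
    push Not at hall
    obtain ⟨σ, hσ⟩ := hall
    have hanti : ∀ g, g ∉ H → B.rep g * X = -(X * B.rep g) := fun g hg => (h g).resolve_left hg
    have hidx : H.index = 2 := Subgroup.index_eq_two_iff.mpr ⟨σ, fun b => by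
      have hnot : ∀ g, B.rep g * X = -(X * B.rep g) → g ∉ H := fun g hg hm => by
        rw [show B.rep g * X = X * B.rep g from hm] at hg
        refine hX0 ?_
        have h1 : (2 : ℤ_[p]) • (X * B.rep g) = 0 := by
          rw [two_smul]
          nth_rw 1 [hg]
          rw [neg_add_cancel]
        have h2 := congrArg (· * B.rep g⁻¹) ((smul_eq_zero.mp h1).resolve_left two_ne_zero)
        rwa [zero_mul, mul_assoc, ← map_mul, mul_inv_cancel, map_one, mul_one] at h2
      by_cases hb : b ∈ H
      · refine Or.inr ⟨hb, fun hbs => hσ ((H.mul_mem_cancel_left hb).mp hbs)⟩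
      · refine Or.inl ⟨?_, hb⟩
        show B.rep (b * σ) * X = X * B.rep (b * σ)
        rw [map_mul, mul_assoc, hanti σ hσ, mul_neg, ← mul_assoc, hanti b hb, neg_mul, neg_neg,
          mul_assoc]⟩
    have htr0 : ∀ g, g ∉ H → (B.rep g).trace = 0 := fun g hg => by
      have h1 := congrArg Matrix.trace (congrArg (· * X.adjugate) (hanti g hg))
      simp only [neg_mul, Matrix.trace_neg] at h1
      rw [mul_assoc, mul_adjugate, Matrix.mul_smul, mul_one, Matrix.trace_mul_cycle, adjugate_mul,
        Algebra.smul_mul_assoc, one_mul, Matrix.trace_smul, smul_eq_mul, eq_neg_iff_add_eq_zero,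
        ← two_mul, mul_eq_zero, mul_eq_zero] at h1
      exact (h1.resolve_left two_ne_zero).resolve_left hdet
    haveI : H.FiniteIndex := ⟨by omega⟩
    have hc := FA.PadicImage.continuous_rep B
    have hopen : IsOpen (H : Set GQ) := Subgroup.isOpen_of_isClosed_of_finiteIndex H
      (isClosed_eq (hc.matrix_mul continuous_const) (continuous_const.matrix_mul hc))
    obtain ⟨l, hl, hlS, hgood, hne, hF⟩ := exists_frobenius_trace_ne hsurj hidx hopen {p}
    obtain ⟨A, hA⟩ := FA.Deform.exists_liesOverPrime hl
    obtain ⟨F, hFr⟩ := FA.Deform.exists_isFrobeniusAt hl hA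
    have h1 := (B.rep_frobenius hl hA (by simpa using hlS) hgood hFr).1
    rw [htr0 F (hF A hA F hFr)] at h1
    exact hne (by exact_mod_cast h1.symm)

/-- **An open image from full images at the large primes**, if no line is stable. -/
theorem exists_level_of_surjective (B : TateBasis p W) (hline : NoStableLine B)
    (hsurj : SurjectiveLarge W) : ∃ k : ℕ, 0 < k ∧ ∀ Y : M2 ℤ_[p],
      IsUnit (1 + (p : ℤ_[p]) ^ k • Y).det → ∃ σ, B.rep σ = 1 + (p : ℤ_[p]) ^ k • Y := by
  rcases level_or_small B.rep (FA.PadicImage.isClosed_range_rep B) hline with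
    ⟨j, hj⟩ | ⟨X, hdet, htr, h⟩ | ⟨n, hn, h⟩
  · obtain ⟨k, hk⟩ := FA.PadicImage.exists_level_of_det_one B hj
    refine ⟨k + 1, k.succ_pos, fun Y => ?_⟩
    rw [pow_succ, mul_smul]
    exact hk _
  · exact (false_of_commute_or_anticommute B hline hsurj hdet htr h).elim
  · exact (false_of_pow_scalar hsurj B hn h).elim

/-- **One level for all `N`**: an equation with integral invariant and full image at the large
primes. -/
theorem exists_uniform_level (hj : ∀ l : ℕ, l.Prime → 0 ≤ padicValRat l (ratCurve W).j)
    (hsurj : SurjectiveLarge W) :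
    ∃ m : ℕ, 0 < m ∧ ∀ N : ℕ, N ≠ 0 →
      ∀ φ : Submodule.torsionBy ℤ (Pts W) (N : ℤ) ≃+ Submodule.torsionBy ℤ (Pts W) (N : ℤ),
        (∀ x, m • x.1 = 0 → φ x = x) → ∃ σ : GQ, ∀ x, σ • x.1 = (φ x).1 := by
  obtain ⟨M, hM⟩ := hsurj
  refine FA.OpenImage.exists_uniform_level_of (L₀ := M + 5) (by omega)
    (fun p _ _ B => exists_level_of_surjective B (noStableLine_of_integral B hj) ⟨M, hM⟩)
    fun l hl _ => FA.PadicImage.reachAll_of_base (by omega) fun B X hX => ?_
  obtain ⟨σ, hσ⟩ := hM l (by omega) X hX
  exact ⟨σ, (FA.PadicImage.rep_map_toZMod B σ).trans hσ⟩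

end FA.OpenImageAll

end
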