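import Fermat.Agent.OpenImageAll.SameField
import Fermat.Agent.Independence.TwistCurve
import Mathlib.NumberTheory.LegendreSymbol.JacobiSymbol

/-!
# The sign of the traces of an exceptional curve

The quadratic symbol of the isogeny character at `p`, for `d = -p`, is a sign character of Galois:
at the ordinary primes `(2 a_q / p) = (e / q)` for one squarefree `e`.
-/

set_option autoImplicit false
set_option linter.style.haveILetI false

noncomputable section

open WeierstrassCurve FA.EC FA.Frob FA.RT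
open scoped NumberTheorySymbols

local notation "Qb" => AlgebraicClosure ℚ
local notation "GQ" => AlgebraicClosure ℚ ≃ₐ[ℚ] AlgebraicClosure ℚ

namespace FA.NormalForm

open FA.CMStructure (IsExceptional)

variable {p : ℕ} [hp : Fact p.Prime]

/-- Reciprocity: `-p` is a square modulo `q` iff `q` is one modulo `p ≡ 3 mod 4`. -/
theorem isSquare_neg_iff (hp4 : p % 4 = 3) {q : ℕ} [hq : Fact q.Prime] (hq2 : q ≠ 2) (hqp : q ≠ p) :
    IsSquare ((-(p : ℤ) : ℤ) : ZMod q) ↔ IsSquare (q : ZMod p) := by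
  have hqo := hq.out.odd_of_ne_two hq2
  have hpo : Odd p := Nat.odd_iff.mpr (by omega)
  have hJ : J(-(p : ℤ) | q) = J((q : ℤ) | p) := by
    rw [jacobiSym.neg _ hqo]
    rcases Nat.odd_mod_four_iff.mp (Nat.odd_iff.mp hqo) with h | h
    · rw [ZMod.χ₄_nat_one_mod_four h, jacobiSym.quadratic_reciprocity_one_mod_four' hpo h, one_mul]
    · rw [ZMod.χ₄_nat_three_mod_four h, jacobiSym.quadratic_reciprocity_three_mod_four hp4 h,
        neg_mul_neg, one_mul]
  rw [← jacobiSym.legendreSym.to_jacobiSym, ← jacobiSym.legendreSym.to_jacobiSym] at hJ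
  have h1 : ((-(p : ℤ) : ℤ) : ZMod q) ≠ 0 := fun e => hqp
    ((Nat.prime_dvd_prime_iff_eq hq.out hp.out).mp (Int.natCast_dvd_natCast.mp
      (dvd_neg.mp ((ZMod.intCast_zmod_eq_zero_iff_dvd _ q).mp e))))
  have h2 : (((q : ℤ)) : ZMod p) ≠ 0 := fun e => hqp
    ((Nat.prime_dvd_prime_iff_eq hp.out hq.out).mp (Int.natCast_dvd_natCast.mp
      ((ZMod.intCast_zmod_eq_zero_iff_dvd _ p).mp e))).symm
  rw [← legendreSym.eq_one_iff q h1, hJ, legendreSym.eq_one_iff p h2, Int.cast_natCast]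

variable {W : WeierstrassCurve ℤ} [(ratCurve W).IsElliptic] {d : ℤ}

/-- **The symbol of the trace is that of a twist.** -/
theorem exists_twist_symbol (hE : IsExceptional W d) (hpd : (p : ℤ) ∣ d) (hp2 : p ≠ 2) :
    ∃ e : ℤ, Squarefree e ∧ ∀ q : ℕ, q.Prime → q ≠ 2 → q ≠ p → ¬ (q : ℤ) ∣ e →
      W.IsGoodPrimeFor q → W.apOfModel q ≠ 0 → J(2 * W.apOfModel q | p) = J(e | q) := by
  classical
  obtain ⟨χ, hχo, hχ⟩ := FA.SameField.exists_lineCharacter hE hpd
  let ε : GQ →* ℤˣ := (quadraticChar (ZMod p)).toUnitHom.comp χ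
  obtain ⟨e, he, hsym⟩ := FA.TwistCurve.exists_sign_eq_jacobiSym ε
    (Subgroup.isOpen_mono (H₁ := χ.ker) (fun σ hσ => by
      rw [MonoidHom.mem_ker, MonoidHom.comp_apply, MonoidHom.mem_ker.mp hσ, map_one]) hχo)
  refine ⟨e, he, fun q hq hq2 hqp hqe hg ha => ?_⟩
  obtain ⟨A, hA⟩ := FA.Deform.exists_liesOverPrime hq
  obtain ⟨σ, hσ⟩ := FA.Deform.exists_isFrobeniusAt hq hA
  obtain ⟨ht, hdet⟩ := FA.Ribet.curveRep_frobenius (p := p) hq hqp hg hA hσ
  have h := hχ σ
  rw [ht, hdet] at h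
  obtain ⟨h0, -⟩ | ⟨-, h2, -⟩ := FA.SameField.lineCharacter_frobenius hp2 hpd h fun h' =>
    FA.Exceptional.exists_disc_eq hE.sqfree hE.ne_one hE.vanish hq hg h'
  · exact absurd h0 ha
  rw [← hsym q hq hq2 hqe A hA σ hσ, ← jacobiSym.legendreSym.to_jacobiSym, legendreSym,
    Int.cast_mul, ← h2, Int.cast_ofNat, ← mul_assoc, map_mul]
  have h20 : (2 : ZMod p) ≠ 0 := fun e => hp2 ((Nat.prime_dvd_prime_iff_eq hp.out
    Nat.prime_two).mp ((ZMod.natCast_eq_zero_iff 2 p).mp (by exact_mod_cast e)))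
  rw [← sq, quadraticChar_sq_one' h20, one_mul]
  rfl

end FA.NormalForm

end
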