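import Fermat.Agent.SerreCurve.TraceResidues
import Fermat.Agent.OpenImageAll.LiftDet

/-!
# The congruence obstructions of an open image live at one level

If the image of Galois contains every automorphism of `E[N]` fixing the points killed by `m`, the
matrices congruent mod `gcd (N, m)` to that of one Frobenius element come from Galois. Among them
are matrices with every trace congruent to `a_q` mod `gcd (N, m)` and with every `det (1 - g)`
congruent to `#E(𝔽_q)` mod `gcd (N, m²)`.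
-/

set_option autoImplicit false
set_option linter.style.haveILetI false
set_option linter.unusedSectionVars false

noncomputable section

open Matrix WeierstrassCurve WeierstrassCurve.Affine FA.EC FA.Frob FA.RT FA.SerreCurve
open FA.RT.Tate (Pts)
open scoped WeierstrassCurve.Affine

local notation "Qb" => AlgebraicClosure ℚ
local notation "GQ" => AlgebraicClosure ℚ ≃ₐ[ℚ] AlgebraicClosure ℚ
local notation "M2" => Matrix (Fin 2) (Fin 2)

namespace FA.ObstructionLevel

/-- The image at every level contains the automorphisms fixing the points killed by `m`. -/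
def ContainsKernel (W : WeierstrassCurve ℤ) [(ratCurve W).IsElliptic] (m : ℕ) : Prop :=
  ∀ N : ℕ, N ≠ 0 → ∀ φ : Submodule.torsionBy ℤ ((ratCurve W)⁄Qb).Point (N : ℤ) ≃+
      Submodule.torsionBy ℤ ((ratCurve W)⁄Qb).Point (N : ℤ),
    (∀ x, m • x.1 = 0 → φ x = x) → ∃ σ : GQ, ∀ x, σ • x.1 = (φ x).1

variable {W : WeierstrassCurve ℤ} [(ratCurve W).IsElliptic] {m N : ℕ} [NeZero N]
  (b : (Fin 2 → ZMod N) ≃ₗ[ZMod N] Submodule.torsionBy ℤ ((ratCurve W)⁄Qb).Point (N : ℤ))

/-- **Congruence mod `gcd (N, m)` keeps a matrix in the image.** -/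
theorem actsBy_of_congr (hker : ContainsKernel W m) {A X : M2 (ZMod N)} (hA : ActsBy b A)
    (hX : IsUnit X.det)
    (hcongr : ∀ i j, ∃ z : ZMod N, X i j - A i j = (Nat.gcd N m : ZMod N) * z) :
    ActsBy b X := by
  obtain ⟨σ, hσ⟩ := hA
  obtain ⟨A', hA'⟩ := exists_matrix_smul b σ⁻¹
  have hAA : A * A' = 1 := Matrix.ext_of_mulVec_single fun i => b.injective
    (Subtype.ext (by rw [← mulVec_mulVec, ← hσ, ← hA', smul_inv_smul, one_mulVec]))
  have hU : IsUnit (X * A').det := by
    rw [det_mul]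
    refine hX.mul (IsUnit.of_mul_eq_one A.det ?_)
    rw [mul_comm, ← det_mul, hAA, det_one]
  obtain ⟨θ, hθ⟩ := (autGL_bijective b).2 ((Matrix.isUnit_iff_isUnit_det _).mpr hU).unit
  have eθ : autMat b θ = X * A' := congrArg Units.val hθ
  have hg : (Nat.gcd N m : ZMod N) = (Nat.gcdB N m : ZMod N) * (m : ZMod N) := by
    have e := congrArg (fun z : ℤ => (z : ZMod N)) (Nat.gcd_eq_gcd_ab N m)
    push_cast at e
    rw [e, ZMod.natCast_self]
    ring
  obtain ⟨τ, hτ⟩ := hker N (NeZero.ne N) θ.toAddEquiv fun x hx => by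
    obtain ⟨v, rfl⟩ := b.surjective x
    have hv : (m : ZMod N) • v = 0 := by
      refine b.injective (Subtype.ext ?_)
      rw [Nat.cast_smul_eq_nsmul, map_nsmul, Submodule.coe_smul_of_tower, hx, map_zero,
        Submodule.coe_zero]
    show θ (b v) = b v
    rw [← autMat_spec, eθ]
    refine congrArg b ?_
    have hw : (m : ZMod N) • (A' *ᵥ v) = 0 := by rw [← mulVec_smul, hv, mulVec_zero]
    have he : X *ᵥ (A' *ᵥ v) = A *ᵥ (A' *ᵥ v) := funext fun i => by
      obtain ⟨z₀, hz₀⟩ := hcongr i 0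
      obtain ⟨z₁, hz₁⟩ := hcongr i 1
      have w0 := congrFun hw 0
      have w1 := congrFun hw 1
      simp only [Pi.smul_apply, smul_eq_mul, Pi.zero_apply] at w0 w1
      simp only [Matrix.mulVec, dotProduct, Fin.sum_univ_two] at w0 w1 ⊢
      rw [hg] at hz₀ hz₁
      linear_combination (A' 0 0 * v 0 + A' 0 1 * v 1) * hz₀ + (A' 1 0 * v 0 + A' 1 1 * v 1) * hz₁
        + (Nat.gcdB N m : ZMod N) * z₀ * w0 + (Nat.gcdB N m : ZMod N) * z₁ * w1
    rw [← mulVec_mulVec, he, mulVec_mulVec, hAA, one_mulVec]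
  refine ⟨τ * σ, fun v => ?_⟩
  rw [mul_smul, hσ, hτ]
  show (θ (b (A *ᵥ v))).1 = _
  rw [← autMat_spec, eθ, mulVec_mulVec, Matrix.mul_assoc, mul_eq_one_comm.mp hAA, Matrix.mul_one]

/-- An integer lift of a matrix. -/
def liftInt (A : M2 (ZMod N)) : M2 ℤ := A.map fun z => (z.val : ℤ)

theorem map_liftInt (A : M2 (ZMod N)) : (liftInt A).map (Int.castRingHom (ZMod N)) = A := by
  ext i j
  simp [liftInt]

theorem intCast_det (X : M2 ℤ) :
    ((X.det : ℤ) : ZMod N) = (X.map (Int.castRingHom (ZMod N))).det :=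
  RingHom.map_det (Int.castRingHom (ZMod N)) X

theorem intCast_trace (X : M2 ℤ) :
    ((X.trace : ℤ) : ZMod N) = (X.map (Int.castRingHom (ZMod N))).trace := by
  simp [trace_fin_two]

theorem map_one_sub (X : M2 ℤ) :
    (1 - X).map (Int.castRingHom (ZMod N)) = 1 - X.map (Int.castRingHom (ZMod N)) :=
  (Matrix.map_sub _ (map_sub _) 1 X).trans (by rw [Matrix.map_one _ (map_zero _) (map_one _)])

/-- The determinant of `1 - M` from trace and determinant. -/
theorem det_one_sub {R : Type*} [CommRing R] (M : M2 R) :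
    (1 - M).det = 1 - M.trace + M.det := by
  rw [det_fin_two, det_fin_two, trace_fin_two]
  simp
  ring

/-- The determinant of a lift of an invertible matrix is prime to the level. -/
theorem not_dvd_det_of_isUnit {X : M2 ℤ} (hX : IsUnit (X.map (Int.castRingHom (ZMod N))).det)
    {l : ℕ} (hl : l.Prime) (hlN : l ∣ N) : ¬ (l : ℤ) ∣ X.det := fun hd => by
  haveI := Fact.mk hl
  have h := hX.map (ZMod.castHom hlN (ZMod l))
  rw [← intCast_det, map_intCast, (ZMod.intCast_zmod_eq_zero_iff_dvd _ l).mpr hd] at h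
  exact h.ne_zero rfl

/-- A matrix prime to the level is invertible modulo it. -/
theorem isUnit_det_of_not_dvd {X : M2 ℤ} (h : ∀ l : ℕ, l.Prime → l ∣ N → ¬ (l : ℤ) ∣ X.det) :
    IsUnit (X.map (Int.castRingHom (ZMod N))).det := by
  rw [← intCast_det]
  have hc : Nat.Coprime X.det.natAbs N :=
    Nat.coprime_of_dvd fun l hl hd hlN => h l hl hlN (Int.natCast_dvd.mpr hd)
  rcases Int.natAbs_eq X.det with e | e
  · rw [e, Int.cast_natCast]; exact (ZMod.isUnit_iff_coprime _ _).mpr hc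
  · rw [e, Int.cast_neg, Int.cast_natCast]; exact ((ZMod.isUnit_iff_coprime _ _).mpr hc).neg

variable {q : ℕ} (hq : q.Prime) (hgood : W.IsGoodPrimeFor q) (hqN : ¬ q ∣ N)
include b hq hgood hqN

/-- **Traces**: one good prime with `a_q ≡ t` mod `gcd (N, m)` gives infinitely many mod `N`. -/
theorem infinite_trace_of_congr (hker : ContainsKernel W m) {t : ℤ}
    (ht : ((Nat.gcd N m : ℕ) : ℤ) ∣ W.apOfModel q - t) :
    {p : ℕ | p.Prime ∧ (N : ℤ) ∣ W.apOfModel p - t}.Infinite := by
  obtain ⟨V, hV⟩ := FA.Deform.exists_liesOverPrime hq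
  obtain ⟨τ, hτ⟩ := FA.Deform.exists_isFrobeniusAt hq hV
  obtain ⟨A, hA⟩ := exists_matrix_smul b τ
  have htr := trace_of_frobenius b hq hV hgood hτ hqN hA
  have hdiv : ((Nat.gcd N m : ℕ) : ℤ) ∣ (liftInt A).trace - t := by
    have e : (N : ℤ) ∣ (liftInt A).trace - W.apOfModel q := by
      rw [← ZMod.intCast_zmod_eq_zero_iff_dvd, Int.cast_sub, intCast_trace, map_liftInt, htr,
        sub_self]
    rw [show (liftInt A).trace - t = ((liftInt A).trace - W.apOfModel q) + (W.apOfModel q - t) by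
      ring]
    exact dvd_add ((Int.natCast_dvd_natCast.mpr (Nat.gcd_dvd_left N m)).trans e) ht
  obtain ⟨X, hX, hXt, hXd⟩ := exists_lift_trace (NeZero.ne N) (Nat.gcd_dvd_left N m) (liftInt A) t
    (fun l hl hlN => not_dvd_det_of_isUnit (by
      rw [map_liftInt]; exact isUnit_det_of_actsBy b ⟨τ, hA⟩) hl hlN) hdiv
  have hact : ActsBy b (X.map (Int.castRingHom (ZMod N))) :=
    actsBy_of_congr b hker ⟨τ, hA⟩ (isUnit_det_of_not_dvd hXd) fun i j => by
      obtain ⟨z, hz⟩ := hX i j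
      refine ⟨(z : ZMod N), ?_⟩
      have e := congrArg (fun z : ℤ => (z : ZMod N)) hz
      simpa [liftInt] using e
  refine (infinite_of_actsBy b hact).mono fun p hp => ⟨hp.1, ?_⟩
  rw [← ZMod.intCast_zmod_eq_zero_iff_dvd, Int.cast_sub, hp.2.1, ← intCast_trace, ← Int.cast_sub,
    ZMod.intCast_zmod_eq_zero_iff_dvd]
  exact hXt

/-- **Point counts**: one good prime with `#E(𝔽_q) ≡ t` mod `gcd (N, m²)` gives infinitely many
mod `N`. -/
theorem infinite_count_of_congr (hker : ContainsKernel W m) {t : ℤ}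
    (ht : ((Nat.gcd N (m ^ 2) : ℕ) : ℤ) ∣ (q : ℤ) + 1 - W.apOfModel q - t) :
    {p : ℕ | p.Prime ∧ (N : ℤ) ∣ (p : ℤ) + 1 - W.apOfModel p - t}.Infinite := by
  obtain ⟨V, hV⟩ := FA.Deform.exists_liesOverPrime hq
  obtain ⟨τ, hτ⟩ := FA.Deform.exists_isFrobeniusAt hq hV
  obtain ⟨A, hA⟩ := exists_matrix_smul b τ
  have htr := trace_of_frobenius b hq hV hgood hτ hqN hA
  have hdet := det_of_frobenius b hq hV hτ hqN hA
  set g := Nat.gcd N m with hg
  have hgg : Nat.gcd N (g ^ 2) ∣ Nat.gcd N (m ^ 2) :=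
    Nat.gcd_dvd_gcd_of_dvd_right _ (pow_dvd_pow_of_dvd (Nat.gcd_dvd_right N m) 2)
  have hdiv : ((Nat.gcd N (g ^ 2) : ℕ) : ℤ) ∣ (1 - liftInt A).det - t := by
    have e : (N : ℤ) ∣ (1 - liftInt A).det - ((q : ℤ) + 1 - W.apOfModel q) := by
      rw [← ZMod.intCast_zmod_eq_zero_iff_dvd, Int.cast_sub, det_one_sub, Int.cast_add,
        Int.cast_sub, intCast_det, intCast_trace, map_liftInt, Int.cast_sub, Int.cast_add,
        Int.cast_natCast, Int.cast_one, htr, hdet]
      ring
    rw [show (1 - liftInt A).det - t = ((1 - liftInt A).det - ((q : ℤ) + 1 - W.apOfModel q)) +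
      ((q : ℤ) + 1 - W.apOfModel q - t) by ring]
    exact dvd_add ((Int.natCast_dvd_natCast.mpr (Nat.gcd_dvd_left _ _)).trans e)
      ((Int.natCast_dvd_natCast.mpr hgg).trans ht)
  obtain ⟨K, hK, hKt, hKd⟩ := exists_lift_det (NeZero.ne N) (Nat.gcd_dvd_left N m) (1 - liftInt A) t
    (fun l hl hlN => by
      rw [sub_sub_cancel]
      exact not_dvd_det_of_isUnit (by rw [map_liftInt]; exact isUnit_det_of_actsBy b ⟨τ, hA⟩)
        hl hlN) hdiv
  have hact : ActsBy b ((1 - K).map (Int.castRingHom (ZMod N))) :=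
    actsBy_of_congr b hker ⟨τ, hA⟩ (isUnit_det_of_not_dvd hKd) fun i j => by
      obtain ⟨z, hz⟩ := hK i j
      refine ⟨-(z : ZMod N), ?_⟩
      have e := congrArg (fun z : ℤ => (z : ZMod N)) hz
      rcases eq_or_ne i j with rfl | hij
      · simp [liftInt] at e ⊢
        linear_combination -e
      · simp [liftInt, hij] at e ⊢
        linear_combination -e
  refine (infinite_of_actsBy b hact).mono fun p hp => ⟨hp.1, ?_⟩
  rw [← ZMod.intCast_zmod_eq_zero_iff_dvd, Int.cast_sub, Int.cast_sub, Int.cast_add,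
    Int.cast_natCast, Int.cast_one, hp.2.1, hp.2.2]
  have e := (ZMod.intCast_zmod_eq_zero_iff_dvd _ N).mpr hKt
  rw [Int.cast_sub, intCast_det] at e
  rw [map_one_sub, ← e, show K.map (Int.castRingHom (ZMod N)) =
    1 - (1 - K.map (Int.castRingHom (ZMod N))) by rw [sub_sub_cancel]]
  rw [det_one_sub (1 - K.map (Int.castRingHom (ZMod N))), sub_sub_cancel]
  ring

end FA.ObstructionLevel

end
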