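import Fermat.Agent.OpenImageAll.CartanImage

/-!
# Orbits on the nonzero vectors

All of `GL₂(𝔽_p)`, and the normaliser of a non-split Cartan subgroup, are transitive on the
`p² - 1` nonzero vectors. The normaliser of a split one has two orbits: the two eigenlines without
the origin, of `2 (p - 1)` elements, and their complement, of `(p - 1)²`.
-/

set_option autoImplicit false
set_option linter.unusedSectionVars false

noncomputable section

open Matrix FA.CartanImage

local notation "M2" => Matrix (Fin 2) (Fin 2)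

namespace FA.PointOrbit

variable {k : Type*} [Field k]

/-- An invertible matrix has no kernel. -/
theorem eq_zero_of_mulVec_eq_zero {M : M2 k} (hM : M.det ≠ 0) {v : Fin 2 → k}
    (h : M *ᵥ v = 0) : v = 0 :=
  by_contra fun hv => hM (exists_mulVec_eq_zero_iff.mp ⟨v, hv, h⟩)

/-- Invertible matrices move any nonzero vector to any other. -/
theorem exists_det_ne_zero_mulVec_eq {v w : Fin 2 → k} (hv : v ≠ 0) (hw : w ≠ 0) :
    ∃ M : M2 k, M.det ≠ 0 ∧ M *ᵥ v = w := by
  have key : ∀ u : Fin 2 → k, u ≠ 0 → ∃ B : M2 k, B.det ≠ 0 ∧ B *ᵥ ![1, 0] = u := fun u hu => by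
    by_cases h0 : u 0 = 0
    · refine ⟨!![u 0, 1; u 1, 0], ?_, by ext i; fin_cases i <;> simp⟩
      simp only [det_fin_two_of, h0, zero_mul, one_mul, zero_sub, neg_ne_zero]
      exact fun h1 => hu (funext fun i => by fin_cases i <;> assumption)
    · exact ⟨!![u 0, 0; u 1, 1], by simpa [det_fin_two_of] using h0,
        by ext i; fin_cases i <;> simp⟩
  obtain ⟨B, hB, rfl⟩ := key v hv
  obtain ⟨C, hC, rfl⟩ := key w hw
  refine ⟨C * B⁻¹, ?_, ?_⟩
  · rw [det_mul, det_nonsing_inv]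
    exact mul_ne_zero hC (by simpa using hB)
  · rw [mulVec_mulVec, mul_assoc, nonsing_inv_mul _ (isUnit_iff_ne_zero.mpr hB), mul_one]

variable {Y : M2 k} {δ : k}

/-- A commutant that is a field moves any nonzero vector to any other. -/
theorem exists_commute_mulVec_eq [Fintype k] [DecidableEq k] (hYY : Y * Y = δ • 1)
    (hY : ∀ a : k, Y ≠ a • 1) (hsq : ¬ IsSquare δ) {v w : Fin 2 → k} (hv : v ≠ 0) (hw : w ≠ 0) :
    ∃ M : M2 k, M.det ≠ 0 ∧ M * Y = Y * M ∧ M *ᵥ v = w := by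
  let L : k × k →+ (Fin 2 → k) := AddMonoidHom.mk' (fun ab => (ab.1 • Y + ab.2 • 1) *ᵥ v)
    fun x y => by
      rw [← add_mulVec]
      congr 1
      simp only [Prod.fst_add, Prod.snd_add, add_smul]
      abel
  have hL : Function.Injective L := (injective_iff_map_eq_zero L).mpr fun x hx => by
    by_contra hne
    refine hv (eq_zero_of_mulVec_eq_zero (det_combo_ne_zero hYY hY hsq ?_) hx)
    by_contra h
    push Not at h
    exact hne (Prod.ext h.1 h.2)
  obtain ⟨x, hx⟩ := ((Fintype.bijective_iff_injective_and_card L).mpr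
    ⟨hL, by simp [Fintype.card_prod, pow_two]⟩).2 w
  refine ⟨x.1 • Y + x.2 • 1, det_combo_ne_zero hYY hY hsq ?_,
    ((Commute.refl Y).smul_left x.1).add_left ((Commute.one_left Y).smul_left x.2), hx⟩
  by_contra h
  push Not at h
  exact hw (by rw [← hx, show x = 0 from Prod.ext h.1 h.2, map_zero])

section Image

variable {p : ℕ} [hp : Fact p.Prime] {G : Type*} [Group G] {r : G →* M2 (ZMod p)}

theorem det_ne_zero_image (σ : G) : (r σ).det ≠ 0 := fun h => by
  have := congrArg Matrix.det (map_mul r σ σ⁻¹)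
  rw [mul_inv_cancel, map_one, det_one, det_mul, h, zero_mul] at this
  exact one_ne_zero this

/-- The nonzero vectors. -/
theorem ncard_nonzero : ({0}ᶜ : Set (Fin 2 → ZMod p)).ncard = p ^ 2 - 1 := by
  rw [Set.ncard_compl, Nat.card_eq_fintype_card, Fintype.card_fun, ZMod.card,
    Fintype.card_fin, Set.ncard_singleton]

/-- A transitive image has one orbit of nonzero vectors. -/
theorem ncard_orbit_of_transitive {v : Fin 2 → ZMod p} (hv : v ≠ 0)
    (htr : ∀ w, w ≠ 0 → ∃ σ, r σ *ᵥ v = w) :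
    (Set.range fun σ => r σ *ᵥ v).ncard = p ^ 2 - 1 := by
  refine (congrArg Set.ncard ?_).trans ncard_nonzero
  ext w
  rw [Set.mem_range, Set.mem_compl_iff, Set.mem_singleton_iff]
  refine ⟨?_, fun hw => htr w hw⟩
  rintro ⟨σ, rfl⟩ h
  exact hv (eq_zero_of_mulVec_eq_zero (det_ne_zero_image (r := r) σ) h)

/-- All invertible matrices: one orbit. -/
theorem ncard_orbit_full (hfull : ∀ M : M2 (ZMod p), M.det ≠ 0 → ∃ σ, r σ = M)
    {v : Fin 2 → ZMod p} (hv : v ≠ 0) : (Set.range fun σ => r σ *ᵥ v).ncard = p ^ 2 - 1 :=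
  ncard_orbit_of_transitive hv fun w hw => by
    obtain ⟨M, hM, hMv⟩ := exists_det_ne_zero_mulVec_eq hv hw
    obtain ⟨σ, hσ⟩ := hfull M hM
    exact ⟨σ, by rw [hσ, hMv]⟩

variable {Y : M2 (ZMod p)}

/-- The normaliser of a non-split Cartan subgroup: one orbit. -/
theorem ncard_orbit_nonsplit {δ : ZMod p} (hYY : Y * Y = δ • 1) (hY : ∀ a : ZMod p, Y ≠ a • 1)
    (hsq : ¬ IsSquare δ) (hc : ∀ M : M2 (ZMod p), M.det ≠ 0 → M * Y = Y * M → ∃ σ, r σ = M)
    {v : Fin 2 → ZMod p} (hv : v ≠ 0) : (Set.range fun σ => r σ *ᵥ v).ncard = p ^ 2 - 1 :=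
  ncard_orbit_of_transitive hv fun w hw => by
    obtain ⟨M, hM, hMY, hMv⟩ := exists_commute_mulVec_eq hYY hY hsq hv hw
    obtain ⟨σ, hσ⟩ := hc M hM hMY
    exact ⟨σ, by rw [hσ, hMv]⟩

/-- **The normaliser of a split Cartan subgroup**: two orbits, of `2 (p - 1)` and `(p - 1)²`
elements. -/
theorem ncard_orbit_split (h2 : (2 : ZMod p) ≠ 0) {c : ZMod p} (hc0 : c ≠ 0)
    (hYY : Y * Y = c ^ 2 • 1) (hY : ∀ a : ZMod p, Y ≠ a • 1)
    (hpm : ∀ σ, r σ * Y = Y * r σ ∨ r σ * Y = -(Y * r σ)) {τ : G}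
    (hτ : r τ * Y = -(Y * r τ))
    (hc : ∀ M : M2 (ZMod p), M.det ≠ 0 → M * Y = Y * M → ∃ σ, r σ = M) :
    (∀ v : Fin 2 → ZMod p, v ≠ 0 → (Set.range fun σ => r σ *ᵥ v).ncard = 2 * (p - 1) ∨
      (Set.range fun σ => r σ *ᵥ v).ncard = (p - 1) ^ 2) ∧
    ∃ v : Fin 2 → ZMod p, v ≠ 0 ∧ (Set.range fun σ => r σ *ᵥ v).ncard = 2 * (p - 1) := by
  -- eigenvectors for the two eigenvalues
  have heig : ∀ e : ZMod p, e ^ 2 = c ^ 2 → ∃ v, v ≠ 0 ∧ Y *ᵥ v = e • v := fun e he => by
    obtain ⟨u, hu⟩ : ∃ u, (Y + e • 1) *ᵥ u ≠ 0 := by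
      by_contra h
      push Not at h
      exact hY (-e) (by
        rw [neg_smul, eq_neg_iff_add_eq_zero]
        exact Matrix.ext_iff_mulVec.mpr fun u => by rw [h u, zero_mulVec])
    refine ⟨_, hu, ?_⟩
    simp only [add_mulVec, mulVec_add, smul_mulVec, one_mulVec, mulVec_smul, mulVec_mulVec, hYY,
      smul_add, smul_smul, ← pow_two, he]
    exact add_comm _ _
  obtain ⟨a, ha0, ha⟩ := heig c rfl
  obtain ⟨b, hb0, hb⟩ := heig (-c) (by ring)
  let Φ : ZMod p × ZMod p →+ (Fin 2 → ZMod p) :=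
    AddMonoidHom.mk' (fun x => x.1 • a + x.2 • b) fun x y => by
      simp only [Prod.fst_add, Prod.snd_add, add_smul]
      abel
  have hYΦ : ∀ x : ZMod p × ZMod p, Y *ᵥ Φ x = c • Φ (x.1, -x.2) := fun x => by
    simp only [Φ, AddMonoidHom.mk'_apply, mulVec_add, mulVec_smul, ha, hb]
    module
  have hinj : Function.Injective Φ := (injective_iff_map_eq_zero Φ).mpr fun x hx => by
    have h1 := hYΦ x
    rw [hx, mulVec_zero, eq_comm, smul_eq_zero] at h1
    have h1 := h1.resolve_left hc0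
    simp only [Φ, AddMonoidHom.mk'_apply] at hx h1
    have hxa : (2 * x.1) • a = 0 := by linear_combination (norm := module) hx + h1
    have hxb : (2 * x.2) • b = 0 := by linear_combination (norm := module) hx - h1
    exact Prod.ext ((mul_eq_zero.mp ((smul_eq_zero.mp hxa).resolve_right ha0)).resolve_left h2)
      ((mul_eq_zero.mp ((smul_eq_zero.mp hxb).resolve_right hb0)).resolve_left h2)
  have hsurj : Function.Surjective Φ := ((Fintype.bijective_iff_injective_and_card Φ).mpr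
    ⟨hinj, by simp [Fintype.card_prod, pow_two]⟩).2
  -- the eigenvectors, in these coordinates
  let IsEig : (Fin 2 → ZMod p) → Prop := fun w => Y *ᵥ w = c • w ∨ Y *ᵥ w = -(c • w)
  have heigΦ : ∀ x, IsEig (Φ x) ↔ x.2 = 0 ∨ x.1 = 0 := fun x => by
    simp only [IsEig, hYΦ, ← smul_neg, (smul_right_injective _ hc0).eq_iff, ← map_neg,
      hinj.eq_iff, Prod.ext_iff, Prod.fst_neg, Prod.snd_neg, true_and, and_true]
    refine or_congr ?_ ?_ <;>
      exact ⟨fun h => (mul_eq_zero.mp (show (2 : ZMod p) * _ = 0 by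
          first | linear_combination -h | linear_combination h)).resolve_left h2,
        fun h => by rw [h, neg_zero]⟩
  have hinv : ∀ σ w, IsEig (r σ *ᵥ w) ↔ IsEig w := by
    have h1 : ∀ σ w, IsEig w → IsEig (r σ *ᵥ w) := fun σ w hw => by
      have e : Y *ᵥ (r σ *ᵥ w) = r σ *ᵥ (Y *ᵥ w) ∨ Y *ᵥ (r σ *ᵥ w) = -(r σ *ᵥ (Y *ᵥ w)) := by
        simp only [mulVec_mulVec]
        rcases hpm σ with h | h
        · exact Or.inl (by rw [h])
        · exact Or.inr (by rw [h, neg_mulVec, neg_neg])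
      show Y *ᵥ (r σ *ᵥ w) = _ ∨ Y *ᵥ (r σ *ᵥ w) = _
      rcases hw with hw | hw <;> rcases e with e | e <;>
        rw [e, hw] <;>
        simp only [mulVec_smul, mulVec_neg, neg_neg, true_or, or_true]
    refine fun σ w => ⟨fun h => ?_, h1 σ w⟩
    have h3 := h1 σ⁻¹ _ h
    rwa [mulVec_mulVec, ← map_mul, inv_mul_cancel, map_one, one_mulVec] at h3
  -- the torus acts on the coordinates
  have htorus : ∀ u v : ZMod p, u ≠ 0 → v ≠ 0 →
      ∃ σ, ∀ x, r σ *ᵥ Φ x = Φ (u * x.1, v * x.2) := fun u v hu hv => by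
    have hcom : FA.CartanImage.diag Y c u v * Y = Y * FA.CartanImage.diag Y c u v := by
      simp only [FA.CartanImage.diag, add_mul, mul_add, smul_mul_assoc, mul_smul_comm, one_mul,
        mul_one]
    obtain ⟨σ, hσ⟩ := hc _ (by rw [det_diag h2 hc0 hYY hY]; exact mul_ne_zero hu hv) hcom
    refine ⟨σ, fun x => ?_⟩
    rw [hσ, FA.CartanImage.diag, add_mulVec, smul_mulVec, one_mulVec, smul_mulVec, hYΦ]
    simp only [Φ, AddMonoidHom.mk'_apply]
    match_scalars <;> field_simp <;> ring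
  obtain ⟨e, he⟩ := hsurj (r τ *ᵥ a)
  have he0 : e.1 = 0 ∧ e.2 ≠ 0 := by
    have h1 : Y *ᵥ (r τ *ᵥ a) = -(c • (r τ *ᵥ a)) := by
      rw [mulVec_mulVec, show Y * r τ = -(r τ * Y) by rw [hτ, neg_neg], neg_mulVec,
        ← mulVec_mulVec, ha, mulVec_smul]
    rw [← he, hYΦ, ← smul_neg, (smul_right_injective _ hc0).eq_iff, ← map_neg, hinj.eq_iff,
      Prod.ext_iff] at h1
    simp only [Prod.fst_neg, Prod.snd_neg] at h1
    have e1 : e.1 = 0 :=
      (mul_eq_zero.mp (show (2 : ZMod p) * e.1 = 0 by linear_combination h1.1)).resolve_left h2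
    refine ⟨e1, fun e2 => ha0 (eq_zero_of_mulVec_eq_zero (det_ne_zero_image (r := r) τ) ?_)⟩
    rw [← he, show e = 0 from Prod.ext e1 e2, map_zero]
  have hunits : ({0}ᶜ : Set (ZMod p)).ncard = p - 1 := by
    rw [Set.ncard_compl, Nat.card_eq_fintype_card, ZMod.card, Set.ncard_singleton]
  have horbit : ∀ v : Fin 2 → ZMod p, v ≠ 0 →
      (IsEig v → (Set.range fun σ => r σ *ᵥ v).ncard = 2 * (p - 1)) ∧
      (¬ IsEig v → (Set.range fun σ => r σ *ᵥ v).ncard = (p - 1) ^ 2) := by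
    intro v hv
    obtain ⟨x, rfl⟩ := hsurj v
    have hx : x ≠ 0 := fun h => hv (by rw [h, map_zero])
    have hne : ∀ σ, r σ *ᵥ Φ x ≠ 0 := fun σ h =>
      hv (eq_zero_of_mulVec_eq_zero (det_ne_zero_image (r := r) σ) h)
    constructor <;> intro hE
    · -- some conjugate lies on the first line
      obtain ⟨y, hy, σ, hσ⟩ : ∃ y, y ≠ 0 ∧ ∃ σ, r σ *ᵥ Φ x = Φ (y, 0) := by
        rcases (heigΦ x).mp hE with h | h
        · exact ⟨x.1, fun h' => hx (Prod.ext h' h), 1, by rw [map_one, one_mulVec, ← h]⟩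
        · obtain ⟨σ, hσ⟩ := htorus 1 (e.2 / x.2) one_ne_zero
            (div_ne_zero he0.2 fun h' => hx (Prod.ext h h'))
          refine ⟨1, one_ne_zero, τ⁻¹ * σ, ?_⟩
          rw [map_mul, ← mulVec_mulVec, hσ, h, mul_zero, div_mul_cancel₀ _ fun h' => hx (Prod.ext h h'),
            show ((0, e.2) : ZMod p × ZMod p) = e from Prod.ext he0.1.symm rfl, he, mulVec_mulVec,
            ← map_mul, inv_mul_cancel, map_one, one_mulVec]
          simp [Φ]
      have hS : (Set.range fun σ => r σ *ᵥ Φ x) =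
          Φ '' (({0}ᶜ : Set (ZMod p)) ×ˢ {0} ∪ {0} ×ˢ ({0}ᶜ : Set (ZMod p))) := by
        refine Set.Subset.antisymm ?_ ?_
        · rintro _ ⟨g, rfl⟩
          obtain ⟨z, hz⟩ := hsurj (r g *ᵥ Φ x)
          have hz0 : z ≠ 0 := fun h => hne g (by rw [← hz, h, map_zero])
          refine ⟨z, ?_, hz⟩
          rcases (heigΦ z).mp (hz ▸ (hinv g _).mpr hE) with h | h
          · exact Or.inl ⟨fun h' => hz0 (Prod.ext h' h), h⟩
          · exact Or.inr ⟨h, fun h' => hz0 (Prod.ext h h')⟩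
        · rintro _ ⟨z, hz | hz, rfl⟩
          · obtain ⟨g, hg⟩ := htorus (z.1 / y) 1 (div_ne_zero hz.1 hy) one_ne_zero
            exact ⟨g * σ, by
              show r (g * σ) *ᵥ Φ x = Φ z
              rw [map_mul, ← mulVec_mulVec, hσ, hg, div_mul_cancel₀ _ hy, mul_zero, ← hz.2]⟩
          · obtain ⟨g, hg⟩ := htorus (1 / y) 1 (div_ne_zero one_ne_zero hy) one_ne_zero
            obtain ⟨g', hg'⟩ := htorus 1 (z.2 / e.2) one_ne_zero (div_ne_zero hz.2 he0.2)
            exact ⟨g' * (τ * (g * σ)), by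
              show r (g' * (τ * (g * σ))) *ᵥ Φ x = Φ z
              rw [map_mul, map_mul, map_mul, ← mulVec_mulVec, ← mulVec_mulVec, ← mulVec_mulVec, hσ,
                hg, div_mul_cancel₀ _ hy, mul_zero, show Φ (1, 0) = a by simp [Φ], ← he, hg',
                div_mul_cancel₀ _ he0.2, he0.1, mul_zero, ← hz.1]⟩
      rw [hS, Set.ncard_image_of_injective _ hinj, Set.ncard_union_eq (Set.disjoint_left.mpr
        fun z h h' => h.1 h'.1), Set.ncard_prod, Set.ncard_prod, Set.ncard_singleton, hunits]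
      ring
    · rw [heigΦ, not_or] at hE
      have hS : (Set.range fun σ => r σ *ᵥ Φ x) =
          Φ '' (({0}ᶜ : Set (ZMod p)) ×ˢ ({0}ᶜ : Set (ZMod p))) := by
        refine Set.Subset.antisymm ?_ ?_
        · rintro _ ⟨g, rfl⟩
          obtain ⟨z, hz⟩ := hsurj (r g *ᵥ Φ x)
          have hz' : ¬ (z.2 = 0 ∨ z.1 = 0) := by
            rw [← heigΦ, hz, hinv, heigΦ, not_or]
            exact hE
          rw [not_or] at hz'
          exact ⟨z, ⟨hz'.2, hz'.1⟩, hz⟩
        · rintro _ ⟨z, hz, rfl⟩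
          obtain ⟨g, hg⟩ := htorus (z.1 / x.1) (z.2 / x.2) (div_ne_zero hz.1 hE.2)
            (div_ne_zero hz.2 hE.1)
          exact ⟨g, (hg x).trans (by rw [div_mul_cancel₀ _ hE.2, div_mul_cancel₀ _ hE.1])⟩
      rw [hS, Set.ncard_image_of_injective _ hinj, Set.ncard_prod, hunits, pow_two]
  refine ⟨fun v hv => ?_, a, ha0, (horbit a ha0).1 (Or.inl ha)⟩
  by_cases h : IsEig v
  exacts [Or.inl ((horbit v hv).1 h), Or.inr ((horbit v hv).2 h)]

end Image

end FA.PointOrbit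

end
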