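import Fermat.Agent.OpenImageAll.CMStructure
import Fermat.Agent.OpenImageAll.Deuring
import Fermat.Agent.Independence.Twist

/-!
# Two exceptional curves with one field

For `p ∣ d` Galois acts on a stable line of the `p`-torsion by a character `χ` with
`χ(F)² = ± q` at almost all Frobenius elements, the sign being that of the splitting in `ℚ(√d)`.
For two curves the ratio of the characters is thus quadratic, and, as `4 q = a² + p b²` determines
`a²`, it is the sign relating the traces.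
-/

set_option autoImplicit false
set_option linter.unusedSectionVars false
set_option linter.style.haveILetI false

noncomputable section

open Matrix WeierstrassCurve FA.EC FA.Frob FA.RT

local notation "Qb" => AlgebraicClosure ℚ
local notation "GQ" => AlgebraicClosure ℚ ≃ₐ[ℚ] AlgebraicClosure ℚ
local notation "M2" => Matrix (Fin 2) (Fin 2)

namespace FA.SameField

open FA.CMStructure (IsExceptional)

/-- A representation of `4 l` as `a² + D b²`, `D ≥ 5` odd, determines `a²`. -/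
theorem sq_eq_of_norm {D a b a' b' : ℤ} {l : ℕ} (hl : l.Prime) (hl2 : l ≠ 2) (hD : 5 ≤ D)
    (hodd : Odd D) (e : a ^ 2 + D * b ^ 2 = 4 * l) (e' : a' ^ 2 + D * b' ^ 2 = 4 * l) :
    a ^ 2 = a' ^ 2 := by
  have hp := Nat.prime_iff_prime_int.mp hl
  have hpar : ∀ {x y : ℤ}, x ^ 2 + D * y ^ 2 = 4 * l → (2 : ℤ) ∣ x + y := fun {x y} h => by
    obtain ⟨m, rfl⟩ := hodd
    exact Int.prime_two.dvd_of_dvd_pow (n := 2) ⟨2 * l + x * y - m * y ^ 2, by linear_combination h⟩
  have main : ∀ a' : ℤ, a' ^ 2 + D * b' ^ 2 = 4 * l → (l : ℤ) ∣ a * b' - a' * b →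
      a ^ 2 = a' ^ 2 := fun a' e' hdvd => by
    obtain ⟨k, hk⟩ := hdvd
    obtain ⟨j, rfl⟩ : (2 : ℤ) ∣ k := by
      obtain ⟨u, hu⟩ := hpar e
      obtain ⟨v, hv⟩ := hpar e'
      have h2 : (2 : ℤ) ∣ (l : ℤ) * k :=
        ⟨u * b' - v * b, by linear_combination -hk + b' * hu - b * hv⟩
      exact (Int.prime_two.dvd_or_dvd h2).resolve_left fun h => hl2
        ((Nat.prime_dvd_prime_iff_eq Nat.prime_two hl).mp (Int.natCast_dvd_natCast.mp h)).symm
    have hid : 16 * (l : ℤ) ^ 2 = (a * a' + D * b * b') ^ 2 + 4 * D * j ^ 2 * (l : ℤ) ^ 2 := by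
      linear_combination (-4 * (l : ℤ)) * e' - (a' ^ 2 + D * b' ^ 2) * e +
        D * (a * b' - a' * b + l * (2 * j)) * hk
    have hj : j = 0 := by
      by_contra hj
      have h1 : 1 ≤ j ^ 2 := by
        have : 0 < j ^ 2 := by positivity
        omega
      have hl0 : (0 : ℤ) < (l : ℤ) ^ 2 := by
        have := hl.pos
        positivity
      nlinarith [sq_nonneg (a * a' + D * b * b'), mul_le_mul hD h1 zero_le_one (by linarith)]
    subst hj
    rw [mul_zero, mul_zero, sub_eq_zero] at hk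
    have hl0 : (4 * (l : ℤ)) ≠ 0 := mul_ne_zero (by norm_num) (Int.natCast_ne_zero.mpr hl.ne_zero)
    refine mul_right_cancel₀ hl0 ?_
    linear_combination (-a ^ 2) * e' + a' ^ 2 * e + D * (a * b' + a' * b) * hk
  have h : (l : ℤ) ∣ (a * b' - a' * b) * (a * b' - -a' * b) :=
    ⟨4 * (b' ^ 2 - b ^ 2), by linear_combination b' ^ 2 * e - b ^ 2 * e'⟩
  rcases hp.dvd_or_dvd h with h | h
  · exact main a' e' h
  · rw [← neg_sq a']
    exact main (-a') (by rw [neg_sq]; exact e') h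

variable {p : ℕ} [hp : Fact p.Prime] {d : ℤ}

/-- **The isogeny character** at a prime dividing `d`. -/
theorem exists_lineCharacter {W : WeierstrassCurve ℤ} [(ratCurve W).IsElliptic]
    (hE : IsExceptional W d) (hpd : (p : ℤ) ∣ d) :
    ∃ χ : GQ →* (ZMod p)ˣ, IsOpen (χ.ker : Set GQ) ∧ ∀ g, (χ g : ZMod p) * (χ g : ZMod p) -
      (curveRep p W g).trace * (χ g : ZMod p) + (curveRep p W g).det = 0 := by
  obtain ⟨s, H, hs, hH, hopen, hfix⟩ :=
    FA.OpenImageAll.exists_index_two_of_sqrt hE.sqfree hE.ne_one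
  obtain ⟨Y, c, hY, -, hYY, hc, ha⟩ := FA.CMStructure.exists_sqrt_modp (p := p) hE hs hH hopen hfix
  rw [(ZMod.intCast_zmod_eq_zero_iff_dvd d p).mpr hpd, mul_zero, zero_smul] at hYY
  set r := curveRep p W
  obtain ⟨v, hv⟩ : ∃ v, Y *ᵥ v ≠ 0 := by
    by_contra hcon
    push Not at hcon
    exact hY (Matrix.ext_iff_mulVec.mpr fun v => by rw [hcon v, zero_mulVec])
  set w := Y *ᵥ v
  have hw : Y *ᵥ w = 0 := by rw [mulVec_mulVec, hYY, zero_mulVec]
  have hline : ∀ g, ∃ a : ZMod p, r g *ᵥ w = a • w := fun g => by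
    have hgw : Y *ᵥ (r g *ᵥ w) = 0 := by
      have h1 : r g *ᵥ (Y *ᵥ w) = 0 := by rw [hw, mulVec_zero]
      rw [mulVec_mulVec] at h1 ⊢
      by_cases hg : g ∈ H
      · rwa [hc g hg] at h1
      · rwa [ha g hg, neg_mulVec, neg_eq_zero] at h1
    by_contra hcon
    push Not at hcon
    have hli : LinearIndependent (ZMod p) ![w, r g *ᵥ w] :=
      LinearIndependent.pair_iff' hv |>.mpr fun a e => hcon a e.symm
    refine hY (Matrix.toLin'.injective ((LinearMap.ext_on_range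
      (v := ![w, r g *ᵥ w]) (f := Matrix.toLin' Y) (g := 0)
      (hli.span_eq_top_of_card_eq_finrank (by simp)) fun i => ?_).trans (map_zero _).symm))
    fin_cases i
    exacts [hw, hgw]
  choose χ hχ using hline
  have huniq : ∀ a b : ZMod p, a • w = b • w → a = b := fun _ _ h => smul_left_injective _ hv h
  let f : GQ →* ZMod p :=
    { toFun := χ
      map_one' := huniq _ _ (by rw [← hχ, map_one, one_mulVec, one_smul])
      map_mul' := fun g h => huniq _ _ (by
        rw [← hχ, map_mul, ← mulVec_mulVec, hχ, mulVec_smul, hχ, smul_smul, mul_comm]) }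
  refine ⟨f.toHomUnits, Subgroup.isOpen_mono (fun g hg => MonoidHom.mem_ker.mpr (Units.ext ?_))
    (FA.OpenImageAll.isOpen_ker_toHomUnits (W := W) p), fun g => ?_⟩
  · have h1 : r g = 1 := congrArg Units.val (MonoidHom.mem_ker.mp hg)
    rw [MonoidHom.coe_toHomUnits, Units.val_one]
    exact huniq _ _ (by rw [show f g = χ g from rfl, ← hχ, h1, one_mulVec, one_smul])
  · rw [MonoidHom.coe_toHomUnits]
    exact FA.Ribet.sq_sub_trace_mul_add_det hv (hχ g)

/-- At a Frobenius element the character is half the trace, or a square root of `-q`. -/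
theorem lineCharacter_frobenius (hp2 : p ≠ 2) (hpd : (p : ℤ) ∣ d) {a : ℤ} {q : ℕ} {x : ZMod p}
    (hx : x * x - (a : ZMod p) * x + (q : ZMod p) = 0)
    (h : a ≠ 0 → ∃ b : ℤ, a ^ 2 - 4 * q = d * b ^ 2) :
    (a = 0 ∧ x ^ 2 = -(q : ZMod p)) ∨ (a ≠ 0 ∧ 2 * x = (a : ZMod p) ∧ x ^ 2 = (q : ZMod p)) := by
  by_cases ha : a = 0
  · refine Or.inl ⟨ha, ?_⟩
    rw [ha, Int.cast_zero, zero_mul, sub_zero] at hx
    linear_combination hx
  · obtain ⟨b, hb⟩ := h ha
    have hb' := congrArg (Int.cast (R := ZMod p)) hb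
    push_cast at hb'
    rw [(ZMod.intCast_zmod_eq_zero_iff_dvd d p).mpr hpd, zero_mul] at hb'
    have h2x : 2 * x - (a : ZMod p) = 0 :=
      pow_eq_zero_iff two_ne_zero |>.mp (show (2 * x - (a : ZMod p)) ^ 2 = 0 by
        linear_combination 4 * hx + hb')
    refine Or.inr ⟨ha, sub_eq_zero.mp h2x, ?_⟩
    have h20 : (2 : ZMod p) ≠ 0 := fun e => hp2 ((Nat.prime_dvd_prime_iff_eq hp.out
      Nat.prime_two).mp ((ZMod.natCast_eq_zero_iff 2 p).mp (by exact_mod_cast e)))
    refine mul_left_cancel₀ (pow_ne_zero 2 h20) ?_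
    linear_combination (2 * x + (a : ZMod p)) * h2x + hb'

variable {W W' : WeierstrassCurve ℤ} [(ratCurve W).IsElliptic] [(ratCurve W').IsElliptic]

/-- **The traces differ by a quadratic character of Galois.** -/
theorem exists_signChar (hE : IsExceptional W d) (hE' : IsExceptional W' d)
    (hd : d = -(p : ℤ)) (hp3 : 3 < p) :
    ∃ (ε : GQ →* ℤˣ) (S : Finset ℕ), IsOpen (ε.ker : Set GQ) ∧ ∀ q : ℕ, q.Prime → q ∉ S →
      W.IsGoodPrimeFor q ∧ W'.IsGoodPrimeFor q ∧
      ∀ A : ValuationSubring Qb, A.LiesOverPrime q → ∀ σ : GQ, A.IsFrobeniusAt σ q →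
        W'.apOfModel q = ((ε σ : ℤˣ) : ℤ) * W.apOfModel q := by
  classical
  have hpd : (p : ℤ) ∣ d := hd ▸ dvd_neg.mpr dvd_rfl
  obtain ⟨χ, hχo, hχ⟩ := exists_lineCharacter hE hpd
  obtain ⟨χ', hχo', hχ'⟩ := exists_lineCharacter hE' hpd
  set ψ : GQ →* (ZMod p)ˣ := χ' * χ⁻¹
  have hψo : IsOpen (ψ.ker : Set GQ) := Subgroup.isOpen_mono (H₁ := χ'.ker ⊓ χ.ker)
    (fun g hg => by
      rw [MonoidHom.mem_ker, MonoidHom.mul_apply, MonoidHom.inv_apply,
        MonoidHom.mem_ker.mp hg.1, MonoidHom.mem_ker.mp hg.2, inv_one, mul_one])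
    (by rw [Subgroup.coe_inf]; exact hχo'.inter hχo)
  set S : Finset ℕ := {2, p} ∪ W.Δ.natAbs.primeFactors ∪ W'.Δ.natAbs.primeFactors
  have hgood : ∀ q : ℕ, q.Prime → q ∉ S → q ≠ 2 ∧ q ≠ p ∧ W.IsGoodPrimeFor q ∧
      W'.IsGoodPrimeFor q := fun q hq hqS => by
    simp only [S, Finset.mem_union, Finset.mem_insert, Finset.mem_singleton, not_or] at hqS
    exact ⟨hqS.1.1.1, hqS.1.1.2,
      fun h => hqS.1.2 (Nat.mem_primeFactors.mpr ⟨hq, Int.natCast_dvd.mp h,
        Int.natAbs_ne_zero.mpr FA.Exceptional.Δ_ne_zero⟩),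
      fun h => hqS.2 (Nat.mem_primeFactors.mpr ⟨hq, Int.natCast_dvd.mp h,
        Int.natAbs_ne_zero.mpr FA.Exceptional.Δ_ne_zero⟩)⟩
  have h20 : (2 : ZMod p) ≠ 0 := fun e => by
    have := (Nat.prime_dvd_prime_iff_eq hp.out Nat.prime_two).mp
      ((ZMod.natCast_eq_zero_iff 2 p).mp (by exact_mod_cast e))
    omega
  -- both characters at a Frobenius element
  have key : ∀ q : ℕ, q.Prime → q ∉ S → ∀ A : ValuationSubring Qb, A.LiesOverPrime q →
      ∀ σ : GQ, A.IsFrobeniusAt σ q → (χ' σ : ZMod p) ^ 2 = (χ σ : ZMod p) ^ 2 ∧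
        (W.apOfModel q = 0 ∧ W'.apOfModel q = 0 ∨
          2 * (χ σ : ZMod p) = W.apOfModel q ∧ 2 * (χ' σ : ZMod p) = W'.apOfModel q ∧
            W'.apOfModel q ^ 2 = W.apOfModel q ^ 2 ∧ (W.apOfModel q : ZMod p) ≠ 0) := by
    intro q hq hqS A hA σ hσ
    obtain ⟨hq2, hqp, g, g'⟩ := hgood q hq hqS
    have hqd : ¬ (q : ℤ) ∣ d := fun h => hqp ((Nat.prime_dvd_prime_iff_eq hq hp.out).mp
      (Int.natCast_dvd_natCast.mp (dvd_neg.mp (hd ▸ h))))
    have hzero : ∀ {V : WeierstrassCurve ℤ} [(ratCurve V).IsElliptic], IsExceptional V d →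
        V.IsGoodPrimeFor q → (V.apOfModel q = 0 ↔ ¬ IsSquare (d : ZMod q)) := fun {V} _ hV gV =>
      ⟨fun e hsq => FA.Exceptional.apOfModel_ne_zero_of_split hV.sqfree hV.ne_one hV.vanish hq gV
        hq2 hqd hsq e, hV.vanish q hq gV⟩
    obtain ⟨ht, hdet⟩ := FA.Ribet.curveRep_frobenius (p := p) hq hqp g hA hσ
    obtain ⟨ht', hdet'⟩ := FA.Ribet.curveRep_frobenius (p := p) hq hqp g' hA hσ
    have e := hχ σ
    have e' := hχ' σ
    rw [ht, hdet] at e
    rw [ht', hdet'] at e'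
    have hdisc := fun h => FA.Exceptional.exists_disc_eq hE.sqfree hE.ne_one hE.vanish hq g h
    have hdisc' := fun h => FA.Exceptional.exists_disc_eq hE'.sqfree hE'.ne_one hE'.vanish hq g' h
    rcases lineCharacter_frobenius (by omega) hpd e hdisc with ⟨ha, hx⟩ | ⟨ha, h2, hx⟩ <;>
      rcases lineCharacter_frobenius (by omega) hpd e' hdisc' with ⟨ha', hx'⟩ | ⟨ha', h2', hx'⟩
    · exact ⟨hx'.trans hx.symm, Or.inl ⟨ha, ha'⟩⟩
    · exact absurd ((hzero hE' g').mpr ((hzero hE g).mp ha)) ha'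
    · exact absurd ((hzero hE g).mpr ((hzero hE' g').mp ha')) ha
    · obtain ⟨b, hb⟩ := hdisc ha
      obtain ⟨b', hb'⟩ := hdisc' ha'
      refine ⟨hx'.trans hx.symm, Or.inr ⟨h2, h2', ?_, fun h0 => ?_⟩⟩
      · exact (sq_eq_of_norm (D := (p : ℤ)) hq hq2 (by
          have : p ≠ 4 := fun h => by exact absurd (h ▸ hp.out) (by decide)
          omega) ((Int.odd_coe_nat p).mpr (hp.out.odd_of_ne_two (by omega)))
          (b := b') (b' := b) (by rw [hd] at hb'; linear_combination hb')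
          (by rw [hd] at hb; linear_combination hb))
      · have hx0 : (χ σ : ZMod p) = 0 := (mul_eq_zero.mp (h2.trans h0)).resolve_left h20
        exact (χ σ).ne_zero hx0
  -- the ratio takes the values one and minus one
  have hψ : ∀ σ, ψ σ = 1 ∨ ψ σ = -1 := fun σ => by
    have h2 : (ψ σ : ZMod p) ^ 2 = 1 := by
      by_contra hne
      obtain ⟨q, hq, hqS, hF⟩ := FA.OpenImageAll.exists_frobenius_mem_of_mem ψ hψo
        (X := {g | (g : ZMod p) ^ 2 ≠ 1})
        (fun g hg x => by rwa [mul_comm x, mul_inv_cancel_right]) hne S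
      obtain ⟨A, hA⟩ := FA.Deform.exists_liesOverPrime hq
      obtain ⟨F, hFr⟩ := FA.Deform.exists_isFrobeniusAt hq hA
      refine hF A hA F hFr ?_
      rw [MonoidHom.mul_apply, MonoidHom.inv_apply, Units.val_mul, Units.val_inv_eq_inv_val,
        mul_pow, inv_pow, (key q hq hqS A hA F hFr).1,
        mul_inv_cancel₀ (pow_ne_zero 2 (Units.ne_zero _))]
    rcases sq_eq_one_iff.mp h2 with h | h
    exacts [Or.inl (Units.ext h), Or.inr (Units.ext (by rw [h, Units.val_neg, Units.val_one]))]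
  have hne1 : (-1 : (ZMod p)ˣ) ≠ 1 := fun e => h20 (by
    have h := congrArg Units.val e
    rw [Units.val_neg, Units.val_one] at h
    linear_combination -h)
  let ε : GQ →* ℤˣ :=
    { toFun := fun σ => if ψ σ = 1 then 1 else -1
      map_one' := if_pos (map_one ψ)
      map_mul' := fun a b => by
        rcases hψ a with h | h <;> rcases hψ b with h' | h' <;> simp [h, h', hne1] }
  refine ⟨ε, S, Subgroup.isOpen_mono (H₁ := ψ.ker) (fun σ hσ => if_pos hσ) hψo,
    fun q hq hqS => ⟨(hgood q hq hqS).2.2.1, (hgood q hq hqS).2.2.2, fun A hA σ hσ => ?_⟩⟩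
  obtain ⟨-, ⟨ha, ha'⟩ | ⟨h2, h2', hsq, hne⟩⟩ := key q hq hqS A hA σ hσ
  · rw [ha, ha', mul_zero]
  have hrel : (W'.apOfModel q : ZMod p) = (ψ σ : ZMod p) * W.apOfModel q := by
    rw [← h2, ← h2', MonoidHom.mul_apply, MonoidHom.inv_apply, Units.val_mul,
      Units.val_inv_eq_inv_val]
    field_simp
  have hεσ : ((ε σ : ℤˣ) : ℤ) = if ψ σ = 1 then 1 else -1 := by
    show (((if ψ σ = 1 then 1 else -1) : ℤˣ) : ℤ) = _
    split <;> rfl
  rw [hεσ]
  rcases hψ σ with h | h <;> rcases sq_eq_sq_iff_eq_or_eq_neg.mp hsq with e | e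
  · rw [if_pos h, one_mul, e]
  · rw [h, e, Int.cast_neg, Units.val_one, one_mul] at hrel
    exact absurd (mul_left_cancel₀ h20 (by linear_combination -hrel) :
      (W.apOfModel q : ZMod p) = 0) hne
  · rw [h, e, Units.val_neg, Units.val_one, neg_mul, one_mul] at hrel
    exact absurd (mul_left_cancel₀ h20 (by linear_combination hrel) :
      (W.apOfModel q : ZMod p) = 0) hne
  · rw [if_neg (h ▸ hne1), e, neg_mul, one_mul]

end FA.SameField

end
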