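import Fermat.Agent.OpenImageAll.CartanImage
import Fermat.Agent.Root.SummarySupersingularDensity

/-!
# Few elements of the normaliser of a Cartan subgroup have a given nonzero trace

Outside the Cartan subgroup the trace vanishes, and inside it a given trace leaves one free
parameter: at most `l` elements among at least `l (l - 2)`.
-/

set_option autoImplicit false
set_option linter.unusedSectionVars false
set_option linter.style.haveILetI false

noncomputable section

open NumberField IsDedekindDomain Matrix WeierstrassCurve FA.EC FA.Frob FA.RT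

local notation "Qb" => AlgebraicClosure ℚ
local notation "GQ" => AlgebraicClosure ℚ ≃ₐ[ℚ] AlgebraicClosure ℚ
local notation "M2" => Matrix (Fin 2) (Fin 2)

namespace FA.TraceValue

/-- An element anticommuting with a square root of a nonzero scalar has trace zero. -/
theorem trace_eq_zero_of_anticommute {k : Type*} [Field k] (h2 : (2 : k) ≠ 0) {δ : k} (hδ : δ ≠ 0)
    {Y M : M2 k} (hYY : Y * Y = δ • 1) (h : M * Y = -(Y * M)) : M.trace = 0 := by
  have h1 := congrArg Matrix.trace (congrArg (fun X => X * Y) h)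
  rw [neg_mul, trace_neg, mul_assoc, hYY, mul_smul_comm, mul_one, mul_assoc, trace_mul_comm Y,
    mul_assoc, hYY, mul_smul_comm, mul_one, trace_smul, eq_neg_iff_add_eq_zero, ← two_mul,
    mul_eq_zero, smul_eq_mul, mul_eq_zero] at h1
  exact (h1.resolve_left h2).resolve_left hδ

variable {l : ℕ} [hl : Fact l.Prime]

/-- **The share of a nonzero trace** in a group of matrices containing the invertible commutant
of `Y` and consisting of matrices commuting or anticommuting with it. -/
theorem card_trace_le {δ : ZMod l} {Y : M2 (ZMod l)} (h2 : (2 : ZMod l) ≠ 0) (hδ : δ ≠ 0)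
    (hYY : Y * Y = δ • 1) (hY : ∀ a : ZMod l, Y ≠ a • 1) {t : ZMod l} (ht : t ≠ 0)
    (H : Subgroup (GL (Fin 2) (ZMod l)))
    (hpm : ∀ g ∈ H, (g : M2 (ZMod l)) * Y = Y * g ∨ (g : M2 (ZMod l)) * Y = -(Y * g))
    (hfull : ∀ M : M2 (ZMod l), M.det ≠ 0 → M * Y = Y * M →
      ∃ g ∈ H, (g : M2 (ZMod l)) = M) :
    Nat.card {g : H | ((g : GL (Fin 2) (ZMod l)) : M2 (ZMod l)).trace = t} * (l - 2) ≤
      Nat.card H := by
  classical
  obtain ⟨htr, -⟩ := FA.CartanImage.trace_det_of_sq hYY hY
  -- at most `l` elements of trace `t`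
  have hcomm : ∀ g : H, ((g : GL (Fin 2) (ZMod l)) : M2 (ZMod l)).trace = t →
      ∃ a : ZMod l, ((g : GL (Fin 2) (ZMod l)) : M2 (ZMod l)) = a • Y + (t / 2) • 1 := fun g hg => by
    obtain ⟨a, b, hab⟩ := FA.Exceptional.exists_eq_add_of_commute hY ((hpm g g.2).resolve_right
      fun h => ht (hg ▸ trace_eq_zero_of_anticommute h2 hδ hYY h))
    refine ⟨a, ?_⟩
    rw [hab, trace_add, trace_smul, trace_smul, htr, trace_one, Fintype.card_fin, smul_zero,
      zero_add, smul_eq_mul, Nat.cast_ofNat] at hg
    rw [hab, ← hg, mul_div_cancel_right₀ _ h2]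
  choose f hf using fun g : {g : H | ((g : GL (Fin 2) (ZMod l)) : M2 (ZMod l)).trace = t} =>
    hcomm g.1 g.2
  have h1 : Nat.card {g : H | ((g : GL (Fin 2) (ZMod l)) : M2 (ZMod l)).trace = t} ≤ l :=
    (Nat.card_le_card_of_injective f fun g g' e => Subtype.ext (Subtype.ext (Units.ext (by
      rw [hf g, hf g', e])))).trans (le_of_eq (Nat.card_zmod l))
  -- at least `l (l - 2)` invertible elements of the commutant
  let T : Finset (ZMod l × ZMod l) :=
    Finset.univ.filter fun x => x.2 ^ 2 - δ * x.1 ^ 2 ≠ 0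
  have hT : l * (l - 2) ≤ T.card := by
    have hfib : ∀ a : ZMod l, l - 2 ≤ (T.filter fun x => x.1 = a).card := fun a => by
      have hbad : (Finset.univ.filter fun b : ZMod l => b ^ 2 = δ * a ^ 2).card ≤ 2 := by
        by_cases hex : ∃ b : ZMod l, b ^ 2 = δ * a ^ 2
        · obtain ⟨b₀, hb₀⟩ := hex
          refine (Finset.card_le_card (t := {b₀, -b₀}) fun b hb => ?_).trans Finset.card_le_two
          rw [Finset.mem_filter] at hb
          simpa using sq_eq_sq_iff_eq_or_eq_neg.mp (hb.2.trans hb₀.symm)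
        · push Not at hex
          simp [Finset.filter_eq_empty_iff.mpr fun b _ => hex b]
      have hadd := Finset.card_filter_add_card_filter_not (s := (Finset.univ : Finset (ZMod l)))
        fun b => b ^ 2 = δ * a ^ 2
      rw [Finset.card_univ, ZMod.card] at hadd
      refine le_trans (by omega) (Finset.card_le_card_of_injOn (fun b => (a, b))
        (s := Finset.univ.filter fun b : ZMod l => ¬ b ^ 2 = δ * a ^ 2)
        (fun b hb => ?_) fun x _ y _ e => (Prod.ext_iff.mp e).2)
      simp only [Finset.coe_filter, Finset.mem_univ, true_and, Set.mem_ofPred_eq] at hb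
      simp [T, sub_eq_zero, hb]
    calc l * (l - 2) = ∑ _a : ZMod l, (l - 2) := by simp [Finset.sum_const, ZMod.card]
      _ ≤ ∑ a : ZMod l, (T.filter fun x => x.1 = a).card := Finset.sum_le_sum fun a _ => hfib a
      _ = T.card := (Finset.card_eq_sum_card_fiberwise fun x _ => Finset.mem_univ x.1).symm
  have hmem : ∀ x : T, ∃ g ∈ H, (g : M2 (ZMod l)) = x.1.1 • Y + x.1.2 • 1 := fun x => by
    refine hfull _ ?_ ?_
    · rw [FA.CartanImage.det_combo hYY hY]
      exact (Finset.mem_filter.mp x.2).2
    · simp only [add_mul, mul_add, smul_mul_assoc, mul_smul_comm, one_mul, mul_one]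
  choose k hk hk' using hmem
  have h3 : T.card ≤ Nat.card H := by
    rw [← Nat.card_eq_finsetCard T]
    refine Nat.card_le_card_of_injective (fun x => (⟨k x, hk x⟩ : H)) fun x y e => Subtype.ext ?_
    have e1 := congrArg (fun g : H => ((g : GL (Fin 2) (ZMod l)) : M2 (ZMod l))) e
    simp only [hk'] at e1
    by_contra hne
    have e2 : (x.1.1 - y.1.1) • Y = (y.1.2 - x.1.2) • (1 : M2 (ZMod l)) := by
      rw [sub_smul, sub_smul, sub_eq_sub_iff_add_eq_add, e1, add_comm]
    by_cases h : x.1.1 = y.1.1
    · rw [h, sub_self, zero_smul, eq_comm, smul_eq_zero, sub_eq_zero] at e2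
      exact hne (Prod.ext h (e2.resolve_right one_ne_zero).symm)
    · exact hY ((x.1.1 - y.1.1)⁻¹ * (y.1.2 - x.1.2))
        (by rw [← smul_smul, ← e2, smul_smul, inv_mul_cancel₀ (sub_ne_zero.mpr h), one_smul])
  exact (Nat.mul_le_mul_right _ h1).trans (hT.trans h3)

end FA.TraceValue

end
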